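import Mathlib.RingTheory.Valuation.LocalSubring
import Mathlib.RingTheory.Polynomial.ScaleRoots

/-!
# Integral elements as the intersection of valuation rings
-/

set_option autoImplicit false

namespace FermatAgent.Curve

/-- An element of every valuation subring over an image is integral over the source. -/
theorem isIntegralElem_of_forall_valuationSubring {A E : Type*} [CommRing A] [Field E]
    (φ : A →+* E) {f : E} (h : ∀ V : ValuationSubring E, (∀ a, φ a ∈ V) → f ∈ V) :
    φ.IsIntegralElem f := by
  let := φ.toAlgebra
  show IsIntegral A f
  by_contra hne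
  have : IsIntegrallyClosedIn (integralClosure A E).toSubring E :=
    inferInstanceAs (IsIntegrallyClosedIn (integralClosure A E) E)
  obtain ⟨V, hV, hfV⟩ := Subring.exists_le_valuationSubring_of_isIntegrallyClosedIn
    (R := (integralClosure A E).toSubring) hne
  exact hfV (h V fun a => hV (isIntegral_algebraMap (x := a)))

open Polynomial in
/-- `r` times a root of a monic polynomial is integral over a subring containing the scaled
coefficients. -/
theorem isIntegral_scaled_root {E : Type*} [Field E] (S : Subring E) {p : E[X]} (hp : p.Monic)
    {z r : E} (hz : p.IsRoot z) (h : ∀ i < p.natDegree, p.coeff i * r ^ (p.natDegree - i) ∈ S) :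
    IsIntegral S (r * z) := by
  have hsub : ((p.scaleRoots r).coeffs : Set E) ⊆ S := fun t ht => by
    obtain ⟨i, -, rfl⟩ := mem_coeffs_iff.mp ht
    rw [coeff_scaleRoots]
    rcases lt_trichotomy i p.natDegree with hi | rfl | hi
    · exact h i hi
    · rw [hp.coeff_natDegree, Nat.sub_self, pow_zero, one_mul]; exact one_mem _
    · rw [coeff_eq_zero_of_natDegree_lt hi, zero_mul]; exact zero_mem _
  refine ⟨(p.scaleRoots r).toSubring _ hsub,
    (monic_toSubring _ _ hsub).mpr ((monic_scaleRoots_iff r).mpr hp), ?_⟩
  rw [show algebraMap S E = S.subtype from rfl, ← eval_map, map_toSubring]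
  exact scaleRoots_eval₂_eq_zero (RingHom.id E) hz

end FermatAgent.Curve
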