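import Fermat.Agent.Curve.Integral
import Fermat.Prelude.Def_AlgebraicCurve_DivisorPushPull

/-!
# Basic lemmas on places of a function field (for the Prelude's `AlgebraicCurve.Place`)
-/

set_option autoImplicit false

noncomputable section

open AlgebraicCurve WithZero

namespace FermatAgent.Curve

variable {K F : Type*} [Field K] [Field F] [Algebra K F] (v : Place K F)

/-- `ord v f ≥ n`, with the convention `ord 0 = ∞`. -/
def OrdGE (n : ℤ) (f : F) : Prop := f = 0 ∨ n ≤ v.ord f

variable {v}

/-- `ord (-f) = ord f`. -/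
theorem ord_neg_eq (f : F) : v.ord (-f) = v.ord f := by
  simp [Place.ord]

/-- A nonzero function is regular at `v` iff its order is nonnegative. -/
theorem mem_iff_ord_nonneg {f : F} (hf : f ≠ 0) : f ∈ v.toValuationSubring ↔ 0 ≤ v.ord f := by
  obtain ⟨π, hπ⟩ := IsDiscreteValuationRing.exists_irreducible v.toValuationSubring
  constructor
  · intro h
    obtain ⟨n, u, hu⟩ := IsDiscreteValuationRing.eq_unit_mul_pow_irreducible
      (x := (⟨f, h⟩ : v.toValuationSubring)) (by simpa [Subtype.ext_iff] using hf) hπ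
    have hu' : f = ((u : v.toValuationSubring) : F) * (π : F) ^ (n : ℤ) := by
      have := congrArg Subtype.val hu
      push_cast at this
      rw [zpow_natCast]; exact this
    rw [hu', v.ord_unit_smul_zpow u hπ]
    exact Int.natCast_nonneg n
  · intro h
    obtain ⟨u, hu⟩ := v.exists_unit_mul_zpow hf hπ
    rw [hu, ← Int.toNat_of_nonneg h, zpow_natCast]
    exact mul_mem (u : v.toValuationSubring).2 (pow_mem π.2 _)

/-- A function is regular at `v` iff `ord_v f ≥ 0`, with `0` allowed. -/
theorem mem_iff_ordGE {f : F} : f ∈ v.toValuationSubring ↔ OrdGE v 0 f := by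
  rcases eq_or_ne f 0 with rfl | hf
  · simp [OrdGE, zero_mem]
  · simp [OrdGE, hf, mem_iff_ord_nonneg hf]

/-- Zero satisfies every bound. -/
theorem OrdGE.zero {n : ℤ} : OrdGE v n (0 : F) := Or.inl rfl

/-- A lower bound on the order may be weakened. -/
theorem OrdGE.mono {n m : ℤ} {f : F} (h : OrdGE v n f) (hm : m ≤ n) : OrdGE v m f :=
  h.imp id (fun h => hm.trans h)

/-- For nonzero functions `OrdGE` is an inequality of orders. -/
theorem ordGE_iff_le {n : ℤ} {f : F} (hf : f ≠ 0) : OrdGE v n f ↔ n ≤ v.ord f := by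
  simp [OrdGE, hf]

/-- A function satisfies the bound given by its order. -/
theorem ordGE_self (f : F) : OrdGE v (v.ord f) f := Or.inr le_rfl

/-- `OrdGE` through the multiplicative valuation. -/
theorem ordGE_iff_adicValuation {n : ℤ} {f : F} :
    OrdGE v n f ↔ v.adicValuation f ≤ exp (-n) := by
  rcases eq_or_ne f 0 with rfl | hf
  · simp [OrdGE]
  · have : v.adicValuation f = exp (-v.ord f) := by
      simp only [Place.ord, neg_neg]
      rw [exp_log (v.adicValuation_ne_zero hf)]
    rw [ordGE_iff_le hf, this, exp_le_exp, neg_le_neg_iff]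

/-- Bounds on orders are kept by sums. -/
theorem OrdGE.add {n : ℤ} {f g : F} (hf : OrdGE v n f) (hg : OrdGE v n g) :
    OrdGE v n (f + g) := by
  rw [ordGE_iff_adicValuation] at *
  exact (Valuation.map_add _ _ _).trans (max_le hf hg)

/-- Bounds on orders are kept by negation. -/
theorem OrdGE.neg {n : ℤ} {f : F} (hf : OrdGE v n f) : OrdGE v n (-f) := by
  rcases hf with rfl | hf
  · exact Or.inl neg_zero
  · exact Or.inr (by rw [ord_neg_eq]; exact hf)

/-- Bounds on orders are kept by differences. -/
theorem OrdGE.sub {n : ℤ} {f g : F} (hf : OrdGE v n f) (hg : OrdGE v n g) :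
    OrdGE v n (f - g) := by
  rw [sub_eq_add_neg]; exact hf.add hg.neg

/-- Bounds on orders add up under products. -/
theorem OrdGE.mul {n m : ℤ} {f g : F} (hf : OrdGE v n f) (hg : OrdGE v m g) :
    OrdGE v (n + m) (f * g) := by
  rcases eq_or_ne f 0 with rfl | hf0
  · exact Or.inl (zero_mul g)
  rcases eq_or_ne g 0 with rfl | hg0
  · exact Or.inl (mul_zero f)
  rw [ordGE_iff_le (mul_ne_zero hf0 hg0), v.ord_mul hf0 hg0]
  exact add_le_add ((ordGE_iff_le hf0).1 hf) ((ordGE_iff_le hg0).1 hg)

/-- Bounds on orders are kept by finite sums. -/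
theorem OrdGE.sum {ι : Type*} {s : Finset ι} {n : ℤ} {f : ι → F}
    (h : ∀ i ∈ s, OrdGE v n (f i)) : OrdGE v n (∑ i ∈ s, f i) := by
  classical
  induction s using Finset.induction_on with
  | empty => simpa using OrdGE.zero
  | insert a s ha ih =>
    rw [Finset.sum_insert ha]
    exact (h a (Finset.mem_insert_self a s)).add (ih fun i hi => h i (Finset.mem_insert_of_mem hi))

/-- The order of a power. -/
theorem ord_pow (f : F) (n : ℕ) : v.ord (f ^ n) = n * v.ord f := by
  rw [← zpow_natCast, v.ord_zpow]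

/-- Bounds on orders multiply under powers. -/
theorem OrdGE.pow {n : ℤ} {f : F} (hf : OrdGE v n f) (k : ℕ) : OrdGE v (k * n) (f ^ k) := by
  induction k with
  | zero => simp [OrdGE]
  | succ k ih =>
    rw [pow_succ, Nat.cast_succ, add_mul, one_mul]
    exact ih.mul hf

/-- The order of a quotient. -/
theorem ord_div {f g : F} (hf : f ≠ 0) (hg : g ≠ 0) : v.ord (f / g) = v.ord f - v.ord g := by
  rw [div_eq_mul_inv, v.ord_mul hf (inv_ne_zero hg), v.ord_inv, sub_eq_add_neg]

/-- The order of a product. -/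
theorem ord_prod {ι : Type*} (s : Finset ι) (f : ι → F) (hf : ∀ i ∈ s, f i ≠ 0) :
    v.ord (∏ i ∈ s, f i) = ∑ i ∈ s, v.ord (f i) := by
  classical
  induction s using Finset.induction_on with
  | empty => simp
  | insert a s ha ih =>
    rw [Finset.prod_insert ha, Finset.sum_insert ha, v.ord_mul (hf a (Finset.mem_insert_self a s))
      (Finset.prod_ne_zero_iff.2 fun i hi => hf i (Finset.mem_insert_of_mem hi)),
      ih fun i hi => hf i (Finset.mem_insert_of_mem hi)]

/-- Nonzero constants have order zero. -/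
theorem ord_algebraMap {a : K} (ha : a ≠ 0) : v.ord (algebraMap K F a) = 0 := by
  have h1 := (mem_iff_ord_nonneg (v := v) ((map_ne_zero _).2 ha)).1 (v.algebraMap_mem' a)
  have h2 := (mem_iff_ord_nonneg (v := v) ((map_ne_zero _).2 (inv_ne_zero ha))).1
    (v.algebraMap_mem' a⁻¹)
  rw [map_inv₀, v.ord_inv] at h2
  omega

/-- Constants are regular. -/
theorem ordGE_algebraMap (a : K) : OrdGE v 0 (algebraMap K F a) :=
  mem_iff_ordGE.1 (v.algebraMap_mem' a)

/-- Bounds on orders are kept by constant multiples. -/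
theorem OrdGE.smul {n : ℤ} {f : F} (a : K) (hf : OrdGE v n f) : OrdGE v n (a • f) := by
  rw [Algebra.smul_def]
  simpa using (ordGE_algebraMap a).mul hf

/-- A function of nonnegative order is regular. -/
theorem OrdGE.mem {n : ℤ} {f : F} (hf : OrdGE v n f) (hn : 0 ≤ n) : f ∈ v.toValuationSubring :=
  mem_iff_ordGE.2 (hf.mono hn)

/-- `ord (f + g) = ord f` if `g` has strictly larger order. -/
theorem ord_add_eq_of_ordGE {f g : F} (hf : f ≠ 0) (hg : OrdGE v (v.ord f + 1) g) :
    f + g ≠ 0 ∧ v.ord (f + g) = v.ord f := by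
  have hne : f + g ≠ 0 := by
    intro h
    have : g = -f := eq_neg_of_add_eq_zero_right h
    rw [this, ordGE_iff_le (neg_ne_zero.2 hf), ord_neg_eq] at hg
    omega
  refine ⟨hne, le_antisymm ?_ ?_⟩
  · by_contra hlt
    push Not at hlt
    have h2 : OrdGE v (v.ord f + 1) ((f + g) - g) := OrdGE.sub (Or.inr hlt) hg
    rw [add_sub_cancel_right, ordGE_iff_le hf] at h2
    omega
  · exact (ordGE_iff_le hne).1 ((ordGE_self f).add (hg.mono (by omega)))

/-- A regular function vanishes at `v` iff it lies in the maximal ideal. -/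
theorem ordGE_one_iff_of_mem (a : v.toValuationSubring) :
    OrdGE v 1 (a : F) ↔ a ∈ IsLocalRing.maximalIdeal v.toValuationSubring := by
  rw [IsLocalRing.mem_maximalIdeal, mem_nonunits_iff]
  constructor
  · intro h hu
    have h0 := v.ord_coe_unit hu.unit
    rw [IsUnit.unit_spec] at h0
    rcases h with h | h
    · exact hu.ne_zero (Subtype.ext h)
    · omega
  · intro h
    rcases eq_or_ne (a : F) 0 with h0 | h0
    · exact Or.inl h0
    refine Or.inr ?_
    by_contra hlt
    apply h
    have hnn := (mem_iff_ord_nonneg (v := v) h0).1 a.2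
    have hmem : (a : F)⁻¹ ∈ v.toValuationSubring :=
      (mem_iff_ord_nonneg (inv_ne_zero h0)).2 (by rw [v.ord_inv]; omega)
    exact isUnit_iff_exists_inv.2 ⟨⟨_, hmem⟩, Subtype.ext (mul_inv_cancel₀ h0)⟩

/-- A regular function has residue zero iff it vanishes at `v`. -/
theorem residue_eq_zero_iff (a : v.toValuationSubring) :
    IsLocalRing.residue _ a = 0 ↔ OrdGE v 1 (a : F) := by
  rw [IsLocalRing.residue_eq_zero_iff, ordGE_one_iff_of_mem]

variable (v) in
/-- A place has a uniformizer. -/
theorem exists_ord_eq_one : ∃ t : F, t ≠ 0 ∧ v.ord t = 1 := by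
  obtain ⟨π, hπ⟩ := IsDiscreteValuationRing.exists_irreducible v.toValuationSubring
  refine ⟨π, ?_, v.ord_coe_irreducible hπ⟩
  simpa [ne_eq, ZeroMemClass.coe_eq_zero] using hπ.ne_zero

variable (v) in
/-- Every integer is the order of some function. -/
theorem exists_ord_eq (n : ℤ) : ∃ t : F, t ≠ 0 ∧ v.ord t = n := by
  obtain ⟨t, ht, ht1⟩ := exists_ord_eq_one v
  exact ⟨t ^ n, zpow_ne_zero n ht, by rw [v.ord_zpow, ht1, mul_one]⟩

/-- A place is determined by its valuation ring; one inclusion is enough. -/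
theorem eq_of_toValuationSubring_le {w : Place K F}
    (h : v.toValuationSubring ≤ w.toValuationSubring) : v = w := by
  refine Place.ext (le_antisymm h fun f hf => ?_)
  by_contra hfv
  -- `w` contains `v`'s ring and an element outside it, hence everything
  have hf0 : f ≠ 0 := fun h0 => hfv (h0 ▸ zero_mem _)
  have hneg : v.ord f < 0 := by
    by_contra hh; exact hfv ((mem_iff_ord_nonneg hf0).2 (by omega))
  refine w.ne_top' (SetLike.ext fun g => ⟨fun _ => ValuationSubring.mem_top g, fun _ => ?_⟩)
  rcases eq_or_ne g 0 with rfl | hg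
  · exact zero_mem _
  set k : ℕ := (v.ord g).natAbs with hk
  have hmem : g / f ^ k ∈ v.toValuationSubring := by
    rw [mem_iff_ord_nonneg (div_ne_zero hg (pow_ne_zero _ hf0)),
      ord_div hg (pow_ne_zero _ hf0), ord_pow]
    have h1 : (k : ℤ) * v.ord f ≤ (k : ℤ) * (-1) := by
      apply mul_le_mul_of_nonneg_left (by omega) (by omega)
    omega
  have := mul_mem (h hmem) (pow_mem hf k)
  rwa [div_mul_cancel₀ _ (pow_ne_zero _ hf0)] at this

/-- A place is determined by the functions regular at it. -/
theorem eq_of_forall_ord_nonneg {w : Place K F}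
    (h : ∀ f : F, f ≠ 0 → 0 ≤ v.ord f → 0 ≤ w.ord f) : v = w := by
  refine eq_of_toValuationSubring_le fun f hf => ?_
  rcases eq_or_ne f 0 with rfl | hf0
  · exact zero_mem _
  · exact (mem_iff_ord_nonneg hf0).2 (h f hf0 ((mem_iff_ord_nonneg hf0).1 hf))

/-- Of two distinct places, some function is regular at the first and has a pole at the second. -/
theorem exists_ord_nonneg_neg {w : Place K F} (h : v ≠ w) :
    ∃ f : F, f ≠ 0 ∧ 0 ≤ v.ord f ∧ w.ord f < 0 := by
  by_contra hc
  push Not at hc
  exact h (eq_of_forall_ord_nonneg hc)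

end FermatAgent.Curve
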