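import Mathlib.FieldTheory.IntermediateField.Adjoin.Basic
import Mathlib.RingTheory.Algebraic.Integral
import Mathlib.RingTheory.Adjoin.Polynomial.Bivariate
import Mathlib.Algebra.BigOperators.Field
import Mathlib.LinearAlgebra.Dimension.Constructions
import Fermat.Agent.Curve.PlaceLemmas

/-!
# Function fields of one variable; valuation rings are places

`IsFF K F`: `F` is finite over `K⟮x⟯` for some `x` transcendental over `K`.  Under this hypothesis
every valuation ring of `F/K` other than `⊤` is a discrete valuation ring, i.e. a `Place`.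
-/

set_option autoImplicit false

noncomputable section

open AlgebraicCurve IntermediateField Polynomial

namespace FermatAgent.Curve

/-- Algebraic function field of one variable over `K`. -/
class IsFF (K F : Type*) [Field K] [Field F] [Algebra K F] : Prop where
  exists_transcendental : ∃ x : F, Transcendental K x ∧ FiniteDimensional K⟮x⟯ F

variable {K F : Type*} [Field K] [Field F] [Algebra K F]

theorem isAlgebraic_adjoin_swap {x y : F} (hx : Transcendental K x) (hy : Transcendental K y)
    (h : IsAlgebraic K⟮x⟯ y) : IsAlgebraic K⟮y⟯ x :=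
  isAlgebraic_adjoin_iff.mpr
    (IsAlgebraic.adjoin_singleton hx hy (isAlgebraic_adjoin_iff.mp h))

theorem transcendental_of_not_isAlgebraic {t : F} (O : ValuationSubring F)
    (hK : ∀ a : K, algebraMap K F a ∈ O) (ht : t ∈ O) (ht0 : t ≠ 0) (hinv : t⁻¹ ∉ O) :
    Transcendental K t := by
  intro halg
  apply hinv
  have : t⁻¹ ∈ Algebra.adjoin K {t} := by
    have := halg.isIntegral
    rw [← adjoin_simple_toSubalgebra_of_isAlgebraic halg]
    exact (inv_mem (mem_adjoin_simple_self K t) : t⁻¹ ∈ K⟮t⟯)
  refine Algebra.adjoin_induction (p := fun z _ => z ∈ O) ?_ hK (fun _ _ _ _ => add_mem)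
    (fun _ _ _ _ => mul_mem) this
  rintro z rfl; exact ht

variable [IsFF K F]

/-- `F` is finite over `K⟮y⟯` for every transcendental `y`. -/
theorem IsFF.finite_adjoin {y : F} (hy : Transcendental K y) : FiniteDimensional K⟮y⟯ F := by
  obtain ⟨x, hx, hfin⟩ := IsFF.exists_transcendental (K := K) (F := F)
  have halg : IsAlgebraic K⟮y⟯ x :=
    isAlgebraic_adjoin_swap hx hy (Algebra.IsAlgebraic.isAlgebraic y)
  have : FiniteDimensional K⟮y⟯ K⟮y⟯⟮x⟯ :=
    adjoin.finiteDimensional (isAlgebraic_iff_isIntegral.mp halg)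
  let E : IntermediateField K F := (K⟮y⟯⟮x⟯).restrictScalars K
  have hle : K⟮x⟯ ≤ E :=
    adjoin_simple_le_iff.mpr (mem_adjoin_simple_self K⟮y⟯ x)
  let : Algebra K⟮x⟯ E := (IntermediateField.inclusion hle).toRingHom.toAlgebra
  have : IsScalarTower K⟮x⟯ E F := IsScalarTower.of_algebraMap_eq fun _ => rfl
  have : Module.Finite E F := Module.Finite.of_restrictScalars_finite K⟮x⟯ E F
  have : Module.Finite (K⟮y⟯⟮x⟯) F := ‹Module.Finite E F›
  exact Module.Finite.trans (K⟮y⟯⟮x⟯) F

section Valuation

variable (O : ValuationSubring F) (hK : ∀ a : K, algebraMap K F a ∈ O)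

/-- A decreasing chain `f 0, f 1, …` in the maximal ideal above `t`. -/
structure IdealChain (t : F) (k : ℕ) where
  /-- the members of the chain -/
  seq : Fin k → F
  mem : ∀ i, seq i ∈ O
  nonunit : ∀ i, (seq i)⁻¹ ∉ O
  ne_zero : ∀ i, seq i ≠ 0
  dvd_t : ∀ i, t / seq i ∈ O
  strict : ∀ i j, i < j → seq j / seq i ∈ O ∧ seq i / seq j ∉ O

omit [IsFF K F] in
/-- A nonzero family of polynomials is a power of `X` times one with a nonzero constant term. -/
private theorem exists_X_pow_mul_coeff_ne {k : ℕ} (P : Fin k → K[X]) (h : ∃ i, P i ≠ 0) :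
    ∃ (m : ℕ) (Q : Fin k → K[X]), (∀ i, P i = X ^ m * Q i) ∧ ∃ i, (Q i).coeff 0 ≠ 0 := by
  classical
  obtain ⟨i₀, hP0⟩ := h
  have hne : (Finset.univ.filter fun i => P i ≠ 0).Nonempty := ⟨i₀, by simp [hP0]⟩
  obtain ⟨j, hj, hjmin⟩ := Finset.exists_min_image _ (fun i => (P i).natTrailingDegree) hne
  set m := (P j).natTrailingDegree
  have hdvd : ∀ i, X ^ m ∣ P i := by
    intro i
    rw [X_pow_dvd_iff]
    intro d hd
    by_cases hi : P i = 0
    · simp [hi]
    · exact coeff_eq_zero_of_lt_natTrailingDegree (hd.trans_le (hjmin i (by simp [hi])))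
  choose Q hQ using hdvd
  refine ⟨m, Q, hQ, j, ?_⟩
  have := congrArg (coeff · m) (hQ j)
  simp only [coeff_X_pow_mul'] at this
  simp only [Finset.mem_filter, Finset.mem_univ, true_and] at hj
  rw [if_pos le_rfl, Nat.sub_self] at this
  rw [← this]
  exact mem_support_iff.mp (natTrailingDegree_mem_support_of_nonzero hj)

omit [IsFF K F] in
/-- The nonunits of a valuation ring are closed under addition. -/
private theorem isNonunit_add {a b : F} (ha : a ∈ O ∧ (a ≠ 0 → a⁻¹ ∉ O))
    (hb : b ∈ O ∧ (b ≠ 0 → b⁻¹ ∉ O)) : a + b ∈ O ∧ (a + b ≠ 0 → (a + b)⁻¹ ∉ O) := by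
  refine ⟨add_mem ha.1 hb.1, fun h0 hmem => ?_⟩
  rcases eq_or_ne a 0 with rfl | ha0
  · rw [zero_add] at h0 hmem; exact hb.2 h0 hmem
  rcases eq_or_ne b 0 with rfl | hb0
  · rw [add_zero] at h0 hmem; exact ha.2 h0 hmem
  rcases O.mem_or_inv_mem (a / b) with h | h
  · have : (a + b) / b ∈ O := by rw [add_div, div_self hb0]; exact add_mem h (one_mem O)
    exact hb.2 hb0 (by
      have := mul_mem this hmem
      rwa [div_mul_eq_mul_div, mul_inv_cancel₀ h0, one_div] at this)
  · rw [inv_div] at h
    have : (a + b) / a ∈ O := by rw [add_div, div_self ha0]; exact add_mem (one_mem O) h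
    exact ha.2 ha0 (by
      have := mul_mem this hmem
      rwa [div_mul_eq_mul_div, mul_inv_cancel₀ h0, one_div] at this)

include hK in
omit [IsFF K F] in
/-- The members of a chain in the maximal ideal above `t` are linearly independent over `K⟮t⟯`. -/
theorem IdealChain.linearIndependent {t : F} (ht : Transcendental K t) (htO : t ∈ O)
    (htinv : t⁻¹ ∉ O) {k : ℕ} (c : IdealChain O t k) :
    LinearIndependent K⟮t⟯ c.seq := by
  classical
  have ht0 : t ≠ 0 := fun h => ht (h ▸ isAlgebraic_zero)
  rw [Fintype.linearIndependent_iff]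
  intro g hg i₀
  by_contra hi₀
  -- clear denominators
  have hrep : ∀ i, ∃ r s : K[X], (g i : F) = aeval t r / aeval t s :=
    fun i => (mem_adjoin_simple_iff K _).mp (g i).2
  choose r s hrs using hrep
  set s' : Fin k → K[X] := fun i => if g i = 0 then 1 else s i with hs'def
  have hs' : ∀ i, aeval t (s' i) ≠ 0 := by
    intro i
    simp only [hs'def]
    split_ifs with h
    · simp
    · intro h0; exact h (Subtype.ext (by rw [hrs i, h0, div_zero]; rfl))
  have hrs' : ∀ i, ∃ r' : K[X], (g i : F) * aeval t (∏ j, s' j) = aeval t r' := by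
    intro i
    by_cases h : g i = 0
    · exact ⟨0, by simp [h]⟩
    refine ⟨r i * ∏ j ∈ Finset.univ.erase i, s' j, ?_⟩
    have hsi : s' i = s i := by simp [hs'def, h]
    rw [← Finset.mul_prod_erase _ _ (Finset.mem_univ i), map_mul, map_mul, hrs i, ← mul_assoc]
    congr 1
    rw [hsi]
    exact div_mul_cancel₀ _ (hsi ▸ hs' i)
  choose P hP using hrs'
  have hDne : aeval t (∏ j, s' j) ≠ 0 := by
    rw [map_prod]; exact Finset.prod_ne_zero_iff.2 fun i _ => hs' i
  have hsum : ∑ i, aeval t (P i) * c.seq i = 0 := by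
    have : (∑ i, (g i : F) * c.seq i) = 0 := by simpa [IntermediateField.smul_def] using hg
    calc ∑ i, aeval t (P i) * c.seq i
        = aeval t (∏ j, s' j) * ∑ i, (g i : F) * c.seq i := by
          rw [Finset.mul_sum]; refine Finset.sum_congr rfl fun i _ => ?_; rw [← hP i]; ring
      _ = 0 := by rw [this, mul_zero]
  have hP0 : P i₀ ≠ 0 := by
    intro h
    have := hP i₀
    rw [h, map_zero, mul_eq_zero, or_iff_left hDne] at this
    exact hi₀ (Subtype.ext this)
  -- remove the largest common power of `X`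
  obtain ⟨m, Q, hPQ, hQ⟩ := exists_X_pow_mul_coeff_ne P ⟨i₀, hP0⟩
  have hsum' : ∑ i, aeval t (Q i) * c.seq i = 0 := by
    have h1 : t ^ m * ∑ i, aeval t (Q i) * c.seq i = 0 := by
      rw [← hsum, Finset.mul_sum]
      refine Finset.sum_congr rfl fun i _ => ?_
      rw [hPQ i, map_mul, map_pow, aeval_X, mul_assoc]
    exact (mul_eq_zero.mp h1).resolve_left (pow_ne_zero _ ht0)
  have haev : ∀ p : K[X], aeval t p ∈ O := fun p => by
    induction p using Polynomial.induction_on' with
    | add p q hp hq => rw [map_add]; exact add_mem hp hq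
    | monomial n a => rw [aeval_monomial]; exact mul_mem (hK a) (pow_mem htO n)
  have hne : (Finset.univ.filter fun i => (Q i).coeff 0 ≠ 0).Nonempty := by
    obtain ⟨i, hi⟩ := hQ; exact ⟨i, by simp [hi]⟩
  obtain ⟨j, hj, hjmin⟩ := Finset.exists_min_image _ (fun i => i) hne
  simp only [Finset.mem_filter, Finset.mem_univ, true_and] at hj
  -- all terms other than `c₀ * seq j` are in `seq j * m`
  let M : F → Prop := fun z => z ∈ O ∧ (z ≠ 0 → z⁻¹ ∉ O)
  have hM : ∀ a ∈ O, ∀ b, M b → M (a * b) := by
    intro a ha b hb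
    refine ⟨mul_mem ha hb.1, fun h0 hmem => hb.2 (right_ne_zero_of_mul h0) ?_⟩
    have h2 := mul_mem ha hmem
    rwa [mul_inv, ← mul_assoc, mul_inv_cancel₀ (left_ne_zero_of_mul h0), one_mul] at h2
  have hMadd : ∀ a b, M a → M b → M (a + b) := fun a b => isNonunit_add O
  have htM : M t := ⟨htO, fun _ => htinv⟩
  have hterm : ∀ i, M ((aeval t (Q i) * c.seq i -
      (if i = j then algebraMap K F ((Q j).coeff 0) * c.seq j else 0)) / c.seq j) := by
    intro i
    have hQi : aeval t (Q i) = algebraMap K F ((Q i).coeff 0) + t * aeval t (Q i).divX := by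
      conv_lhs => rw [← X_mul_divX_add (Q i)]
      rw [map_add, map_mul, aeval_X, aeval_C, add_comm]
    rcases lt_trichotomy i j with hij | hij | hij
    · have h0 : (Q i).coeff 0 = 0 := by
        by_contra h; exact absurd (hjmin i (by simp [h])) (not_le.mpr hij)
      rw [if_neg hij.ne, sub_zero, hQi, h0, map_zero, zero_add]
      have : t * aeval t (Q i).divX * c.seq i / c.seq j
          = aeval t (Q i).divX * (t / c.seq j) * c.seq i := by ring
      rw [this]
      exact hM _ (mul_mem (haev _) (c.dvd_t j)) _ ⟨c.mem i, fun _ => c.nonunit i⟩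
    · subst hij
      rw [if_pos rfl, hQi]
      have : ((algebraMap K F ((Q i).coeff 0) + t * aeval t (Q i).divX) * c.seq i
          - algebraMap K F ((Q i).coeff 0) * c.seq i) / c.seq i = aeval t (Q i).divX * t := by
        field_simp [c.ne_zero i]; ring
      rw [this]
      exact hM _ (haev _) _ htM
    · rw [if_neg hij.ne', sub_zero]
      have hs := c.strict j i hij
      rw [show aeval t (Q i) * c.seq i / c.seq j = aeval t (Q i) * (c.seq i / c.seq j) by ring]
      exact hM _ (haev _) _ ⟨hs.1, fun _ => by rw [inv_div]; exact hs.2⟩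
  have hall : M (∑ i, (aeval t (Q i) * c.seq i -
      (if i = j then algebraMap K F ((Q j).coeff 0) * c.seq j else 0)) / c.seq j) :=
    Finset.sum_induction _ M hMadd ⟨zero_mem O, fun h => (h rfl).elim⟩ fun i _ => hterm i
  rw [← Finset.sum_div, Finset.sum_sub_distrib, hsum', Finset.sum_ite_eq' _ j, if_pos
    (Finset.mem_univ j), zero_sub, neg_div, mul_div_assoc, div_self (c.ne_zero j), mul_one] at hall
  refine hall.2 (neg_ne_zero.2 ((_root_.map_ne_zero _).2 hj)) ?_
  rw [inv_neg, ← map_inv₀]
  exact neg_mem (hK _)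

include hK in
/-- A valuation ring of a function field of one variable containing the constants is a principal
ideal ring. -/
theorem isPrincipalIdealRing_of_isFF : IsPrincipalIdealRing O := by
  classical
  refine ⟨fun I => ?_⟩
  by_cases hI : I = ⊥
  · subst hI; exact ⟨⟨0, by simp⟩⟩
  by_cases hItop : I = ⊤
  · subst hItop; exact ⟨⟨1, by simp⟩⟩
  obtain ⟨t, htI, ht0⟩ := Submodule.exists_mem_ne_zero_of_ne_bot hI
  have hnu : ∀ z ∈ I, z ≠ 0 → (z : F)⁻¹ ∉ O := by
    intro z hz hz0 hmem
    refine hItop (Ideal.eq_top_of_isUnit_mem I hz ?_)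
    exact isUnit_iff_exists_inv.2 ⟨⟨_, hmem⟩,
      Subtype.ext (mul_inv_cancel₀ (fun h => hz0 (Subtype.ext h)))⟩
  have htinv := hnu t htI ht0
  have htF : (t : F) ≠ 0 := fun h => ht0 (Subtype.ext h)
  have htr : Transcendental K (t : F) :=
    transcendental_of_not_isAlgebraic O hK t.2 htF htinv
  have := IsFF.finite_adjoin htr
  by_contra hnp
  have step : ∀ z : O, z ∈ I → z ≠ 0 → ∃ w : O, w ∈ I ∧ (z : F) / w ∈ O ∧ (w : F) / z ∉ O := by
    intro z hz hz0
    by_contra hc
    push Not at hc
    refine hnp ⟨⟨z, le_antisymm (fun w hw => ?_) ((Ideal.span_singleton_le_iff_mem _).2 hz)⟩⟩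
    rw [Ideal.submodule_span_eq, Ideal.mem_span_singleton]
    rcases eq_or_ne w 0 with rfl | hw0
    · exact dvd_zero _
    have hwF : (w : F) ≠ 0 := fun h => hw0 (Subtype.ext h)
    have hzF : (z : F) ≠ 0 := fun h => hz0 (Subtype.ext h)
    have hwz : (w : F) / z ∈ O := by
      rcases O.mem_or_inv_mem ((w : F) / z) with h | h
      · exact h
      · rw [inv_div] at h
        exact hc w hw h
    exact ⟨⟨_, hwz⟩, Subtype.ext (mul_div_cancel₀ _ hzF).symm⟩
  have hchain : ∀ k, ∃ c : IdealChain O (t : F) k,
      ∀ i, ∃ h : c.seq i ∈ O, (⟨_, h⟩ : O) ∈ I := by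
    have key : ∀ k : ℕ, ∃ z : ℕ → O, z 0 = t ∧ (∀ i, z i ∈ I) ∧
        ∀ i, i < k → (z i : F) / z (i + 1) ∈ O ∧ (z (i + 1) : F) / z i ∉ O := by
      intro k
      induction k with
      | zero => exact ⟨fun _ => t, rfl, fun _ => htI, fun i hi => absurd hi (Nat.not_lt_zero i)⟩
      | succ k ih =>
        obtain ⟨z, hz0, hzI, hz⟩ := ih
        have hzk : z k ≠ 0 := by
          rcases Nat.eq_zero_or_pos k with rfl | hpos
          · rw [hz0]; exact ht0
          · obtain ⟨k, rfl⟩ : ∃ j, k = j + 1 := ⟨k - 1, by omega⟩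
            intro h
            exact (hz k (by omega)).2 (by simp [h])
        obtain ⟨w, hwI, hw⟩ := step (z k) (hzI k) hzk
        refine ⟨fun i => if i ≤ k then z i else w, by simp [hz0], fun i => ?_, fun i hi => ?_⟩
        · show (if i ≤ k then z i else w) ∈ I; split_ifs
          · exact hzI i
          · exact hwI
        · dsimp only
          rcases Nat.lt_or_ge i k with h | h
          · rw [if_pos h.le, if_pos (Nat.succ_le_of_lt h)]; exact hz i h
          · obtain rfl : i = k := by omega
            rw [if_pos le_rfl, if_neg (by omega)]; exact hw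
    intro k
    obtain ⟨z, hz0, hzI, hz⟩ := key k
    have hzne : ∀ i, i ≤ k → (z i : F) ≠ 0 := by
      intro i hi h
      rcases Nat.eq_zero_or_pos i with rfl | hpos
      · exact htF (hz0 ▸ h)
      · obtain ⟨i, rfl⟩ : ∃ j, i = j + 1 := ⟨i - 1, by omega⟩
        exact (hz i (by omega)).2 (by rw [h, zero_div]; exact zero_mem O)
    have hle : ∀ d i, i + d ≤ k → (z i : F) / z (i + d) ∈ O := by
      intro d
      induction d with
      | zero => intro i hi; rw [Nat.add_zero, div_self (hzne i (by omega))]; exact one_mem O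
      | succ d ih =>
        intro i hi
        have h2 := mul_mem (ih i (by omega)) (hz (i + d) (by omega)).1
        rwa [div_mul_div_cancel₀ (hzne (i + d) (by omega))] at h2
    refine ⟨⟨fun i => (z (k - i) : F), fun i => (z _).2,
      fun i => hnu _ (hzI _) (fun h => hzne (k - i) (by omega) (by rw [h]; rfl)),
      fun i => hzne _ (by omega), fun i => ?_, ?_⟩, fun i => ⟨(z _).2, hzI _⟩⟩
    · have := hle (k - i) 0 (by omega)
      rwa [zero_add, hz0] at this
    · intro i j hij
      obtain ⟨d, hd⟩ : ∃ d, k - (i : ℕ) = (k - (j : ℕ)) + (d + 1) := by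
        refine ⟨(j : ℕ) - i - 1, ?_⟩
        have := Fin.lt_def.mp hij
        omega
      refine ⟨?_, fun hmem => ?_⟩
      · show (z (k - (j : ℕ)) : F) / z (k - (i : ℕ)) ∈ O; rw [hd]; exact hle (d + 1) _ (by omega)
      · change (z (k - (i : ℕ)) : F) / z (k - (j : ℕ)) ∈ O at hmem
        rw [hd, ← Nat.add_assoc] at hmem
        have hlast := hle d (k - (j : ℕ)) (by omega)
        have h2 := mul_mem hmem hlast
        rw [div_mul_div_cancel₀ (hzne (k - (j : ℕ)) (by omega))] at h2
        exact (hz (k - (j : ℕ) + d) (by omega)).2 h2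
  obtain ⟨c, -⟩ := hchain (Module.finrank K⟮(t : F)⟯ F + 1)
  have := (c.linearIndependent O hK htr t.2 htinv).fintype_card_le_finrank
  simp at this

/-- The place attached to a nontrivial valuation ring containing the constants. -/
def placeOfValuationSubring (hO : O ≠ ⊤) : Place K F where
  toValuationSubring := O
  algebraMap_mem' := hK
  ne_top' := hO
  isPrincipalIdealRing' := isPrincipalIdealRing_of_isFF O hK

end Valuation

/-- Every transcendental element has a zero. -/
theorem exists_place_ord_pos {x : F} (hx : Transcendental K x) :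
    ∃ v : Place K F, 0 < v.ord x := by
  let A : Subring F := (Algebra.adjoin K {x}).toSubring
  let xA : A := ⟨x, Algebra.subset_adjoin rfl⟩
  have hI : Ideal.span {xA} ≠ ⊤ := by
    rw [Ne, Ideal.span_singleton_eq_top, isUnit_iff_exists_inv]
    rintro ⟨⟨b, hb⟩, hb'⟩
    have h1 : x * b = 1 := congrArg Subtype.val hb'
    obtain ⟨p, rfl⟩ := by
      rw [Subalgebra.mem_toSubring, Algebra.adjoin_singleton_eq_range_aeval] at hb
      exact hb
    have h2 : aeval x (X * p - 1) = 0 := by
      simpa [sub_eq_zero] using h1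
    have h3 := congrArg (coeff · 0) (transcendental_iff.mp hx _ h2)
    simp at h3
  obtain ⟨B, hAB, hB⟩ := Ideal.image_subset_nonunits_valuationSubring _ hI
  have hxB : x ∈ B.nonunits := hB ⟨xA, Ideal.subset_span rfl, rfl⟩
  have hK : ∀ a : K, algebraMap K F a ∈ B := fun a =>
    hAB ((Algebra.adjoin K {x}).algebraMap_mem a)
  have hx0 : x ≠ 0 := fun h => hx (h ▸ isAlgebraic_zero)
  have hinv : x⁻¹ ∉ B := fun h => by
    rw [← inv_inv x, ValuationSubring.inv_mem_nonunits_iff] at hxB
    rcases hxB with hxB | hxB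
    · exact inv_ne_zero hx0 hxB
    · exact hxB h
  refine ⟨placeOfValuationSubring B hK (fun h => hinv (h ▸ ValuationSubring.mem_top _)), ?_⟩
  by_contra hle
  apply hinv
  exact (mem_iff_ord_nonneg (v := placeOfValuationSubring B hK _) (inv_ne_zero hx0)).2
    (by rw [Place.ord_inv]; omega)

omit [IsFF K F] in
/-- An element with a zero or a pole is transcendental over the constants. -/
theorem transcendental_of_ord_ne_zero {v : Place K F} {x : F} (hx : v.ord x ≠ 0) :
    Transcendental K x := by
  intro halg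
  have hx0 : x ≠ 0 := fun h => hx (by rw [h, Place.ord_zero])
  rcases lt_or_gt_of_ne hx with h | h
  · refine transcendental_of_not_isAlgebraic v.toValuationSubring v.algebraMap_mem'
      ((mem_iff_ord_nonneg (inv_ne_zero hx0)).2 (by rw [v.ord_inv]; omega)) (inv_ne_zero hx0)
      (by rw [inv_inv, mem_iff_ord_nonneg hx0]; omega) halg.inv
  · refine transcendental_of_not_isAlgebraic v.toValuationSubring v.algebraMap_mem'
      ((mem_iff_ord_nonneg hx0).2 h.le) hx0
      (by rw [mem_iff_ord_nonneg (inv_ne_zero hx0), v.ord_inv]; omega) halg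

/-- An element has a zero or a pole at some place iff it is transcendental over the constants. -/
theorem exists_place_ord_ne_zero_iff {x : F} :
    (∃ v : Place K F, v.ord x ≠ 0) ↔ Transcendental K x :=
  ⟨fun ⟨_, h⟩ => transcendental_of_ord_ne_zero h,
    fun h => (exists_place_ord_pos h).imp fun _ h => h.ne'⟩

/-- A function field of one variable has a place. -/
theorem exists_place : Nonempty (Place K F) := by
  obtain ⟨x, hx, -⟩ := IsFF.exists_transcendental (K := K) (F := F)
  exact ⟨(exists_place_ord_pos hx).choose⟩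

end FermatAgent.Curve
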