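import Fermat.Agent.Curve.Extension

/-!
# Riemann's theorem: `ℓ(D) = deg D + 1 - g` for divisors of large degree

`rGenus` is the least upper bound of `deg D + 1 - ℓ(D)`, attained for all `D` of large degree
(`exists_rrDim_eq`).
-/

set_option autoImplicit false

noncomputable section

open AlgebraicCurve IntermediateField Module Polynomial

namespace FermatAgent.Curve

variable {K F : Type*} [Field K] [Field F] [Algebra K F]

/-- The dimension `ℓ(D)`. -/
def rrDim (D : Divisor K F) : ℕ := finrank K (riemannRochSpace D)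

/-- `D ≤ E` gives `L(D) ⊆ L(E)`. -/
theorem riemannRochSpace_le_of_le {D E : Divisor K F} (h : D ≤ E) :
    riemannRochSpace D ≤ riemannRochSpace E := fun f hf => by
  rw [mem_riemannRochSpace] at hf ⊢
  exact fun v => (hf v).mono (neg_le_neg (h v))

/-- A nonzero `f` lies in `L(D)` iff `ord_v f ≥ -D(v)` everywhere. -/
theorem mem_riemannRochSpace_iff_ne_zero {D : Divisor K F} {f : F} (hf : f ≠ 0) :
    f ∈ riemannRochSpace D ↔ ∀ v, -D v ≤ v.ord f := by
  simp only [mem_riemannRochSpace, ordGE_iff_le hf]

/-- `L(D) · L(E) ⊆ L(D + E)`. -/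
theorem mul_mem_riemannRochSpace {D E : Divisor K F} {f g : F} (hf : f ∈ riemannRochSpace D)
    (hg : g ∈ riemannRochSpace E) : f * g ∈ riemannRochSpace (D + E) := by
  rw [mem_riemannRochSpace] at hf hg ⊢
  exact fun v => ((hf v).mul (hg v)).mono (le_of_eq (by rw [Finsupp.add_apply]; ring))

/-- An effective divisor has nonnegative degree. -/
theorem degree_nonneg_of_nonneg {D : Divisor K F} (h : 0 ≤ D) : 0 ≤ Divisor.degree D := by
  rw [← Finsupp.sum_single D, map_finsuppSum]
  exact Finsupp.sum_nonneg fun v _ => by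
    rw [Divisor.degree_single]; exact mul_nonneg (h v) (Int.natCast_nonneg _)

/-- The degree is monotone. -/
theorem degree_mono {D E : Divisor K F} (h : D ≤ E) : Divisor.degree D ≤ Divisor.degree E := by
  have := degree_nonneg_of_nonneg (D := E - D) fun v => by
    simpa using sub_nonneg.mpr (h v)
  rw [map_sub] at this; linarith

variable [IsFF K F]

/-- Over an algebraically closed field comparable divisors of the same degree are equal. -/
theorem eq_of_le_of_degree_eq [IsAlgClosed K] {D E : Divisor K F} (hle : ∀ v, D v ≤ E v)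
    (hdeg : Divisor.degree D = Divisor.degree E) : D = E := by
  have h0 : (E - D).sum (fun _ n => n) = 0 := by
    rw [← degree_eq_sum, map_sub, hdeg, sub_self]
  have hnn : ∀ v, 0 ≤ (E - D) v := fun v => by
    rw [Finsupp.sub_apply]; linarith [hle v]
  refine Finsupp.ext fun v => ?_
  by_contra hne
  have hv : (E - D) v ≠ 0 := by rw [Finsupp.sub_apply]; omega
  exact hv ((Finset.sum_eq_zero_iff_of_nonneg fun w _ => hnn w).mp h0 v
    (Finsupp.mem_support_iff.mpr hv))

instance finite_riemannRochSpace (D : Divisor K F) : Module.Finite K (riemannRochSpace D) := by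
  obtain ⟨c, hc⟩ := exists_riemannRochSpace_bound (K := K) (F := F)
  set E : Divisor K F := D.mapRange (fun n => max n 0) (by simp) with hE
  have := (hc E fun v => by simp [hE]).1
  exact Module.Finite.equiv (Submodule.comapSubtypeEquivOfLe
    (riemannRochSpace_le_of_le (D := D) (E := E) fun v => by simp [hE]))

/-- `ℓ` is monotone. -/
theorem rrDim_mono {D E : Divisor K F} (h : D ≤ E) : rrDim D ≤ rrDim E :=
  Submodule.finrank_mono (riemannRochSpace_le_of_le h)

/-- For `D ≤ E`, `ℓ(E) ≤ ℓ(D) + deg(E - D)`. -/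
theorem rrDim_le_add {D E : Divisor K F} (h : D ≤ E) :
    (rrDim E : ℤ) ≤ rrDim D + Divisor.degree (E - D) := by
  classical
  suffices H : ∀ (n : ℕ) (G : Divisor K F), 0 ≤ G → (G.sum fun _ m => m.toNat) = n →
      (rrDim (D + G) : ℤ) ≤ rrDim D + Divisor.degree G by
    have h0 : 0 ≤ E - D := fun v => by simpa using sub_nonneg.mpr (h v)
    simpa using H _ (E - D) h0 rfl
  intro n
  induction n with
  | zero =>
    intro G hG hsum
    obtain rfl : G = 0 := Finsupp.ext fun v => by
      by_contra hv
      have h1 : 0 ≤ G v := hG v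
      have := Finset.sum_eq_zero_iff.1 hsum v (Finsupp.mem_support_iff.2 hv)
      have h2 : (G v).toNat = 0 := this
      simp only [Finsupp.zero_apply] at hv
      omega
    simp
  | succ n ih =>
    intro G hG hsum
    obtain ⟨v, hv⟩ : G.support.Nonempty := by
      rw [Finset.nonempty_iff_ne_empty]; intro h; simp [Finsupp.sum, h] at hsum
    have hv' : 0 < G v := lt_of_le_of_ne (hG v) (Ne.symm (Finsupp.mem_support_iff.1 hv))
    set G' := G - Finsupp.single v 1 with hG'def
    have hG' : 0 ≤ G' := fun w => by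
      have h1 : 0 ≤ G w := hG w
      simp only [hG'def, Finsupp.sub_apply, Finsupp.single_apply, Finsupp.zero_apply]
      split_ifs with h
      · subst h; omega
      · omega
    have hsum' : (G'.sum fun _ m => m.toNat) = n := by
      have hsub : G'.support ⊆ G.support := fun w hw => by
        rw [Finsupp.mem_support_iff] at hw ⊢
        intro h
        apply hw
        have h2 : 0 ≤ G' w := hG' w
        simp only [hG'def, Finsupp.sub_apply, Finsupp.single_apply] at h2 ⊢
        split_ifs at h2 ⊢ <;> omega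
      rw [Finsupp.sum_of_support_subset G' hsub _ (fun _ _ => rfl),
        ← Finset.add_sum_erase _ _ hv]
      rw [Finsupp.sum, ← Finset.add_sum_erase _ _ hv] at hsum
      have h2 : ∑ w ∈ G.support.erase v, (G' w).toNat = ∑ w ∈ G.support.erase v, (G w).toNat :=
        Finset.sum_congr rfl fun w hw => by simp [hG'def, (Finset.mem_erase.1 hw).1]
      rw [h2]
      simp only [hG'def, Finsupp.sub_apply, Finsupp.single_eq_same]
      omega
    obtain ⟨-, hle⟩ := riemannRochSpace_step (D + G') v
    have hih := ih G' hG' hsum'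
    have hGG : G' + Finsupp.single v 1 = G := sub_add_cancel _ _
    rw [← hGG, ← add_assoc, map_add, Divisor.degree_single, one_mul]
    have := Int.ofNat_le.2 hle
    push_cast at this
    simp only [rrDim] at hih ⊢
    linarith

/-- The pole divisor of `x` has degree `[F : K(x)]`. -/
theorem degree_poleDivisor {x : F} (hx : Transcendental K x) :
    Divisor.degree (poleDivisor x : Divisor K F) = finrank K⟮x⟯ F := by
  classical
  have hx' : Transcendental K x⁻¹ := fun h => hx (inv_inv x ▸ h.inv)
  have h := sum_zeros_eq_finrank hx'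
  rw [adjoin_inv_eq] at h
  rw [← h, poleDivisor, map_sum]
  simp only [Divisor.degree_single, Place.ord_inv]

/-- The pole divisor is effective. -/
theorem poleDivisor_nonneg (x : F) : 0 ≤ (poleDivisor x : Divisor K F) := fun v => by
  classical
  simp only [poleDivisor, Finsupp.finsetSum_apply, Finsupp.single_apply, Finset.sum_ite_eq',
    Finsupp.zero_apply, Set.Finite.mem_toFinset, Set.mem_ofPred_eq, Place.ord_inv]
  split_ifs <;> omega

/-- The multiplicity of a pole. -/
theorem poleDivisor_apply (x : F) (v : Place K F) :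
    (poleDivisor x : Divisor K F) v = max (-v.ord x) 0 := by
  classical
  simp only [poleDivisor, Finsupp.finsetSum_apply, Finsupp.single_apply, Finset.sum_ite_eq',
    Set.Finite.mem_toFinset, Set.mem_ofPred_eq, Place.ord_inv]
  split_ifs <;> omega

/-- Multiplication by `u` shifts the divisor. -/
theorem rrDim_sub_divisorOf (D : Divisor K F) {u : F} (hu : u ≠ 0) :
    rrDim (D - divisorOf u) = rrDim D := by
  have key : ∀ (E E' : Divisor K F) (w : F), w ≠ 0 → E' = E - divisorOf w →
      rrDim E ≤ rrDim E' := fun E E' w hw hE => by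
    have hmem : ∀ f : riemannRochSpace E, (f : F) * w ∈ riemannRochSpace E' := fun f => by
      have h := mul_mem_riemannRochSpace f.2 (E := -divisorOf w) (g := w) (by
        rw [mem_riemannRochSpace]; exact fun v => Or.inr (by simp))
      rwa [← sub_eq_add_neg, ← hE] at h
    let φ : riemannRochSpace E →ₗ[K] riemannRochSpace E' :=
      { toFun := fun f => ⟨(f : F) * w, hmem f⟩
        map_add' := fun f g => Subtype.ext (add_mul _ _ _)
        map_smul' := fun a f => Subtype.ext (smul_mul_assoc a (f : F) w) }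
    exact LinearMap.finrank_le_finrank_of_injective (f := φ) fun f g h =>
      Subtype.ext (mul_right_cancel₀ hw (congrArg Subtype.val h))
  refine le_antisymm (key _ _ u⁻¹ (inv_ne_zero hu) ?_) (key _ _ u hu rfl)
  refine Finsupp.ext fun v => ?_
  simp [Place.ord_inv]

/-- `deg D + 1 - ℓ(D)`. -/
def rrDef (D : Divisor K F) : ℤ := Divisor.degree D + 1 - rrDim D

/-- `deg D + 1 - ℓ(D)` is monotone. -/
theorem rrDef_mono {D E : Divisor K F} (h : D ≤ E) : rrDef D ≤ rrDef E := by
  have := rrDim_le_add h
  rw [map_sub] at this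
  simp only [rrDef]
  linarith

theorem rrDef_sub_divisorOf (D : Divisor K F) {u : F} (hu : u ≠ 0) :
    rrDef (D - divisorOf u) = rrDef D := by
  rw [rrDef, rrDef, rrDim_sub_divisorOf D hu, map_sub, degree_divisorOf, sub_zero]

/-- If `L(E - D) ≠ 0` then a divisor linearly equivalent to `D` is at most `E`. -/
theorem exists_le_sub_divisorOf {D E : Divisor K F} (h : 0 < rrDim (E - D)) :
    ∃ u : F, u ≠ 0 ∧ D - divisorOf u ≤ E := by
  obtain ⟨u, hu⟩ := Module.finrank_pos_iff_exists_ne_zero.1 h
  have hu0 : (u : F) ≠ 0 := fun h0 => hu (Subtype.ext h0)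
  refine ⟨u, hu0, fun v => ?_⟩
  have := (mem_riemannRochSpace_iff_ne_zero hu0).1 u.2 v
  simp only [Finsupp.sub_apply, divisorOf_apply] at this ⊢
  omega

theorem exists_rrDef_bound : ∃ b : ℤ, ∀ D : Divisor K F, rrDef D ≤ b := by
  obtain ⟨x, hx, -⟩ := IsFF.exists_transcendental (K := K) (F := F)
  have := IsFF.finite_adjoin (F := F) hx
  obtain ⟨C, hC, hge⟩ := exists_riemannRochSpace_ge hx
  set B : Divisor K F := poleDivisor x
  set n := finrank K⟮x⟯ F
  have hn : 0 < n := finrank_pos
  have hk : ∀ k : ℕ, rrDef ((k : ℤ) • B) ≤ Divisor.degree C + 1 - n := fun k => by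
    have h1 := rrDim_le_add (D := (k : ℤ) • B) (E := (k : ℤ) • B + C) fun v => by
      have h0 : 0 ≤ C v := hC v
      simp only [Finsupp.add_apply]; omega
    have h2 : (n * (k + 1) : ℕ) ≤ rrDim ((k : ℤ) • B + C) := (hge k).2
    rw [add_sub_cancel_left] at h1
    rw [rrDef, map_zsmul, degree_poleDivisor hx, smul_eq_mul]
    have h3 := Int.ofNat_le.2 h2
    push_cast at h3
    nlinarith
  refine ⟨Divisor.degree C + 1 - n, fun D => ?_⟩
  set E : Divisor K F := D.mapRange (fun m => max m 0) (by simp) with hE
  set k : ℕ := (Divisor.degree E + Divisor.degree C).toNat + 1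
  have hpos : 0 < rrDim ((k : ℤ) • B - E) := by
    have h1 := rrDim_le_add (D := (k : ℤ) • B - E) (E := (k : ℤ) • B) fun v => by
      simp [hE]
    have h2 := hk k
    rw [rrDef, map_zsmul, degree_poleDivisor hx, smul_eq_mul] at h2
    rw [sub_sub_cancel] at h1
    have h3 : (k : ℤ) ≤ k * n := le_mul_of_one_le_right (by omega) (by exact_mod_cast hn)
    by_contra h0
    have : rrDim ((k : ℤ) • B - E) = 0 := by omega
    rw [this] at h1
    have := degree_nonneg_of_nonneg hC
    have hkd : Divisor.degree E + Divisor.degree C < (k : ℤ) := by omega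
    push_cast at h1
    linarith [(Int.natCast_nonneg k), (Int.natCast_nonneg n)]
  obtain ⟨u, hu, hle⟩ := exists_le_sub_divisorOf hpos
  calc rrDef D ≤ rrDef E := rrDef_mono fun v => by simp [hE]
    _ = rrDef (E - divisorOf u) := (rrDef_sub_divisorOf E hu).symm
    _ ≤ rrDef ((k : ℤ) • B) := rrDef_mono hle
    _ ≤ _ := hk k

/-- **Riemann's theorem**: `deg D + 1 - ℓ(D)` is bounded, and equal to its bound for all divisors of
large degree. -/
theorem exists_riemann : ∃ g : ℤ, (∀ D : Divisor K F, rrDef D ≤ g) ∧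
    ∃ c : ℤ, ∀ D : Divisor K F, c ≤ Divisor.degree D → rrDef D = g := by
  obtain ⟨b, hb⟩ := exists_rrDef_bound (K := K) (F := F)
  obtain ⟨g, ⟨D₀, hD₀⟩, hg⟩ :=
    Int.exists_greatest_of_bdd (P := fun z => ∃ D : Divisor K F, rrDef D = z)
      ⟨b, fun z ⟨D, hD⟩ => hD ▸ hb D⟩ ⟨_, 0, rfl⟩
  refine ⟨g, fun D => hg _ ⟨D, rfl⟩, Divisor.degree D₀ + g, fun D hD =>
    le_antisymm (hg _ ⟨D, rfl⟩) ?_⟩
  have hpos : 0 < rrDim (D - D₀) := by
    have h1 := hg _ ⟨D - D₀, rfl⟩
    rw [rrDef, map_sub] at h1
    omega
  obtain ⟨u, hu, hle⟩ := exists_le_sub_divisorOf hpos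
  rw [← hD₀, ← rrDef_sub_divisorOf D₀ hu]
  exact rrDef_mono hle

variable (K F) in
/-- The genus in Riemann's theorem. -/
def rGenus : ℤ := (exists_riemann (K := K) (F := F)).choose

/-- **Riemann's inequality** `ℓ(D) ≥ deg D + 1 - g`. -/
theorem rrDef_le_rGenus (D : Divisor K F) : rrDef D ≤ rGenus K F :=
  (exists_riemann (K := K) (F := F)).choose_spec.1 D

/-- `ℓ(D) = deg D + 1 - g` once the degree is large. -/
theorem exists_rrDim_eq : ∃ c : ℤ, ∀ D : Divisor K F, c ≤ Divisor.degree D →
    (rrDim D : ℤ) = Divisor.degree D + 1 - rGenus K F := by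
  obtain ⟨c, hc⟩ := (exists_riemann (K := K) (F := F)).choose_spec.2
  exact ⟨c, fun D hD => by
    have : rrDef D = rGenus K F := hc D hD
    simp only [rrDef] at this; omega⟩

/-- `L(D) = 0` in negative degree. -/
theorem riemannRochSpace_eq_bot_of_degree_neg {D : Divisor K F} (h : Divisor.degree D < 0) :
    riemannRochSpace D = ⊥ := by
  rw [eq_bot_iff]
  intro f hf
  by_contra hf0
  have := degree_mono (D := -D) (E := divisorOf f) fun v => by
    simpa using (mem_riemannRochSpace_iff_ne_zero hf0).1 hf v
  rw [degree_divisorOf, map_neg] at this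
  omega

/-- In degree zero, a nonzero element of `L(D)` has divisor `-D`. -/
theorem divisorOf_eq_neg_of_mem {D : Divisor K F} (h : Divisor.degree D = 0) {f : F} (hf0 : f ≠ 0)
    (hf : f ∈ riemannRochSpace D) : divisorOf f = -D := by
  have hle : (0 : Divisor K F) ≤ divisorOf f + D := fun v => by
    have := (mem_riemannRochSpace_iff_ne_zero hf0).1 hf v
    simp only [Finsupp.add_apply, Finsupp.zero_apply, divisorOf_apply]
    omega
  rw [eq_neg_iff_add_eq_zero]
  refine Finsupp.ext fun v => ?_
  by_contra hv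
  have hpos : Finsupp.single v 1 ≤ divisorOf f + D := fun w => by
    classical
    have h1 : 0 ≤ ((divisorOf f + D : Divisor K F)) w := hle w
    rw [Finsupp.single_apply]
    split_ifs with hw
    · subst hw
      simp only [Finsupp.zero_apply] at hv
      omega
    · exact h1
  have := degree_mono hpos
  rw [Divisor.degree_single, map_add, degree_divisorOf, h, one_mul, add_zero] at this
  have := deg_pos v
  omega

/-- A function without zeros and poles is constant. -/
theorem exists_eq_algebraMap [IsAlgClosed K] {f : F} (h : ∀ v : Place K F, v.ord f = 0) :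
    ∃ c : K, f = algebraMap K F c := by
  have halg : IsAlgebraic K f := by
    by_contra ht
    obtain ⟨v, hv⟩ := exists_place_ord_ne_zero_iff.2 (show Transcendental K f from ht)
    exact hv (h v)
  have := IntermediateField.isAlgebraic_adjoin_simple halg.isIntegral
  obtain ⟨c, hc⟩ := IntermediateField.mem_bot.1
    ((IntermediateField.eq_bot_of_isAlgClosed_of_isAlgebraic K⟮f⟯) ▸ mem_adjoin_simple_self K f)
  exact ⟨c, hc.symm⟩

/-- A divisor is principal iff it is the divisor of a nonzero function. -/
theorem isPrincipal_iff {D : Divisor K F} :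
    Divisor.IsPrincipal D ↔ ∃ f : F, f ≠ 0 ∧ D = divisorOf f :=
  ⟨fun ⟨f, hf, h⟩ => ⟨f, hf, Finsupp.ext fun _ => h _⟩,
    fun ⟨f, hf, h⟩ => ⟨f, hf, fun _ => h ▸ rfl⟩⟩

/-- `ℓ` depends only on the class of the divisor. -/
theorem rrDim_eq_of_isPrincipal {D E : Divisor K F} (h : Divisor.IsPrincipal (D - E)) :
    rrDim D = rrDim E := by
  obtain ⟨f, hf, e⟩ := isPrincipal_iff.1 h
  rw [← rrDim_sub_divisorOf D hf, ← e, sub_sub_cancel]

/-- `ℓ(D) ≥ 1` once `deg D ≥ g`. -/
theorem one_le_rrDim {D : Divisor K F} (h : rGenus K F ≤ Divisor.degree D) :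
    1 ≤ rrDim D := by
  have h1 := rrDef_le_rGenus D
  rw [rrDef] at h1
  omega

/-- An effective divisor whose space is the constants is alone in its class. -/
theorem eq_of_isPrincipal_sub {E E' : Divisor K F} (hE : 0 ≤ E) (hE' : 0 ≤ E')
    (hone : rrDim E' = 1) (h : Divisor.IsPrincipal (E - E')) : E = E' := by
  obtain ⟨f, hf, e1⟩ := isPrincipal_iff.1 h
  have hfm : f ∈ riemannRochSpace E' := by
    rw [mem_riemannRochSpace_iff_ne_zero hf]
    intro v
    have := hE v
    have := DFunLike.congr_fun e1 v
    simp only [Finsupp.sub_apply, divisorOf_apply, Finsupp.zero_apply] at *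
    omega
  have h1 : (1 : F) ∈ riemannRochSpace E' := by
    rw [mem_riemannRochSpace]
    exact fun v => Or.inr (by
      have := hE' v; simp only [Finsupp.zero_apply, Place.ord_one] at *; omega)
  obtain ⟨a, ha⟩ := exists_smul_eq_of_finrank_eq_one hone
    (x := (⟨1, h1⟩ : riemannRochSpace E'))
    (fun h => one_ne_zero (congrArg Subtype.val h)) ⟨f, hfm⟩
  have ha' : f = algebraMap K F a := by
    have := congrArg Subtype.val ha
    rw [SetLike.val_smul, Algebra.smul_def, mul_one] at this
    exact this.symm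
  have ha0 : a ≠ 0 := fun h => hf (by rw [ha', h, map_zero])
  refine sub_eq_zero.1 (e1.trans ?_)
  exact Finsupp.ext fun v => by simp [ha', ord_algebraMap ha0]

end FermatAgent.Curve
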