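import Mathlib.GroupTheory.Perm.Cycle.Type

/-!
# Counting the orbits of a permutation
-/

set_option autoImplicit false

noncomputable section

open Equiv Equiv.Perm

namespace FermatAgent.Curve

variable {α : Type*} [Fintype α] [DecidableEq α]

/-- The number of classes of `SameCycle`. -/
def numOrbits (σ : Perm α) : ℕ := Nat.card (Quotient (SameCycle.setoid σ))

theorem numOrbits_eq (σ : Perm α) :
    numOrbits σ = (Fintype.card α - σ.support.card) + Multiset.card σ.cycleType := by
  classical
  have hc : Multiset.card σ.cycleType = σ.cycleFactorsFinset.card := by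
    rw [cycleType_def, Multiset.card_map]; rfl
  rw [hc, ← Finset.card_compl, ← Finset.card_disjSum, ← Nat.card_eq_finsetCard, numOrbits]
  let g : α → {z // z ∈ (σ.supportᶜ).disjSum σ.cycleFactorsFinset} := fun x =>
    if h : σ x = x then ⟨Sum.inl x, Finset.inl_mem_disjSum.2 (by simpa using h)⟩
    else ⟨Sum.inr (σ.cycleOf x), Finset.inr_mem_disjSum.2
      (cycleOf_mem_cycleFactorsFinset_iff.2 (mem_support.2 h))⟩
  have hg : ∀ x y, σ.SameCycle x y → g x = g y := by
    intro x y h
    by_cases hx : σ x = x
    · rw [(h.eq_of_left hx : x = y)]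
    · have hy : σ y ≠ y := fun hy => hx (by rw [(h.eq_of_right hy : x = y)]; exact hy)
      simp only [g, dif_neg hx, dif_neg hy]
      exact Subtype.ext (congrArg Sum.inr h.cycleOf_eq)
  refine Nat.card_eq_of_bijective (fun q => Quotient.liftOn q g hg) ⟨?_, ?_⟩
  · rintro ⟨x⟩ ⟨y⟩ h
    change g x = g y at h
    refine Quotient.sound ?_
    by_cases hx : σ x = x <;> by_cases hy : σ y = y <;>
      simp only [g, dif_pos, dif_neg, hx, hy, not_false_iff, Subtype.mk.injEq, Sum.inl.injEq,
        Sum.inr.injEq, reduceCtorEq] at h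
    · subst h; exact SameCycle.refl _ _
    · exact (sameCycle_iff_cycleOf_eq_of_mem_support (mem_support.2 hx) (mem_support.2 hy)).2 h
  · rintro ⟨z | c, hz⟩
    · have hz' : σ z = z := by simpa using Finset.inl_mem_disjSum.1 hz
      refine ⟨⟦z⟧, ?_⟩
      change g z = _
      simp [g, hz']
    · have hc' := Finset.inr_mem_disjSum.1 hz
      obtain ⟨x, hx⟩ := (mem_cycleFactorsFinset_iff.1 hc').1.nonempty_support
      have heq := cycle_is_cycleOf hx hc'
      have hσx : σ x ≠ x := mem_support.1 (mem_cycleFactorsFinset_support_le hc' hx)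
      refine ⟨⟦x⟧, ?_⟩
      change g x = _
      simp [g, hσx, heq]

/-- The sign of a permutation is `(-1)` to the size of the set plus the number of orbits. -/
theorem sign_eq_neg_one_pow_numOrbits (σ : Perm α) :
    Perm.sign σ = (-1 : ℤˣ) ^ (Fintype.card α + numOrbits σ) := by
  have hle : σ.support.card ≤ Fintype.card α := Finset.card_le_univ _
  rw [sign_of_cycleType, sum_cycleType, numOrbits_eq]
  obtain ⟨k, hk⟩ := Nat.exists_eq_add_of_le hle
  rw [hk, Nat.add_sub_cancel_left,
    show σ.support.card + k + (k + Multiset.card σ.cycleType) =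
      (σ.support.card + Multiset.card σ.cycleType) + 2 * k by ring,
    pow_add _ _ (2 * k), pow_mul, neg_one_sq, one_pow, mul_one]

/-- For a permutation of prime order `p`, `p · #orbits = #points + (p - 1) · #fixed points`. -/
theorem prime_mul_numOrbits {σ : Perm α} {p : ℕ} (hp : p.Prime) (hσ : σ ^ p = 1) :
    p * numOrbits σ = Fintype.card α + (p - 1) * Nat.card {x // σ x = x} := by
  classical
  have hfix : Nat.card {x // σ x = x} = Fintype.card α - σ.support.card := by
    rw [← Finset.card_compl, Nat.card_eq_fintype_card, Fintype.card_subtype]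
    congr 1
    ext x; simp
  have hall : ∀ m ∈ σ.cycleType, m = p := fun m hm =>
    ((Nat.dvd_prime hp).1
      ((dvd_of_mem_cycleType hm).trans (orderOf_dvd_of_pow_eq_one hσ))).resolve_left
      (by have := two_le_of_mem_cycleType hm; omega)
  have hsum : σ.support.card = Multiset.card σ.cycleType * p := by
    rw [← sum_cycleType, Multiset.eq_replicate_card.2 hall, Multiset.sum_replicate,
      Multiset.card_replicate, smul_eq_mul]
  have hle : σ.support.card ≤ Fintype.card α := Finset.card_le_univ _
  obtain ⟨k, hk⟩ := Nat.exists_eq_add_of_le hle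
  obtain ⟨q, rfl⟩ : ∃ q, p = q + 1 := ⟨p - 1, by have := hp.pos; omega⟩
  rw [numOrbits_eq, hfix, hk, Nat.add_sub_cancel_left, Nat.add_sub_cancel, hsum]
  ring

end FermatAgent.Curve
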