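import Fermat.Agent.Curve.Differential

/-!
# Riemann–Hurwitz over a line: the degree of `div (dx)`
-/

set_option autoImplicit false

noncomputable section

open AlgebraicCurve Polynomial IntermediateField KaehlerDifferential

namespace FermatAgent.Curve

variable {K F : Type*} [Field K] [Field F] [Algebra K F]

/-- `K(x - a) = K(x)`. -/
theorem adjoin_sub_algebraMap (x : F) (a : K) : K⟮x - algebraMap K F a⟯ = K⟮x⟯ := by
  apply le_antisymm
  · exact adjoin_simple_le_iff.2
      (sub_mem (mem_adjoin_simple_self K x) (IntermediateField.algebraMap_mem _ a))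
  · rw [adjoin_simple_le_iff]
    simpa using add_mem (mem_adjoin_simple_self K (x - algebraMap K F a))
      (IntermediateField.algebraMap_mem _ a)

/-- A translate of a transcendental element is transcendental. -/
theorem transcendental_sub_algebraMap {x : F} (hx : Transcendental K x) (a : K) :
    Transcendental K (x - algebraMap K F a) := fun h =>
  hx (by simpa using h.add (isAlgebraic_algebraMap a))

theorem value_unique {x : F} {v : Place K F} {a b : K} (ha : 0 < v.ord (x - algebraMap K F a))
    (hb : 0 < v.ord (x - algebraMap K F b)) : a = b := by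
  by_contra hne
  have h : OrdGE v 1 ((x - algebraMap K F a) - (x - algebraMap K F b)) :=
    OrdGE.sub (Or.inr (by omega)) (Or.inr (by omega))
  rw [sub_sub_sub_cancel_left, ← map_sub,
    ordGE_iff_le ((_root_.map_ne_zero _).2 (sub_ne_zero.2 (Ne.symm hne))),
    ord_algebraMap (sub_ne_zero.2 (Ne.symm hne))] at h
  omega

theorem ord_nonneg_of_value {x : F} {v : Place K F} {a : K}
    (ha : 0 < v.ord (x - algebraMap K F a)) : 0 ≤ v.ord x := by
  rcases eq_or_ne x 0 with rfl | hx
  · simp
  have h : OrdGE v 0 ((x - algebraMap K F a) + algebraMap K F a) :=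
    OrdGE.add (Or.inr ha.le) (ordGE_algebraMap a)
  rw [sub_add_cancel, ordGE_iff_le hx] at h
  exact h

variable [IsAlgClosed K] [IsFF K F]

/-- Zeros of `x - a`. -/
def zerosSub (x : F) (a : K) : Finset (Place K F) :=
  (finite_ord_pos (K := K) (x - algebraMap K F a)).toFinset

omit [IsAlgClosed K] in
/-- Membership in the finite set of zeros of `x - a`. -/
theorem mem_zerosSub {x : F} {a : K} {v : Place K F} :
    v ∈ zerosSub x a ↔ 0 < v.ord (x - algebraMap K F a) := by simp [zerosSub]

theorem sum_ord_zerosSub {x : F} (hx : Transcendental K x) (a : K) :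
    ∑ v ∈ zerosSub x a, v.ord (x - algebraMap K F a) = Module.finrank K⟮x⟯ F := by
  have h := sum_zeros_eq_finrank (transcendental_sub_algebraMap hx a)
  rw [adjoin_sub_algebraMap] at h
  simpa [deg_eq_one, zerosSub] using h

/-- A function regular at `v` takes some value there. -/
theorem exists_value {x : F} (v : Place K F) (h : 0 ≤ v.ord x) (hx : Transcendental K x) :
    ∃ a : K, 0 < v.ord (x - algebraMap K F a) := by
  obtain ⟨c, hc⟩ := exists_sub_algebraMap v (Or.inr h : OrdGE v 0 x)
  have hne : x - algebraMap K F c ≠ 0 := fun h0 =>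
    transcendental_sub_algebraMap hx c (h0 ▸ isAlgebraic_zero)
  exact ⟨c, by have := (ordGE_iff_le hne).1 hc; omega⟩

variable [CharZero K]

/-- If all zeros of `x - a` are simple for `a ∉ T`, then `div (dx)` has degree
`(|T| - 1) n - #poles - ∑_{a ∈ T} #zeros (x - a)`. -/
theorem exists_divisor_D {x : F} (hx : Transcendental K x) (T : Finset K)
    (hT : ∀ a : K, a ∉ T → ∀ v : Place K F, 0 < v.ord (x - algebraMap K F a) →
      v.ord (x - algebraMap K F a) = 1) :
    ∃ W : Divisor K F, (∀ v, W v = v.ordDifferential (KaehlerDifferential.D K F x)) ∧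
      Divisor.degree W = ((T.card : ℤ) - 1) * Module.finrank K⟮x⟯ F
        - (finite_ord_pos (K := K) x⁻¹).toFinset.card - ∑ a ∈ T, ((zerosSub x a).card : ℤ) := by
  classical
  set Z := (finite_ord_pos (K := K) x⁻¹).toFinset with hZdef
  have hZ : ∀ v, v ∈ Z ↔ v.ord x < 0 := fun v => by simp [hZdef, Place.ord_inv]
  refine ⟨∑ v ∈ Z, Finsupp.single v (v.ord x - 1) +
    ∑ a ∈ T, ∑ v ∈ zerosSub x a, Finsupp.single v (v.ord (x - algebraMap K F a) - 1),
    fun v => ?_, ?_⟩
  · simp only [Finsupp.add_apply, Finsupp.finsetSum_apply, Finsupp.single_apply, Finset.sum_ite_eq']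
    by_cases hv : v.ord x < 0
    · rw [if_pos ((hZ v).2 hv), Finset.sum_eq_zero fun a _ => if_neg fun h => by
        have := ord_nonneg_of_value (mem_zerosSub.1 h); omega, add_zero]
      have h := ordDifferential_D v (f := x) (a := 0) (by rw [map_zero, sub_zero]; omega)
      rwa [map_zero, sub_zero, eq_comm] at h
    · rw [if_neg fun h => hv ((hZ v).1 h), zero_add]
      obtain ⟨a, ha⟩ := exists_value v (not_lt.1 hv) hx
      rw [ordDifferential_D v (f := x) (a := a) ha.ne']
      by_cases haT : a ∈ T
      · rw [Finset.sum_eq_single_of_mem a haT fun b _ hb => if_neg fun h =>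
          hb (value_unique (mem_zerosSub.1 h) ha), if_pos (mem_zerosSub.2 ha)]
      · rw [hT a haT v ha, sub_self]
        exact Finset.sum_eq_zero fun b hb => if_neg fun h =>
          haT ((value_unique (mem_zerosSub.1 h) ha) ▸ hb)
  · have hx0 : x ≠ 0 := fun h => hx (h ▸ isAlgebraic_zero)
    have hpoles : ∑ v ∈ Z, v.ord x = -(Module.finrank K⟮x⟯ F : ℤ) := by
      have h := sum_zeros_eq_finrank (K := K) (x := x⁻¹) (fun h => hx (inv_inv x ▸ h.inv))
      rw [adjoin_inv_eq, ← hZdef] at h
      simp only [deg_eq_one, Nat.cast_one, mul_one, Place.ord_inv, Finset.sum_neg_distrib] at h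
      linarith
    simp only [map_add, map_sum, Divisor.degree_single, deg_eq_one, Nat.cast_one, mul_one,
      Finset.sum_sub_distrib, hpoles, sum_ord_zerosSub hx, Finset.sum_const, nsmul_eq_mul]
    ring

/-- The genus from the degree of any differential. -/
theorem genus_eq_of_degree [HasCanonicalDivisor (K := K) (F := F)] {x : F}
    (hx : Transcendental K x) {W : Divisor K F}
    (hW : ∀ v, W v = v.ordDifferential (KaehlerDifferential.D K F x))
    {g : ℕ} (hdeg : Divisor.degree W = 2 * (g : ℤ) - 2) :
    AlgebraicCurve.genus K F = g := by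
  have hdx : KaehlerDifferential.D K F x ≠ 0 := D_ne_zero hx
  have h : ∃ ω : Ω[F⁄K], ω ≠ 0 := ⟨_, hdx⟩
  rw [AlgebraicCurve.genus, dif_pos h]
  have key : ∀ ω : Ω[F⁄K], ∀ hω : ω ≠ 0,
      Divisor.degree (canonicalDivisorOf hω) = 2 * (g : ℤ) - 2 := by
    intro ω hω
    obtain ⟨c, hc⟩ := exists_eq_smul_D hx ω
    have hc0 : c ≠ 0 := fun h0 => hω (by rw [← hc, h0, zero_smul])
    have heq : canonicalDivisorOf hω = divisorOf c + W := Finsupp.ext fun v => by
      rw [canonicalDivisorOf_apply, Finsupp.add_apply, divisorOf_apply, hW, ← hc,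
        ordDifferential_smul' v hc0 hdx]
    rw [heq, map_add, degree_divisorOf, zero_add, hdeg]
  rw [key _ h.choose_spec]
  omega

end FermatAgent.Curve
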