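import Fermat.Agent.Curve.Embeddings

/-!
# Zeros of `x` as cycles of a rotation of embeddings
-/

set_option autoImplicit false

noncomputable section

open AlgebraicCurve

namespace FermatAgent.Curve

variable {L : Type*} [Field L]

/-- The substitution `s ↦ ζ s`. -/
def rotate {ζ : L} (hζ : ζ ≠ 0) : LaurentSeries L →+* LaurentSeries L where
  toFun f := ⟨fun j => ζ ^ j * f.coeff j, f.isPWO_support.mono fun j hj h => hj (by simp [h])⟩
  map_one' := by
    ext j
    rcases eq_or_ne j 0 with rfl | hj <;> simp [HahnSeries.coeff_one, *]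
  map_zero' := by ext j; simp
  map_add' f g := by ext j; simp [mul_add]
  map_mul' f g := by
    ext j
    simp only [HahnSeries.coeff_mul, Finset.mul_sum]
    refine Finset.sum_congr ?_ fun p hp => ?_
    · ext p
      simp [Finset.mem_antidiagonal, HahnSeries.mem_support, zpow_ne_zero p.1 hζ,
        zpow_ne_zero p.2 hζ]
    · simp only [Finset.mem_antidiagonal] at hp
      rw [← hp.2.2, zpow_add₀ hζ]
      ring

variable {ζ : L} (hζ : ζ ≠ 0)

/-- The coefficients of `f(ζ s)`. -/
@[simp]
theorem coeff_rotate (f : LaurentSeries L) (j : ℤ) : (rotate hζ f).coeff j = ζ ^ j * f.coeff j :=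
  rfl

/-- Rotation by `1` is the identity. -/
theorem rotate_one (f : LaurentSeries L) : rotate (one_ne_zero : (1 : L) ≠ 0) f = f := by
  ext j; simp

/-- A rotation keeps orders. -/
theorem order_rotate (f : LaurentSeries L) : (rotate hζ f).order = f.order := by
  rcases eq_or_ne f 0 with rfl | hf
  · simp
  have hne : rotate hζ f ≠ 0 := (_root_.map_ne_zero _).2 hf
  refine le_antisymm ((HahnSeries.order_le_of_coeff_ne_zero ?_)) ?_
  · rw [coeff_rotate]
    exact mul_ne_zero (zpow_ne_zero _ hζ) (by rwa [Ne, HahnSeries.coeff_order_eq_zero])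
  · exact (HahnSeries.le_order_iff_forall hne).2 fun j hj => by
      rw [coeff_rotate, HahnSeries.coeff_eq_zero_of_lt_order hj, mul_zero]

theorem coeff_rotate_iterate (f : LaurentSeries L) (j : ℤ) (k : ℕ) :
    ((rotate hζ)^[k] f).coeff j = (ζ ^ j) ^ k * f.coeff j := by
  induction k with
  | zero => simp
  | succ k ih => rw [Function.iterate_succ_apply', coeff_rotate, ih, pow_succ]; ring

variable {K F : Type*} [Field K] [Field F] [Algebra K F] [Algebra K L] [IsFF K F]
  {x : F} {ι : Type*} [Fintype ι]

namespace EmbeddingFamily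

variable (E : EmbeddingFamily (K := K) x ι L)

/-- A rotation of the coordinate permuting the embeddings. -/
structure Rotation where
  /-- a primitive root of unity of order `E.m` -/
  ζ : L
  prim : IsPrimitiveRoot ζ E.m
  /-- the induced permutation of the embeddings -/
  r : Equiv.Perm ι
  compat : ∀ i f, E.σ (r i) f = rotate (prim.ne_zero E.m_pos.ne') (E.σ i f)

variable {E} (R : E.Rotation)

omit [IsFF K F] in
/-- Powers of the rotation permute the embeddings by powers of the permutation. -/
theorem Rotation.iterate (k : ℕ) (i : ι) (f : F) :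
    E.σ ((R.r ^ k) i) f = (rotate (R.prim.ne_zero E.m_pos.ne'))^[k] (E.σ i f) := by
  induction k with
  | zero => rfl
  | succ k ih => rw [Function.iterate_succ_apply', ← ih, pow_succ', Equiv.Perm.mul_apply, R.compat]

theorem Rotation.place_r (i : ι) : E.place (R.r i) = E.place i :=
  centre_eq_of_forall _ _ _ fun f => by rw [R.compat, order_rotate]

/-- Embeddings in one cycle have the same centre. -/
theorem Rotation.place_eq_of_sameCycle {i j : ι} (h : R.r.SameCycle i j) :
    E.place i = E.place j := by
  obtain ⟨k, -, hk⟩ := h.exists_pow_eq' (f := R.r)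
  rw [← hk]
  clear hk h
  induction k with
  | zero => rfl
  | succ k ih => rw [pow_succ', Equiv.Perm.mul_apply, R.place_r, ih]

variable [IsAlgClosed K]

/-- Embeddings with the same centre lie in one cycle. -/
theorem Rotation.sameCycle_of_place_eq {i j : ι} (h : E.place i = E.place j) :
    R.r.SameCycle i j := by
  classical
  have : Nonempty ι := ⟨i⟩
  set n := Function.minimalPeriod R.r i with hn
  have hnpos : 0 < n :=
    Function.minimalPeriod_pos_of_mem_periodicPts (R.r.injective.mem_periodicPts i)
  set S : Finset ι := (Finset.range n).image fun k => (R.r ^ k) i with hSdef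
  have hS : S.card = n := by
    rw [hSdef, Finset.card_image_of_injOn, Finset.card_range]
    intro a ha b hb hab
    simp only [Equiv.Perm.coe_pow] at hab
    exact Function.iterate_injOn_Iio_minimalPeriod (by simpa using ha) (by simpa using hb) hab
  set P := E.place i
  have hsub : S ⊆ Finset.univ.filter fun j => E.place j = P := by
    intro a ha
    simp only [hSdef, Finset.mem_image] at ha
    obtain ⟨k, -, rfl⟩ := ha
    simpa using (R.place_eq_of_sameCycle (i := i) ⟨(k : ℤ), rfl⟩).symm
  -- `ord_P x ≤ n`
  obtain ⟨t, ht0, ht⟩ := exists_ord_eq_one P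
  set k := (E.σ i t).order
  have hxk : (E.m : ℤ) = k * P.ord x := by
    have := order_apply (E.σ i) (E.order_pos i) ht x
    rw [E.σ_x, E.order_h] at this
    exact this
  have hkpos : 0 < k := order_uniformizer_pos (E.σ i) (E.order_pos i) ht
  have hdvd : (E.m : ℤ) ∣ k * n := by
    have hfix := R.iterate n i t
    rw [Equiv.Perm.coe_pow, Function.iterate_minimalPeriod] at hfix
    have hc := congrArg (fun f => HahnSeries.coeff f k) hfix
    simp only [coeff_rotate_iterate] at hc
    have hne : (E.σ i t).coeff k ≠ 0 := by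
      rw [Ne, HahnSeries.coeff_order_eq_zero]; exact (_root_.map_ne_zero _).2 ht0
    have hone : R.ζ ^ (k * (n : ℤ)) = 1 := by
      rw [zpow_mul, zpow_natCast]
      exact mul_right_cancel₀ hne (hc.symm.trans (one_mul _).symm)
    exact (R.prim.zpow_eq_one_iff_dvd _).1 hone
  have hle : P.ord x ≤ n := by
    rw [hxk] at hdvd
    exact Int.le_of_dvd (by exact_mod_cast hnpos) ((mul_dvd_mul_iff_left hkpos.ne').1 hdvd)
  have hcount := E.count.2 P (E.ord_place_pos i)
  have heq : S = Finset.univ.filter fun j => E.place j = P :=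
    Finset.eq_of_subset_of_card_le hsub (by omega)
  have hj : j ∈ S := by rw [heq]; simp [P, h.symm]
  simp only [hSdef, Finset.mem_image] at hj
  obtain ⟨a, -, rfl⟩ := hj
  exact ⟨(a : ℤ), rfl⟩

/-- Zeros of `x` are the cycles of the rotation. -/
theorem Rotation.card_zeros [Nonempty ι] :
    (finite_ord_pos (K := K) x).toFinset.card =
      Nat.card (Quotient (Equiv.Perm.SameCycle.setoid R.r)) := by
  classical
  rw [← Nat.card_eq_finsetCard]
  refine (Nat.card_eq_of_bijective
    (fun q => Quotient.liftOn q
      (fun i => (⟨E.place i, (Set.Finite.mem_toFinset _).2 (E.ord_place_pos i)⟩ :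
        {P // P ∈ (finite_ord_pos (K := K) x).toFinset}))
      (fun i j h => Subtype.ext (R.place_eq_of_sameCycle h))) ⟨?_, ?_⟩).symm
  · rintro ⟨i⟩ ⟨j⟩ h
    exact Quotient.sound (R.sameCycle_of_place_eq (congrArg Subtype.val h))
  · rintro ⟨P, hP⟩
    have hP' : 0 < P.ord x := by simpa using hP
    obtain ⟨i, hi⟩ := E.exists_place_eq P hP'
    exact ⟨⟦i⟧, Subtype.ext hi⟩

end EmbeddingFamily

end FermatAgent.Curve
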