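import Mathlib
import Fermat.Prelude.Def_ModularCurve_X0
import Fermat.Agent.Curve.Rotation

/-!
# Laurent expansions of functions on the upper half plane in a coordinate

A coordinate `t : ℍ → ℂ` fills the punctured unit disc. `HasLoc t f P` says that `t ^ M * f` is a
holomorphic function `G` of `t` on the disc and `P` is the Laurent series `t ^ (-M) * G`. This
covers both expansions at `∞` (`t = 𝕢 w`) and at points of `ℍ` (disc coordinate).
-/

set_option autoImplicit false

noncomputable section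

open UpperHalfPlane Filter Topology Metric
open scoped ComplexConjugate Manifold

namespace FermatAgent.Curve

/-! ### Taylor series at `0` -/

/-- The Taylor series at `0`. -/
def taylorPS (G : ℂ → ℂ) : PowerSeries ℂ :=
  PowerSeries.mk fun n => (n.factorial : ℂ)⁻¹ * iteratedDeriv n G 0

theorem coeff_taylorPS (G : ℂ → ℂ) (n : ℕ) :
    PowerSeries.coeff n (taylorPS G) = (n.factorial : ℂ)⁻¹ * iteratedDeriv n G 0 :=
  PowerSeries.coeff_mk _ _

/-- The `q`-expansion is the Taylor series of the cusp function. -/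
theorem qExpansion_eq_taylorPS (w : ℝ) (f : ℍ → ℂ) :
    qExpansion w f = taylorPS (cuspFunction w f) := rfl

/-- Functions equal near `0` have the same Taylor series. -/
theorem taylorPS_congr {G H : ℂ → ℂ} (h : G =ᶠ[𝓝 0] H) : taylorPS G = taylorPS H := by
  ext n
  rw [coeff_taylorPS, coeff_taylorPS, h.iteratedDeriv_eq n]

theorem taylorPS_add {G H : ℂ → ℂ} (hG : AnalyticAt ℂ G 0) (hH : AnalyticAt ℂ H 0) :
    taylorPS (G + H) = taylorPS G + taylorPS H := by
  ext n
  rw [map_add, coeff_taylorPS, coeff_taylorPS, coeff_taylorPS,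
    iteratedDeriv_add hG.contDiffAt hH.contDiffAt, mul_add]

/-- The Taylor series of a product is the product of the series. -/
theorem taylorPS_mul {G H : ℂ → ℂ} (hG : AnalyticAt ℂ G 0) (hH : AnalyticAt ℂ H 0) :
    taylorPS (G * H) = taylorPS G * taylorPS H := by
  ext n
  simp only [PowerSeries.coeff_mul, coeff_taylorPS, iteratedDeriv_mul hG.contDiffAt hH.contDiffAt,
    Finset.mul_sum, Finset.Nat.sum_antidiagonal_eq_sum_range_succ_mk, Nat.succ_eq_add_one]
  refine Finset.sum_congr rfl fun i hi => ?_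
  rw [Nat.cast_choose _ (by simp only [Finset.mem_range] at hi; omega)]
  field_simp [Nat.factorial_ne_zero]

/-- The Taylor series of a constant. -/
theorem taylorPS_const (c : ℂ) : taylorPS (fun _ => c) = PowerSeries.C c := by
  ext n
  rw [coeff_taylorPS, PowerSeries.coeff_C, iteratedDeriv_const]
  split_ifs with h <;> simp [h]

/-- The constant term is the value at `0`. -/
theorem coeff_zero_taylorPS (G : ℂ → ℂ) : PowerSeries.coeff 0 (taylorPS G) = G 0 := by
  simp [coeff_taylorPS]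

/-- The linear term is the derivative at `0`. -/
theorem coeff_one_taylorPS (G : ℂ → ℂ) : PowerSeries.coeff 1 (taylorPS G) = deriv G 0 := by
  simp [coeff_taylorPS]

/-- The Taylor series of the identity is `X`. -/
theorem taylorPS_id : taylorPS (fun s => s) = PowerSeries.X := by
  ext n
  rw [coeff_taylorPS, PowerSeries.coeff_X]
  rcases n with _ | _ | n
  · simp
  · simp
  · rw [iteratedDeriv_succ', iteratedDeriv_succ']
    simp

theorem taylorPS_pow {G : ℂ → ℂ} (hG : AnalyticAt ℂ G 0) (k : ℕ) :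
    taylorPS (G ^ k) = taylorPS G ^ k := by
  induction k with
  | zero => rw [pow_zero, pow_zero]; exact (taylorPS_const 1).trans (map_one _)
  | succ k ih => rw [pow_succ, pow_succ, taylorPS_mul (hG.pow k) hG, ih]

/-- The Taylor series of `s ^ k` is `X ^ k`. -/
theorem taylorPS_id_pow (k : ℕ) : taylorPS (fun s => s ^ k) = PowerSeries.X ^ k := by
  rw [← taylorPS_id, ← taylorPS_pow (G := fun s : ℂ => s) analyticAt_id k]
  rfl

/-- A function differentiable on the unit disc is analytic at `0`. -/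
theorem analyticAt_of_ball {G : ℂ → ℂ} (hG : DifferentiableOn ℂ G (ball 0 1)) : AnalyticAt ℂ G 0 :=
  hG.analyticAt (ball_mem_nhds 0 one_pos)

/-- On the unit disc a differentiable function is the sum of its Taylor series. -/
theorem hasSum_taylorPS {G : ℂ → ℂ} (hG : DifferentiableOn ℂ G (ball 0 1)) {s : ℂ}
    (hs : ‖s‖ < 1) : HasSum (fun n => PowerSeries.coeff n (taylorPS G) * s ^ n) (G s) := by
  refine (Complex.hasSum_taylorSeries_on_ball hG
    (show s ∈ ball (0 : ℂ) 1 by simpa using hs)).congr_fun fun n => ?_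
  rw [coeff_taylorPS, sub_zero, smul_eq_mul, smul_eq_mul]
  ring

/-- A function given on the unit disc by a convergent series has that Taylor series. -/
theorem taylorPS_eq_of_hasSum {G : ℂ → ℂ} {c : ℕ → ℂ}
    (h : ∀ s : ℂ, ‖s‖ < 1 → HasSum (fun n => c n * s ^ n) (G s)) :
    taylorPS G = PowerSeries.mk c := by
  have hball : HasFPowerSeriesOnBall G (FormalMultilinearSeries.ofScalars ℂ c) 0 1 := by
    refine ⟨?_, zero_lt_one, fun {y} hy => ?_⟩
    · refine le_of_forall_lt_imp_le_of_dense fun r hr => ?_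
      lift r to NNReal using hr.ne_top
      apply FormalMultilinearSeries.le_radius_of_tendsto (l := 0)
      have hs : ‖((r : ℝ) : ℂ)‖ < 1 := by
        rw [Complex.norm_real, Real.norm_of_nonneg r.coe_nonneg]
        exact_mod_cast hr
      have ht := (h _ hs).summable.tendsto_atTop_zero.norm
      rw [norm_zero] at ht
      refine ht.congr fun n => ?_
      rw [norm_mul, norm_pow, Complex.norm_real, Real.norm_of_nonneg r.coe_nonneg,
        FormalMultilinearSeries.ofScalars_norm]
    · rw [← ENNReal.coe_one, Metric.eball_coe, NNReal.coe_one, mem_ball_zero_iff] at hy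
      simp only [FormalMultilinearSeries.ofScalars_apply_eq, smul_eq_mul, zero_add]
      exact h y hy
  have h1 := hball.hasFPowerSeriesAt
  ext n
  have h2 := congrArg (FormalMultilinearSeries.coeff · n)
    (h1.eq_formalMultilinearSeries h1.analyticAt.hasFPowerSeriesAt)
  simp only [FormalMultilinearSeries.coeff_ofScalars] at h2
  rw [coeff_taylorPS, PowerSeries.coeff_mk, h2]
  simp [div_eq_inv_mul]

theorem eqOn_zero_of_taylorPS {G : ℂ → ℂ} (hG : DifferentiableOn ℂ G (ball 0 1))
    (h : taylorPS G = 0) {s : ℂ} (hs : ‖s‖ < 1) : G s = 0 := by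
  have h1 := hasSum_taylorPS hG hs
  simp only [h, map_zero, zero_mul] at h1
  exact h1.unique hasSum_zero

/-! ### Expansions -/

/-- A coordinate with values in the unit disc and all non-zero ones attained. -/
structure LocCoord (t : ℍ → ℂ) : Prop where
  norm_lt : ∀ τ, ‖t τ‖ < 1
  surj : ∀ s : ℂ, ‖s‖ < 1 → s ≠ 0 → ∃ τ, t τ = s

/-- `P` is the Laurent expansion of `f` in the coordinate `t`. -/
def HasLoc (t : ℍ → ℂ) (f : ℍ → ℂ) (P : LaurentSeries ℂ) : Prop :=
  ∃ (M : ℕ) (G : ℂ → ℂ), DifferentiableOn ℂ G (ball 0 1) ∧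
    (∀ τ, G (t τ) = t τ ^ M * f τ) ∧ (∀ τ, t τ = 0 → M = 0) ∧
    P = HahnSeries.single (-(M : ℤ)) 1 * HahnSeries.ofPowerSeries ℤ ℂ (taylorPS G)

namespace HasLoc

variable {t : ℍ → ℂ} {f f₁ f₂ : ℍ → ℂ} {P P₁ P₂ : LaurentSeries ℂ}

/-- A constant expands to itself. -/
theorem const (c : ℂ) : HasLoc t (fun _ => c) (HahnSeries.C c) :=
  ⟨0, fun _ => c, differentiableOn_const c, fun τ => by simp, fun _ _ => rfl, by
    simp [taylorPS_const]⟩

/-- The expansion of a product is the product of the expansions. -/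
theorem mul (h₁ : HasLoc t f₁ P₁) (h₂ : HasLoc t f₂ P₂) : HasLoc t (f₁ * f₂) (P₁ * P₂) := by
  obtain ⟨M₁, G₁, d₁, e₁, z₁, rfl⟩ := h₁
  obtain ⟨M₂, G₂, d₂, e₂, z₂, rfl⟩ := h₂
  refine ⟨M₁ + M₂, G₁ * G₂, d₁.mul d₂, fun τ => ?_, fun τ hτ => by rw [z₁ τ hτ, z₂ τ hτ], ?_⟩
  · simp only [Pi.mul_apply, e₁, e₂]; ring
  · rw [taylorPS_mul (analyticAt_of_ball d₁) (analyticAt_of_ball d₂), map_mul, mul_mul_mul_comm,
      HahnSeries.single_mul_single, one_mul, Nat.cast_add, neg_add]

theorem single_mul_ofPowerSeries_X_pow (M k : ℕ) (p : PowerSeries ℂ) :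
    HahnSeries.single (-((M + k : ℕ) : ℤ)) (1 : ℂ) *
        HahnSeries.ofPowerSeries ℤ ℂ (p * PowerSeries.X ^ k) =
      HahnSeries.single (-(M : ℤ)) 1 * HahnSeries.ofPowerSeries ℤ ℂ p := by
  rw [map_mul, HahnSeries.ofPowerSeries_X_pow, mul_comm (HahnSeries.ofPowerSeries ℤ ℂ p),
    ← mul_assoc, HahnSeries.single_mul_single, one_mul]
  congr 2
  push_cast
  ring

/-- The expansion of a sum is the sum of the expansions. -/
theorem add (h₁ : HasLoc t f₁ P₁) (h₂ : HasLoc t f₂ P₂) : HasLoc t (f₁ + f₂) (P₁ + P₂) := by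
  obtain ⟨M₁, G₁, d₁, e₁, z₁, rfl⟩ := h₁
  obtain ⟨M₂, G₂, d₂, e₂, z₂, rfl⟩ := h₂
  have hp : ∀ k : ℕ, DifferentiableOn ℂ (fun s : ℂ => s ^ k) (ball 0 1) := fun k =>
    (differentiable_id.pow k).differentiableOn
  refine ⟨M₁ + M₂, G₁ * (fun s => s ^ M₂) + G₂ * (fun s => s ^ M₁),
    (d₁.mul (hp _)).add (d₂.mul (hp _)), fun τ => ?_, fun τ hτ => by rw [z₁ τ hτ, z₂ τ hτ], ?_⟩
  · simp only [Pi.add_apply, Pi.mul_apply, e₁, e₂]; ring
  · have a₁ := analyticAt_of_ball d₁
    have a₂ := analyticAt_of_ball d₂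
    have ap : ∀ k : ℕ, AnalyticAt ℂ (fun s : ℂ => s ^ k) 0 := fun k => analyticAt_id.pow k
    rw [taylorPS_add (a₁.mul (ap _)) (a₂.mul (ap _)), taylorPS_mul a₁ (ap _),
      taylorPS_mul a₂ (ap _), taylorPS_id_pow, taylorPS_id_pow, map_add, mul_add,
      single_mul_ofPowerSeries_X_pow, add_comm M₁, single_mul_ofPowerSeries_X_pow]

/-- An expansion depends only on the values of the function. -/
theorem congr_fun (h : HasLoc t f P) (e : ∀ τ, f₁ τ = f τ) : HasLoc t f₁ P := by
  rwa [funext e]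

/-- The expansion of a constant multiple. -/
theorem smul (c : ℂ) (h : HasLoc t f P) : HasLoc t (fun τ => c * f τ) (HahnSeries.C c * P) :=
  (const c).mul h

/-- The expansion of the negative. -/
theorem neg (h : HasLoc t f P) : HasLoc t (-f) (-P) := by
  have h2 := h.smul (-1)
  simp only [neg_mul, one_mul, map_neg, map_one] at h2
  exact h2

/-- The expansion of a difference. -/
theorem sub (h₁ : HasLoc t f₁ P₁) (h₂ : HasLoc t f₂ P₂) : HasLoc t (f₁ - f₂) (P₁ - P₂) := by
  simpa [sub_eq_add_neg] using h₁.add h₂.neg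

/-- The expansion of a power. -/
theorem pow (h : HasLoc t f P) (n : ℕ) : HasLoc t (f ^ n) (P ^ n) := by
  induction n with
  | zero =>
    have h1 := const (t := t) 1
    rw [map_one] at h1
    rw [pow_zero, pow_zero]
    exact h1
  | succ n ih => rw [pow_succ, pow_succ]; exact ih.mul h

/-- The expansion of a finite sum. -/
theorem sum {ι : Type*} (s : Finset ι) {v : ι → ℍ → ℂ} {Q : ι → LaurentSeries ℂ}
    (h : ∀ i ∈ s, HasLoc t (v i) (Q i)) : HasLoc t (∑ i ∈ s, v i) (∑ i ∈ s, Q i) := by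
  classical
  induction s using Finset.induction_on with
  | empty =>
    have h1 := const (t := t) 0
    rw [map_zero] at h1
    simp only [Finset.sum_empty]
    exact h1
  | insert a s ha ih =>
    rw [Finset.sum_insert ha, Finset.sum_insert ha]
    exact (h a (Finset.mem_insert_self _ _)).add (ih fun i hi => h i (Finset.mem_insert_of_mem hi))

theorem algebraMap_const {K : Type*} [Field K] [Algebra K ℂ] (a : K) :
    HasLoc t (algebraMap K (ℍ → ℂ) a) (algebraMap K (LaurentSeries ℂ) a) := by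
  have h := const (t := t) (algebraMap K ℂ a)
  rw [algebraMap_laurent, ← HahnSeries.C_apply]
  exact h

/-- A polynomial in functions expands to the polynomial in their expansions. -/
theorem aeval {K : Type*} [Field K] [Algebra K ℂ] {σ : Type*} {v : σ → ℍ → ℂ}
    {Q : σ → LaurentSeries ℂ} (h : ∀ i, HasLoc t (v i) (Q i)) (p : MvPolynomial σ K) :
    HasLoc t (MvPolynomial.aeval v p) (MvPolynomial.aeval Q p) := by
  induction p using MvPolynomial.induction_on with
  | C a => rw [MvPolynomial.aeval_C, MvPolynomial.aeval_C]; exact algebraMap_const a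
  | add p q hp hq => rw [map_add, map_add]; exact hp.add hq
  | mul_X p i hp =>
    rw [map_mul, map_mul, MvPolynomial.aeval_X, MvPolynomial.aeval_X]; exact hp.mul (h i)

/-- The expansion in a coordinate is unique. -/
theorem unique (ht : LocCoord t) (h₁ : HasLoc t f P₁) (h₂ : HasLoc t f P₂) : P₁ = P₂ := by
  obtain ⟨M₁, G₁, d₁, e₁, -, rfl⟩ := h₁
  obtain ⟨M₂, G₂, d₂, e₂, -, rfl⟩ := h₂
  have a₁ := analyticAt_of_ball d₁
  have a₂ := analyticAt_of_ball d₂
  have ap : ∀ k : ℕ, AnalyticAt ℂ (fun s : ℂ => s ^ k) 0 := fun k => analyticAt_id.pow k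
  have heq : G₁ * (fun s => s ^ M₂) =ᶠ[𝓝 0] G₂ * (fun s => s ^ M₁) := by
    refine ((a₁.mul (ap M₂)).continuousAt.eventuallyEq_nhds_iff_eventuallyEq_nhdsNE
      (a₂.mul (ap M₁)).continuousAt).1 ?_
    filter_upwards [self_mem_nhdsWithin, nhdsWithin_le_nhds (ball_mem_nhds (0 : ℂ) one_pos)]
      with s hs hs1
    obtain ⟨τ, rfl⟩ := ht.surj s (by simpa using hs1) hs
    simp only [Pi.mul_apply, e₁, e₂]
    ring
  have h3 := taylorPS_congr heq
  rw [taylorPS_mul a₁ (ap _), taylorPS_mul a₂ (ap _), taylorPS_id_pow, taylorPS_id_pow] at h3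
  rw [← single_mul_ofPowerSeries_X_pow M₁ M₂, h3, add_comm, single_mul_ofPowerSeries_X_pow]

/-- A function with zero expansion vanishes. -/
theorem eq_zero (ht : LocCoord t) (h : HasLoc t f 0) : f = 0 := by
  obtain ⟨M, G, d, e, z, hP⟩ := h
  have hT : taylorPS G = 0 := by
    rcases mul_eq_zero.1 hP.symm with h0 | h0
    · simp at h0
    · exact HahnSeries.ofPowerSeries_injective (h0.trans (map_zero _).symm)
  funext τ
  have h1 := e τ
  rw [eqOn_zero_of_taylorPS d hT (ht.norm_lt τ)] at h1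
  rcases mul_eq_zero.1 h1.symm with h2 | h2
  · have h3 : t τ = 0 := by
      rcases Nat.eq_zero_or_pos M with hM | hM
      · subst hM; simp at h2
      · exact (pow_eq_zero_iff hM.ne').1 h2
    rw [z τ h3, pow_zero] at h2
    exact absurd h2 one_ne_zero
  · exact h2

/-- Functions with the same expansion are equal. -/
theorem eq_of_same (ht : LocCoord t) (h₁ : HasLoc t f₁ P) (h₂ : HasLoc t f₂ P) : f₁ = f₂ := by
  rw [← sub_eq_zero]
  exact eq_zero ht (by simpa using h₁.sub h₂)

end HasLoc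

open ModularCurve (qExpand)

theorem qExpand_rotate_ofPowerSeries {c : ℂ} (hc : c ≠ 0) (k : ℕ) [NeZero k] (p : PowerSeries ℂ) :
    qExpand ℂ k (rotate hc (HahnSeries.ofPowerSeries ℤ ℂ p)) =
      HahnSeries.ofPowerSeries ℤ ℂ
        (PowerSeries.mk fun n =>
          if k ∣ n then c ^ (n / k) * PowerSeries.coeff (n / k) p else 0) := by
  ext j
  by_cases hj : (k : ℤ) ∣ j
  · obtain ⟨i, rfl⟩ := hj
    rw [ModularCurve.qExpand_coeff_mul, coeff_rotate]
    rcases le_or_gt 0 i with hi | hi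
    · lift i to ℕ using hi
      rw [← Nat.cast_mul, HahnSeries.ofPowerSeries_apply_coeff,
        HahnSeries.ofPowerSeries_apply_coeff, PowerSeries.coeff_mk, if_pos (dvd_mul_right _ _),
        Nat.mul_div_cancel_left _ (Nat.pos_of_ne_zero (NeZero.ne k)), zpow_natCast]
    · rw [ModularCurve.ofPowerSeries_coeff_of_neg _ hi, mul_zero,
        ModularCurve.ofPowerSeries_coeff_of_neg _
          (mul_neg_of_pos_of_neg (by exact_mod_cast Nat.pos_of_ne_zero (NeZero.ne k)) hi)]
  · rw [ModularCurve.qExpand_coeff_of_not_dvd _ _ hj]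
    rcases le_or_gt 0 j with hj0 | hj0
    · lift j to ℕ using hj0
      rw [HahnSeries.ofPowerSeries_apply_coeff, PowerSeries.coeff_mk,
        if_neg fun h => hj (Int.natCast_dvd_natCast.2 h)]
    · rw [ModularCurve.ofPowerSeries_coeff_of_neg _ hj0]

/-- Change of coordinate `t ∘ g = c * t' ^ k`. -/
theorem HasLoc.pullback {t t' : ℍ → ℂ} {f : ℍ → ℂ} {P : LaurentSeries ℂ} (h : HasLoc t f P)
    (g : ℍ → ℍ) {c : ℂ} (hc : ‖c‖ = 1) (hc0 : c ≠ 0) (k : ℕ) [NeZero k]
    (hg : ∀ τ, t (g τ) = c * t' τ ^ k) :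
    HasLoc t' (f ∘ g) (qExpand ℂ k (rotate hc0 P)) := by
  obtain ⟨M, G, d, e, z, rfl⟩ := h
  have hk : 0 < k := Nat.pos_of_ne_zero (NeZero.ne k)
  have hmaps : Set.MapsTo (fun s : ℂ => c * s ^ k) (ball 0 1) (ball 0 1) := fun s hs => by
    simp only [mem_ball_zero_iff, norm_mul, norm_pow, hc, one_mul] at hs ⊢
    exact pow_lt_one₀ (norm_nonneg s) hs hk.ne'
  refine ⟨k * M, fun s => (c ^ M)⁻¹ * G (c * s ^ k),
    (d.comp ((differentiable_const c).mul (differentiable_id.pow k)).differentiableOn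
      hmaps).const_mul _,
    fun τ => ?_, fun τ hτ => ?_, ?_⟩
  · simp only [Function.comp_apply]
    rw [← hg, e, hg, mul_pow, ← pow_mul]
    field_simp [hc0]
  · rw [z (g τ) (by rw [hg, hτ, zero_pow hk.ne', mul_zero]), mul_zero]
  · have hT : taylorPS (fun s => (c ^ M)⁻¹ * G (c * s ^ k)) = PowerSeries.C ((c ^ M)⁻¹) *
        PowerSeries.mk fun n => if k ∣ n then
          c ^ (n / k) * PowerSeries.coeff (n / k) (taylorPS G) else 0 := by
      rw [taylorPS_eq_of_hasSum (c := fun n => (c ^ M)⁻¹ * if k ∣ n then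
          c ^ (n / k) * PowerSeries.coeff (n / k) (taylorPS G) else 0)]
      · ext n
        simp [PowerSeries.coeff_C_mul]
      · intro s hs
        have h1 := (hasSum_taylorPS d (s := c * s ^ k) (by
          simpa using hmaps (show s ∈ ball (0 : ℂ) 1 by simpa using hs))).mul_left (c ^ M)⁻¹
        refine ((mul_right_injective₀ hk.ne').hasSum_iff fun n hn => ?_).1
          (h1.congr_fun fun n => ?_)
        · rw [if_neg fun ⟨i, hi⟩ => hn ⟨i, hi.symm⟩]
          simp
        · simp only [Function.comp_apply, dvd_mul_right, if_true, Nat.mul_div_cancel_left _ hk]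
          rw [pow_mul]
          ring
    rw [map_mul (rotate hc0), map_mul (qExpand ℂ k), qExpand_rotate_ofPowerSeries, hT,
      map_mul (HahnSeries.ofPowerSeries ℤ ℂ), HahnSeries.ofPowerSeries_C,
      ← mul_assoc, HahnSeries.C_apply, HahnSeries.single_mul_single]
    congr 1
    have hrot : rotate hc0 (HahnSeries.single (-(M : ℤ)) (1 : ℂ)) =
        HahnSeries.single (-(M : ℤ)) (c ^ M)⁻¹ := by
      ext j
      rw [coeff_rotate]
      rcases eq_or_ne j (-(M : ℤ)) with rfl | hj
      · simp [HahnSeries.coeff_single_same, zpow_neg]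
      · simp [HahnSeries.coeff_single_of_ne hj]
    rw [hrot, ModularCurve.qExpand_single, one_mul, add_zero]
    congr 2
    push_cast
    ring

/-! ### The two kinds of coordinates -/

/-- `e^{2πiτ/w}` is a coordinate. -/
theorem locCoord_qParam {w : ℝ} (hw : 0 < w) :
    LocCoord (fun τ : ℍ => Function.Periodic.qParam w τ) where
  norm_lt τ := Function.Periodic.norm_qParam_lt_one hw τ.im_pos
  surj _ hs hs0 := ⟨⟨_, Function.Periodic.im_invQParam_pos_of_norm_lt_one hw hs hs0⟩,
    Function.Periodic.qParam_right_inv hw.ne' hs0⟩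

/-- A periodic function meromorphic at `∞` has its `q`-expansion as expansion in `q`. -/
theorem hasLoc_qParam {w : ℝ} (hw : 0 < w) {f : ℍ → ℂ} (M : ℕ)
    (hper : Function.Periodic ((fun τ : ℍ => Function.Periodic.qParam w τ ^ M * f τ) ∘ ofComplex) w)
    (hhol : MDiff (fun τ : ℍ => Function.Periodic.qParam w τ ^ M * f τ))
    (hbdd : IsBoundedAtImInfty (fun τ : ℍ => Function.Periodic.qParam w τ ^ M * f τ)) :
    HasLoc (fun τ : ℍ => Function.Periodic.qParam w τ) f
      (HahnSeries.single (-(M : ℤ)) 1 * HahnSeries.ofPowerSeries ℤ ℂ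
        (qExpansion w (fun τ : ℍ => Function.Periodic.qParam w τ ^ M * f τ))) := by
  refine ⟨M, cuspFunction w (fun τ : ℍ => Function.Periodic.qParam w τ ^ M * f τ),
    differentiableOn_cuspFunction_ball hw hper hhol hbdd, fun τ => ?_, fun τ hτ => ?_, ?_⟩
  · exact eq_cuspFunction τ hw.ne' hper
  · exact absurd hτ (Function.Periodic.qParam_ne_zero _)
  · rw [qExpansion_eq_taylorPS]

/-- The disc coordinate centred at `τ₀`. -/
def discCoord (τ₀ : ℍ) (τ : ℍ) : ℂ := ((τ : ℂ) - τ₀) / ((τ : ℂ) - conj (τ₀ : ℂ))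

/-- Its inverse. -/
def discInv (τ₀ : ℍ) (s : ℂ) : ℂ := ((τ₀ : ℂ) - conj (τ₀ : ℂ) * s) / (1 - s)

/-- The denominator of the disc coordinate does not vanish on `ℍ`. -/
theorem sub_conj_ne_zero (τ₀ τ : ℍ) : (τ : ℂ) - conj (τ₀ : ℂ) ≠ 0 := fun h => by
  have := congrArg Complex.im h
  simp only [Complex.sub_im, Complex.conj_im, Complex.zero_im, coe_im] at this
  linarith [τ.im_pos, τ₀.im_pos]

theorem one_sub_ne_zero_of_norm {s : ℂ} (hs : ‖s‖ < 1) : (1 : ℂ) - s ≠ 0 := fun h => by
  rw [sub_eq_zero] at h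
  rw [← h] at hs
  simp at hs

theorem im_discInv_pos (τ₀ : ℍ) {s : ℂ} (hs : ‖s‖ < 1) : 0 < (discInv τ₀ s).im := by
  have h1 : Complex.normSq s < 1 := by
    rw [Complex.normSq_eq_norm_sq]; exact pow_lt_one₀ (norm_nonneg s) hs two_ne_zero
  have h2 : 0 < Complex.normSq (1 - s) := Complex.normSq_pos.2 (one_sub_ne_zero_of_norm hs)
  have key : (discInv τ₀ s).im = τ₀.im * (1 - Complex.normSq s) / Complex.normSq (1 - s) := by
    rw [discInv, Complex.div_im]
    simp only [Complex.sub_im, Complex.sub_re, Complex.mul_im, Complex.mul_re, Complex.conj_re,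
      Complex.conj_im, Complex.one_re, Complex.one_im, Complex.normSq_apply, coe_re, coe_im]
    rw [div_sub_div_same]
    congr 1
    ring
  rw [key]
  exact div_pos (mul_pos τ₀.im_pos (by linarith)) h2

theorem discInv_discCoord (τ₀ τ : ℍ) : discInv τ₀ (discCoord τ₀ τ) = τ := by
  have h := sub_conj_ne_zero τ₀ τ
  have h0 := sub_conj_ne_zero τ₀ τ₀
  have h1 : (1 : ℂ) - discCoord τ₀ τ = ((τ₀ : ℂ) - conj (τ₀ : ℂ)) / ((τ : ℂ) - conj (τ₀ : ℂ)) := by
    rw [discCoord]; field_simp; ring
  rw [discInv, h1, discCoord]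
  field_simp
  ring

theorem discCoord_discInv (τ₀ : ℍ) {s : ℂ} (hs : ‖s‖ < 1) :
    (discInv τ₀ s - τ₀) / (discInv τ₀ s - conj (τ₀ : ℂ)) = s := by
  have h1 := one_sub_ne_zero_of_norm hs
  have h0 := sub_conj_ne_zero τ₀ τ₀
  have e1 : discInv τ₀ s - τ₀ = s * (((τ₀ : ℂ) - conj (τ₀ : ℂ)) / (1 - s)) := by
    rw [discInv]; field_simp; ring
  have e2 : discInv τ₀ s - conj (τ₀ : ℂ) = ((τ₀ : ℂ) - conj (τ₀ : ℂ)) / (1 - s) := by
    rw [discInv]; field_simp; ring
  rw [e1, e2, mul_div_assoc, div_self (div_ne_zero h0 h1), mul_one]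

/-- The disc coordinate centred at `τ₀` is a coordinate. -/
theorem locCoord_discCoord (τ₀ : ℍ) : LocCoord (discCoord τ₀) where
  norm_lt τ := by
    rw [discCoord, norm_div, div_lt_one (norm_pos_iff.2 (sub_conj_ne_zero τ₀ τ)),
      Complex.norm_def, Complex.norm_def, Real.sqrt_lt_sqrt_iff (Complex.normSq_nonneg _),
      Complex.normSq_apply, Complex.normSq_apply]
    simp only [Complex.sub_re, Complex.sub_im, Complex.conj_re, Complex.conj_im, coe_re, coe_im]
    nlinarith [τ.im_pos, τ₀.im_pos, mul_pos τ.im_pos τ₀.im_pos]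
  surj s hs _ := ⟨⟨discInv τ₀ s, im_discInv_pos τ₀ hs⟩, discCoord_discInv τ₀ hs⟩

/-- The inverse of the disc coordinate is differentiable on the unit disc. -/
theorem differentiableAt_discInv (τ₀ : ℍ) {s : ℂ} (hs : ‖s‖ < 1) :
    DifferentiableAt ℂ (discInv τ₀) s :=
  DifferentiableAt.div (by fun_prop) (by fun_prop) (one_sub_ne_zero_of_norm hs)

/-- A function in the disc coordinate. -/
def discFun (τ₀ : ℍ) (f : ℍ → ℂ) (s : ℂ) : ℂ := f (ofComplex (discInv τ₀ s))

/-- A holomorphic function is holomorphic in the disc coordinate. -/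
theorem differentiableOn_discFun (τ₀ : ℍ) {f : ℍ → ℂ} (hf : MDiff f) :
    DifferentiableOn ℂ (discFun τ₀ f) (ball 0 1) := fun s hs =>
  (DifferentiableAt.comp (g := f ∘ ofComplex) s (UpperHalfPlane.mdifferentiableAt_iff.1
      (hf ⟨discInv τ₀ s, im_discInv_pos τ₀ (mem_ball_zero_iff.1 hs)⟩))
    (differentiableAt_discInv τ₀ (mem_ball_zero_iff.1 hs))).differentiableWithinAt

/-- The function in the disc coordinate takes the values of the function. -/
theorem discFun_discCoord (τ₀ : ℍ) (f : ℍ → ℂ) (τ : ℍ) :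
    discFun τ₀ f (discCoord τ₀ τ) = f τ := by
  rw [discFun, discInv_discCoord, ofComplex_apply]

/-- A holomorphic function expands at `τ₀` to its Taylor series in the disc coordinate. -/
theorem hasLoc_discCoord (τ₀ : ℍ) {f : ℍ → ℂ} (hf : MDiff f) :
    HasLoc (discCoord τ₀) f (HahnSeries.ofPowerSeries ℤ ℂ (taylorPS (discFun τ₀ f))) :=
  ⟨0, discFun τ₀ f, differentiableOn_discFun τ₀ hf,
    fun τ => by rw [discFun_discCoord, pow_zero, one_mul], fun _ _ => rfl, by simp⟩

end FermatAgent.Curve
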