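import Mathlib.Analysis.Complex.UpperHalfPlane.Topology
import Mathlib.Algebra.Ring.Periodic

/-!
# Periodic functions on the upper half plane
-/

set_option autoImplicit false

open UpperHalfPlane Function

namespace FermatAgent.Curve

/-- A function invariant under a real translation is periodic on the complex plane. -/
theorem periodic_comp_ofComplex_of_vadd {f : ℍ → ℂ} {w : ℝ} (h : ∀ τ : ℍ, f (w +ᵥ τ) = f τ) :
    Periodic (f ∘ ofComplex) (w : ℂ) := fun z => by
  simp only [Function.comp_apply]
  rcases le_or_gt z.im 0 with hz | hz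
  · rw [ofComplex_apply_of_im_nonpos hz, ofComplex_apply_of_im_nonpos (by simpa using hz)]
  · rw [ofComplex_apply_of_im_pos hz, ofComplex_apply_of_im_pos (by simpa using hz),
      ← h ⟨z, hz⟩]
    congr 1
    apply UpperHalfPlane.ext
    rw [coe_vadd]
    exact add_comm z _

/-- The Möbius action of `SL(2, ℤ)` in coordinates. -/
theorem coe_sl_smul (g : Matrix.SpecialLinearGroup (Fin 2) ℤ) (τ : ℍ) :
    ((g • τ : ℍ) : ℂ) = ((g 0 0 : ℂ) * τ + g 0 1) / ((g 1 0 : ℂ) * τ + g 1 1) := by
  rw [UpperHalfPlane.coe_specialLinearGroup_apply]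
  simp

end FermatAgent.Curve
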