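import Mathlib
import Fermat.Prelude.Def_ModularCurve_X0

/-!
# The classical `q`-expansions of `E₄` and `Δ` are the prelude's power series
-/

set_option autoImplicit false

noncomputable section

open UpperHalfPlane ModularForm Filter Topology Metric EisensteinSeries
open scoped PowerSeries.WithPiTopology MatrixGroups

namespace FermatAgent.Curve

theorem iteratedDeriv_eval (p : Polynomial ℂ) (m : ℕ) :
    iteratedDeriv m (fun x => p.eval x) = fun x => (Polynomial.derivative^[m] p).eval x := by
  induction m with
  | zero => simp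
  | succ m ih =>
    ext x
    rw [iteratedDeriv_succ, ih, Function.iterate_succ_apply', Polynomial.deriv]

theorem tendstoLocallyUniformlyOn_iteratedDeriv {F : ℕ → ℂ → ℂ} {f : ℂ → ℂ} {U : Set ℂ}
    (hU : IsOpen U) (hd : ∀ n, DifferentiableOn ℂ (F n) U)
    (h : TendstoLocallyUniformlyOn F f atTop U) (m : ℕ) :
    TendstoLocallyUniformlyOn (fun n => iteratedDeriv m (F n)) (iteratedDeriv m f) atTop U ∧
      ∀ n, DifferentiableOn ℂ (iteratedDeriv m (F n)) U := by
  induction m with
  | zero => simpa using And.intro h hd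
  | succ m ih =>
    refine ⟨?_, fun n => ?_⟩
    · simp only [iteratedDeriv_succ]
      exact ih.1.deriv (Filter.Eventually.of_forall ih.2) hU
    · rw [iteratedDeriv_succ]
      exact (ih.2 n).deriv hU

/-- Partial products of `∏ (1 - X^(i+1))`. -/
def etaPartial (M : ℕ) : Polynomial ℤ := ∏ i ∈ Finset.range M, (1 - Polynomial.X ^ (i + 1))

/-- A coefficient of `∏ (1 - X^(i+1))` is that of all large partial products. -/
theorem coeff_etaProd_eq (n : ℕ) : ∀ᶠ M in atTop,
    (etaPartial M).coeff n = PowerSeries.coeff n ModularCurve.etaProd := by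
  have h := (PowerSeries.WithPiTopology.multipliable_one_sub_X_pow ℤ).hasProd
  have h2 := ((PowerSeries.WithPiTopology.tendsto_iff_coeff_tendsto ℤ _ _ _).1
    (h.comp tendsto_finset_range)) n
  rw [nhds_discrete, tendsto_pure] at h2
  filter_upwards [h2] with M hM
  have hcast : (((etaPartial M : Polynomial ℤ)) : PowerSeries ℤ) =
      ∏ i ∈ Finset.range M, (1 - PowerSeries.X ^ (i + 1)) := by
    rw [etaPartial, ← Polynomial.coeToPowerSeries.ringHom_apply, map_prod]
    simp
  rw [← Polynomial.coeff_coe, hcast]
  exact hM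

/-- `∏ (1 - q^(n+1))^24` on the unit disc. -/
def etaFun (q : ℂ) : ℂ := ∏' i : ℕ, (1 - q ^ (i + 1)) ^ 24

theorem iteratedDeriv_etaFun (n : ℕ) : iteratedDeriv n etaFun 0 =
    (n.factorial : ℂ) * ((PowerSeries.coeff n ModularCurve.dedekindEtaUnit : ℤ) : ℂ) := by
  set F : ℕ → ℂ → ℂ := fun M q => ((etaPartial M ^ 24).map (Int.castRingHom ℂ)).eval q
  have hU : IsOpen (ball (0 : ℂ) 1) := isOpen_ball
  have h1 : TendstoLocallyUniformlyOn (fun M q => ∏ i ∈ Finset.range M, (1 - q ^ (i + 1)))
      (fun q => ∏' i, (1 - q ^ (i + 1))) atTop (ball (0 : ℂ) 1) :=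
    multipliableLocallyUniformlyOn_one_sub_pow.hasProdLocallyUniformlyOn
      |>.tendstoLocallyUniformlyOn_finsetRange
  have h24 : ∀ k : ℕ, TendstoLocallyUniformlyOn
      (fun M q => (∏ i ∈ Finset.range M, (1 - q ^ (i + 1))) ^ k)
      (fun q => (∏' i, (1 - q ^ (i + 1))) ^ k) atTop (ball (0 : ℂ) 1) := by
    intro k
    induction k with
    | zero =>
      simp only [pow_zero]
      intro u hu x _
      exact ⟨Set.univ, Filter.univ_mem, Eventually.of_forall fun _ _ _ => refl_mem_uniformity hu⟩
    | succ k ih =>
      simp only [pow_succ]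
      exact TendstoLocallyUniformlyOn.fun_mul₀ ih h1
        (differentiableOn_tprod_one_sub_pow.continuousOn.pow k)
        differentiableOn_tprod_one_sub_pow.continuousOn
  have hF : TendstoLocallyUniformlyOn F etaFun atTop (ball (0 : ℂ) 1) := by
    refine ((h24 24).congr ?_).congr_right fun q hq => ?_
    · intro M q _
      simp [F, etaPartial, Polynomial.map_prod, Polynomial.eval_prod]
    · dsimp only [etaFun]
      rw [(multipliable_one_sub_pow (by simpa using hq)).tprod_pow]
  have hlim := ((tendstoLocallyUniformlyOn_iteratedDeriv hU (fun M => ?_) hF n).1).tendsto_at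
    (mem_ball_self one_pos)
  · refine tendsto_nhds_unique hlim (tendsto_nhds_of_eventually_eq ?_)
    obtain ⟨M₀, hM₀⟩ := eventually_atTop.1
      ((Set.finite_Iic n).eventually_all.2 fun i _ => coeff_etaProd_eq i)
    refine eventually_atTop.2 ⟨M₀, fun M hM => ?_⟩
    have hcoeff :
        (etaPartial M ^ 24).coeff n = PowerSeries.coeff n ModularCurve.dedekindEtaUnit := by
      have htr : PowerSeries.trunc (n + 1) ((etaPartial M : Polynomial ℤ) : PowerSeries ℤ) =
          PowerSeries.trunc (n + 1) ModularCurve.etaProd := by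
        ext i
        simp only [PowerSeries.coeff_trunc]
        split_ifs with hi
        · rw [Polynomial.coeff_coe]; exact hM₀ M hM i (Set.mem_Iic.2 (by omega))
        · rfl
      rw [ModularCurve.dedekindEtaUnit, ← Polynomial.coeff_coe, Polynomial.coe_pow,
        ← PowerSeries.coeff_coe_trunc_of_lt (Nat.lt_succ_self n),
        ← PowerSeries.trunc_trunc_pow, htr, PowerSeries.trunc_trunc_pow,
        PowerSeries.coeff_coe_trunc_of_lt (Nat.lt_succ_self n)]
    simp only [F, iteratedDeriv_eval]
    rw [← Polynomial.coeff_zero_eq_eval_zero, Polynomial.coeff_iterate_derivative, zero_add,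
      Nat.descFactorial_self, nsmul_eq_mul, Polynomial.coeff_map, hcoeff, eq_intCast]
  · exact (Polynomial.differentiable _).differentiableOn

theorem cuspFunction_discriminant_eventuallyEq :
    cuspFunction 1 ModularForm.discriminant =ᶠ[𝓝 0] fun q => q * etaFun q :=
  Set.EqOn.eventuallyEq_of_mem discriminant_cuspFunction_eqOn (ball_mem_nhds 0 one_pos)

/-- The `q`-expansion of `Δ`. -/
theorem qExpansion_discriminant : qExpansion 1 ModularForm.discriminant =
    PowerSeries.X * ModularCurve.dedekindEtaUnit.map (Int.castRingHom ℂ) := by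
  ext n
  rw [qExpansion_coeff, cuspFunction_discriminant_eventuallyEq.iteratedDeriv_eq n]
  cases n with
  | zero => simp
  | succ n =>
    have hana : ∀ k : ℕ, ContDiffAt ℂ k etaFun 0 := fun k =>
      ((differentiableOn_tprod_one_sub_pow_pow 24).analyticAt (ball_mem_nhds 0 one_pos)).contDiffAt
    rw [iteratedDeriv_fun_mul (f := fun q : ℂ => q) contDiffAt_fun_id (hana _),
      Finset.sum_eq_single 1 (fun i _ hi => ?_) (fun h => absurd (Finset.mem_range.2 (by omega)) h),
      PowerSeries.coeff_succ_X_mul, PowerSeries.coeff_map]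
    · simp only [iteratedDeriv_one, deriv_id'', Nat.choose_one_right, Nat.add_sub_cancel,
        iteratedDeriv_etaFun, eq_intCast, mul_one]
      rw [Nat.factorial_succ]
      push_cast
      field_simp [Nat.cast_ne_zero.2 (Nat.factorial_ne_zero n)]
    · rcases i with _ | _ | i
      · simp
      · exact absurd rfl hi
      · rw [iteratedDeriv_succ', iteratedDeriv_succ']
        simp

/-- The `q`-expansion of `E₄`. -/
theorem qExpansion_E4 :
    qExpansion 1 (E₄ : ℍ → ℂ) = ModularCurve.eisenstein4.map (Int.castRingHom ℂ) := by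
  ext n
  rw [EisensteinSeries.E_qExpansion_coeff _ ⟨2, rfl⟩, PowerSeries.coeff_map,
    ModularCurve.eisenstein4, PowerSeries.coeff_mk]
  split_ifs
  · simp
  · rw [show bernoulli 4 = -1 / 30 by decide +kernel]
    simp [ArithmeticFunction.sigma_apply]
    norm_num

end FermatAgent.Curve
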