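import Mathlib
import Fermat.Prelude.Def_ModularCurve_JqCoeff
import Fermat.Agent.Curve.QExpJ
import Fermat.Agent.Curve.Local
import Fermat.Agent.Curve.Periodic

/-!
# The classical `j` function: expansion, local orders, and invariant functions

`j` is invariant under `SL(2, ℤ)`, takes every value, and `j - a` has order `3` at `ρ`, `2` at `i`
and `1` elsewhere; an invariant holomorphic function meromorphic at `∞` is a polynomial in `j`.
-/

set_option autoImplicit false

noncomputable section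

open UpperHalfPlane hiding I
open Filter Topology Metric Function Complex ModularGroup EisensteinSeries
open ModularForm (E E₄ E₆ discriminant_eq_E₄_cube_sub_E₆_sq)
open scoped MatrixGroups Manifold Real ComplexConjugate Derivative ModularForm

namespace FermatAgent.Curve

local notation "Δ" => ModularForm.discriminant

/-- `q = exp (2 π i τ / w)`. -/
def qw (w : ℝ) (τ : ℍ) : ℂ := Periodic.qParam w (τ : ℂ)

/-- `q` does not vanish. -/
theorem qw_ne_zero (w : ℝ) (τ : ℍ) : qw w τ ≠ 0 := Periodic.qParam_ne_zero _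

/-- The absolute value of `q`. -/
theorem norm_qw (w : ℝ) (τ : ℍ) : ‖qw w τ‖ = Real.exp (-2 * π * τ.im / w) := by
  rw [qw, Periodic.norm_qParam, coe_im]

/-- `q` is a coordinate. -/
theorem locCoord_qw {w : ℝ} (hw : 0 < w) : LocCoord (qw w) := locCoord_qParam hw

/-- `q` is invariant under `τ ↦ τ + 1`. -/
theorem qw_vadd_one (τ : ℍ) : qw 1 ((1 : ℝ) +ᵥ τ) = qw 1 τ := by
  rw [qw, qw, coe_vadd, Periodic.qParam, Periodic.qParam, Complex.exp_eq_exp_iff_exists_int]
  exact ⟨1, by push_cast; ring⟩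

/-- `q^{1/w}` as a power of `q^{1/(n w)}`. -/
theorem qw_mul_pow (n w : ℕ) [NeZero n] [NeZero w] (τ : ℍ) :
    qw (w : ℝ) τ = qw ((n * w : ℕ) : ℝ) τ ^ n := by
  have hn : (n : ℂ) ≠ 0 := Nat.cast_ne_zero.2 (NeZero.ne n)
  have hw : (w : ℂ) ≠ 0 := Nat.cast_ne_zero.2 (NeZero.ne w)
  rw [qw, qw, Periodic.qParam, Periodic.qParam, ← Complex.exp_nat_mul]
  congr 1
  push_cast
  field_simp

/-- `q` as a power of `q^{1/w}`. -/
theorem qw_eq_pow (w : ℕ) [NeZero w] (τ : ℍ) : qw 1 τ = qw (w : ℝ) τ ^ w := by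
  simpa using qw_mul_pow w 1 τ

/-- A series in `q` as a series in `q^{1/w}`. -/
theorem HasLoc.spread {w : ℕ} [NeZero w] {f : ℍ → ℂ} {S : LaurentSeries ℂ}
    (h : HasLoc (qw 1) f S) : HasLoc (qw (w : ℝ)) f (ModularCurve.qExpand ℂ w S) := by
  have h1 := h.pullback (t' := qw (w : ℝ)) id norm_one one_ne_zero w
    fun τ => by rw [one_mul]; exact qw_eq_pow w τ
  rwa [rotate_one] at h1

/-- `q / Δ` is bounded at `∞`. -/
theorem isBoundedAtImInfty_qw_div_discriminant :
    IsBoundedAtImInfty fun τ : ℍ => qw 1 τ / Δ τ := by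
  refine (Asymptotics.div_isBoundedUnder_of_isBigO ?_).isBigO_one ℝ
  refine (Asymptotics.isBigO_of_le _ fun τ => ?_).trans ModularForm.exp_isBigO_discriminant
  rw [norm_qw, div_one, Real.norm_of_nonneg (Real.exp_pos _).le]

/-- A periodic bounded function tends at `∞` to the constant term of its `q`-expansion. -/
theorem tendsto_coeff_zero {f : ℍ → ℂ} {w : ℝ} (hw : 0 < w)
    (hper : Periodic (f ∘ ofComplex) w) (hhol : MDiff f) (hbdd : IsBoundedAtImInfty f) :
    Tendsto f atImInfty (𝓝 (PowerSeries.coeff 0 (qExpansion w f))) := by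
  rw [qExpansion_eq_taylorPS, coeff_zero_taylorPS]
  exact ((analyticAt_cuspFunction_zero hw hper hhol hbdd).continuousAt.tendsto.comp
    (qParam_tendsto_atImInfty hw)).congr fun τ => eq_cuspFunction τ hw.ne' hper

theorem hasDerivAt_qParam_one (z : ℂ) :
    HasDerivAt (Periodic.qParam 1) (2 * π * I * Periodic.qParam 1 z) z := by
  have h := ((hasDerivAt_id z).const_mul (2 * π * I)).cexp
  simp only [id_eq, mul_one] at h
  have e : Periodic.qParam 1 = fun w : ℂ => cexp (2 * π * I * w) := by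
    funext w
    simp [Periodic.qParam]
  rw [e]
  exact h.congr_deriv (mul_comm _ _)

theorem tendsto_D_zero {f : ℍ → ℂ} (hper : Periodic (f ∘ ofComplex) ((1 : ℝ) : ℂ))
    (hhol : MDiff f) (hbdd : IsBoundedAtImInfty f) : Tendsto (D f) atImInfty (𝓝 0) := by
  set G := cuspFunction 1 f
  have hd : DifferentiableOn ℂ G (ball 0 1) :=
    differentiableOn_cuspFunction_ball one_pos hper hhol hbdd
  have hc : ContinuousAt (deriv G) 0 :=
    ((hd.analyticAt (ball_mem_nhds 0 one_pos)).deriv).continuousAt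
  have h : ∀ τ : ℍ, D f τ = qw 1 τ * deriv G (qw 1 τ) := fun τ => by
    have hq : ‖qw 1 τ‖ < 1 := (locCoord_qw one_pos).norm_lt τ
    have h1 := ((differentiableAt_cuspFunction one_pos hper hhol hbdd hq).hasDerivAt.comp (τ : ℂ)
      (hasDerivAt_qParam_one (τ : ℂ)))
    have h2 : (f ∘ ofComplex) =ᶠ[𝓝 (τ : ℂ)] G ∘ Periodic.qParam 1 := by
      filter_upwards [isOpen_upperHalfPlaneSet.mem_nhds τ.im_pos] with z hz
      simp only [Function.comp_apply, G]
      rw [ofComplex_apply_of_im_pos hz]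
      exact (eq_cuspFunction ⟨z, hz⟩ one_ne_zero hper).symm
    rw [Derivative.normalizedDerivOfComplex, (h1.congr_of_eventuallyEq h2).deriv, qw]
    field_simp [Real.pi_ne_zero, I_ne_zero]
    exact mul_comm _ _
  have h3 := (qParam_tendsto_atImInfty one_pos).mul
    (hc.tendsto.comp (qParam_tendsto_atImInfty one_pos))
  rw [zero_mul] at h3
  exact h3.congr fun τ => (h τ).symm

/-- A level one function of weight `< 12` tending to `0` at `∞` vanishes. -/
theorem eq_zero_of_weight_lt {k : ℤ} (hk : k < 12) {f : ℍ → ℂ} (hhol : MDiff f)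
    (hinv : ∀ γ : SL(2, ℤ), f ∣[k] γ = f) (h0 : Tendsto f atImInfty (𝓝 0)) : f = 0 := by
  let g : CuspForm 𝒮ℒ k :=
    { toFun := f
      slash_action_eq' := fun A hA => by
        obtain ⟨γ, rfl⟩ := hA
        exact hinv γ
      holo' := hhol
      zero_at_cusps' := fun hc => by
        rw [Subgroup.IsArithmetic.isCusp_iff_isCusp_SL2Z] at hc
        rw [OnePoint.isZeroAt_iff_forall_SL2Z hc]
        intro γ _
        rw [hinv γ]
        exact h0 }
  have := rank_zero_iff_forall_zero.1 (CuspForm.rank_eq_zero_of_weight_lt_twelve hk) g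
  exact congrArg DFunLike.coe this

/-! ### `j` -/

/-- `j = E₄³ / Δ`. -/
def jFun (τ : ℍ) : ℂ := E₄ τ ^ 3 / Δ τ

/-- Modular forms of level one are invariant under the weighted action. -/
theorem slash_E (γ : SL(2, ℤ)) {k : ℤ} (f : ModularForm 𝒮ℒ k) :
    (f : ℍ → ℂ) ∣[k] γ = f :=
  SlashInvariantForm.slash_action_eqn f _ ⟨γ, rfl⟩

/-- `Δ` is invariant of weight twelve. -/
theorem slash_discriminant (γ : SL(2, ℤ)) : (Δ : ℍ → ℂ) ∣[(12 : ℤ)] γ = Δ :=
  SlashInvariantForm.slash_action_generators_SL2Z ModularForm.discriminant_S_invariant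
    ModularForm.discriminant_T_invariant γ

/-- `Δ` is holomorphic. -/
theorem mdiff_discriminant : MDiff (Δ : ℍ → ℂ) := CuspForm.discriminant.holo'

/-- Invariance of weight `k` as a functional equation. -/
theorem smul_eq_denom_zpow {k : ℤ} {f : ℍ → ℂ} {γ : SL(2, ℤ)} (h : f ∣[k] γ = f) (τ : ℍ) :
    f (γ • τ) = denom γ τ ^ k * f τ := by
  have h1 := congrFun h τ
  rw [ModularForm.SL_slash_apply, zpow_neg] at h1
  rw [← h1]
  field_simp [zpow_ne_zero k (denom_ne_zero (γ : GL (Fin 2) ℝ) τ)]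

/-- The functional equation of `Δ`. -/
theorem discriminant_smul (γ : SL(2, ℤ)) (τ : ℍ) :
    Δ (γ • τ) = denom (γ : GL (Fin 2) ℝ) τ ^ (12 : ℕ) * Δ τ :=
  (smul_eq_denom_zpow (slash_discriminant γ) τ).trans (by norm_cast)

/-- `j` is invariant under `SL(2, ℤ)`. -/
theorem jFun_smul (γ : SL(2, ℤ)) (τ : ℍ) : jFun (γ • τ) = jFun τ := by
  rw [jFun, jFun, smul_eq_denom_zpow (slash_E γ E₄), smul_eq_denom_zpow (slash_discriminant γ),
    mul_pow, ← zpow_natCast (denom (γ : GL (Fin 2) ℝ) τ ^ (4 : ℤ)) 3, ← zpow_mul]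
  exact mul_div_mul_left _ _ (zpow_ne_zero _ (denom_ne_zero _ _))

/-- `j` is holomorphic on `ℍ`. -/
theorem mdiff_jFun : MDiff jFun :=
  MDifferentiable.div ((ModularFormClass.holo E₄).pow 3) mdiff_discriminant
    ModularForm.discriminant_ne_zero

theorem periodic_of_SL_invariant {f : ℍ → ℂ} (h : ∀ (γ : SL(2, ℤ)) τ, f (γ • τ) = f τ) :
    Periodic (f ∘ ofComplex) ((1 : ℝ) : ℂ) :=
  periodic_comp_ofComplex_of_vadd fun τ => by rw [← modular_T_smul, h]

/-- `q * j`. -/
def qjFun (τ : ℍ) : ℂ := qw 1 τ * jFun τ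

theorem vadd_qjFun (τ : ℍ) : qjFun ((1 : ℝ) +ᵥ τ) = qjFun τ := by
  rw [qjFun, qjFun, qw_vadd_one, ← modular_T_smul, jFun_smul]

/-- `q` is holomorphic. -/
theorem mdiff_qw (w : ℝ) : MDiff (qw w) := by
  rw [UpperHalfPlane.mdifferentiable_iff]
  refine DifferentiableOn.congr (f := fun z => Periodic.qParam w z) ?_ fun z hz => ?_
  · unfold Periodic.qParam
    exact (by fun_prop : Differentiable ℂ fun z : ℂ => cexp (2 * π * I * z / w)).differentiableOn
  · simp [qw, ofComplex_apply_of_im_pos hz]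

theorem mdiff_qjFun : MDiff qjFun := (mdiff_qw 1).mul mdiff_jFun

theorem periodic_qjFun : Periodic (qjFun ∘ ofComplex) ((1 : ℝ) : ℂ) :=
  periodic_comp_ofComplex_of_vadd vadd_qjFun

theorem isBoundedAtImInfty_qjFun : IsBoundedAtImInfty qjFun := by
  have hE : IsBoundedAtImInfty (E₄ : ℍ → ℂ) := ModularFormClass.bdd_at_infty E₄
  have h2 := (hE.pow 3).mul isBoundedAtImInfty_qw_div_discriminant
  refine (h2.congr_left fun τ => ?_).congr_right fun τ => by simp
  simp only [qjFun, jFun]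
  ring

theorem cuspFunction_eventuallyEq {w : ℝ} (hw : 0 < w) {f : ℍ → ℂ} {G : ℂ → ℂ}
    (hf : AnalyticAt ℂ (cuspFunction w f) 0) (hG : ContinuousAt G 0) (h : ∀ τ, f τ = G (qw w τ)) :
    cuspFunction w f =ᶠ[𝓝 0] G := by
  refine (hf.continuousAt.eventuallyEq_nhds_iff_eventuallyEq_nhdsNE hG).1 ?_
  filter_upwards [self_mem_nhdsWithin, nhdsWithin_le_nhds (ball_mem_nhds (0 : ℂ) one_pos)]
    with s hs hs1
  have hp := Periodic.im_invQParam_pos_of_norm_lt_one hw (mem_ball_zero_iff.1 hs1) hs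
  simp only [cuspFunction, Periodic.cuspFunction_eq_of_nonzero w _ hs, Function.comp_apply,
    ofComplex_apply_of_im_pos hp]
  rw [h, qw]
  exact congrArg G (Periodic.qParam_right_inv hw.ne' hs)

theorem isBoundedAtImInfty_qw {w : ℝ} (hw : 0 < w) : IsBoundedAtImInfty (qw w) :=
  (qParam_tendsto_atImInfty hw).isBigO_one ℝ

theorem qExpansion_qjFun : qExpansion 1 qjFun = ModularCurve.jNum.map (Int.castRingHom ℂ) := by
  have hq : qExpansion 1 (qjFun * (Δ : ℍ → ℂ)) =
      qExpansion 1 (fun τ => qw 1 τ) * qExpansion 1 (E₄ : ℍ → ℂ) ^ 3 := by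
    have aE := ModularFormClass.analyticAt_cuspFunction_zero E₄ one_pos one_mem_strictPeriods_SL
    have aq : AnalyticAt ℂ (cuspFunction 1 (qw 1)) 0 :=
      analyticAt_cuspFunction_zero one_pos (periodic_comp_ofComplex_of_vadd qw_vadd_one)
        (mdiff_qw 1) (isBoundedAtImInfty_qw one_pos)
    have hfun : qjFun * (Δ : ℍ → ℂ) = qw 1 * ((E₄ : ℍ → ℂ) * ((E₄ : ℍ → ℂ) * E₄)) := by
      funext τ
      simp only [Pi.mul_apply, qjFun, jFun]
      field_simp [ModularForm.discriminant_ne_zero τ]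
    have aEE : AnalyticAt ℂ (cuspFunction 1 ((E₄ : ℍ → ℂ) * E₄)) 0 := by
      rw [cuspFunction_mul aE.continuousAt aE.continuousAt]; exact aE.mul aE
    have aEEE : AnalyticAt ℂ (cuspFunction 1 ((E₄ : ℍ → ℂ) * ((E₄ : ℍ → ℂ) * E₄))) 0 := by
      rw [cuspFunction_mul aE.continuousAt aEE.continuousAt]; exact aE.mul aEE
    rw [hfun, UpperHalfPlane.qExpansion_mul aq aEEE, UpperHalfPlane.qExpansion_mul aE aEE,
      UpperHalfPlane.qExpansion_mul aE aE]
    ring
  have hqw : qExpansion 1 (fun τ => qw 1 τ) = PowerSeries.X := by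
    rw [qExpansion_eq_taylorPS, ← taylorPS_id]
    refine taylorPS_congr (cuspFunction_eventuallyEq one_pos ?_
      (analyticAt_id (𝕜 := ℂ)).continuousAt fun τ => rfl)
    exact analyticAt_cuspFunction_zero one_pos (periodic_comp_ofComplex_of_vadd qw_vadd_one)
      (mdiff_qw 1) (isBoundedAtImInfty_qw one_pos)
  rw [← CuspForm.coe_discriminant] at hq
  rw [UpperHalfPlane.qExpansion_mul
    (analyticAt_cuspFunction_zero one_pos periodic_qjFun mdiff_qjFun isBoundedAtImInfty_qjFun)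
    (ModularFormClass.analyticAt_cuspFunction_zero CuspForm.discriminant one_pos
      one_mem_strictPeriods_SL), hqw, qExpansion_E4, CuspForm.coe_discriminant,
    qExpansion_discriminant] at hq
  have h2 : qExpansion 1 qjFun * ModularCurve.dedekindEtaUnit.map (Int.castRingHom ℂ) =
      ModularCurve.eisenstein4.map (Int.castRingHom ℂ) ^ 3 := by
    apply mul_left_cancel₀ (PowerSeries.X_ne_zero : (PowerSeries.X : PowerSeries ℂ) ≠ 0)
    rw [← hq]; ring
  rw [ModularCurve.jNum, map_mul, map_pow, ← h2, mul_assoc, ← map_mul,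
    ModularCurve.dedekindEtaUnit_mul_inv, map_one, mul_one]

/-- The `q`-expansion of `j` is the Prelude's series. -/
theorem hasLoc_jFun : HasLoc (qw 1) jFun (ModularCurve.jqModC ℂ) := by
  have heq : (fun τ : ℍ => qw 1 τ ^ 1 * jFun τ) = qjFun := by funext τ; rw [pow_one]; rfl
  have h := hasLoc_qParam (f := jFun) one_pos 1 (w := 1)
  change _ → _ → _ → HasLoc (qw 1) jFun _ at h
  have h2 := h (heq ▸ periodic_qjFun) (heq ▸ mdiff_qjFun) (heq ▸ isBoundedAtImInfty_qjFun)
  rw [show (fun τ : ℍ => Periodic.qParam 1 τ ^ 1 * jFun τ) = qjFun from heq, qExpansion_qjFun] at h2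
  exact h2

/-- `q j` tends to `1` at `∞`. -/
theorem tendsto_qjFun : Tendsto qjFun atImInfty (𝓝 1) := by
  have h := tendsto_coeff_zero one_pos periodic_qjFun mdiff_qjFun isBoundedAtImInfty_qjFun
  rwa [qExpansion_qjFun, PowerSeries.coeff_map, PowerSeries.coeff_zero_eq_constantCoeff,
    ModularCurve.constantCoeff_jNum, map_one] at h

/-- `j` takes every complex value. -/
theorem exists_jFun_eq (a : ℂ) : ∃ τ : ℍ, jFun τ = a := by
  by_contra hne
  push Not at hne
  have hd : ∀ τ, jFun τ - a ≠ 0 := fun τ => sub_ne_zero.2 (hne τ)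
  have hz : Tendsto (fun τ => (jFun τ - a)⁻¹) atImInfty (𝓝 0) := by
    have hq := qParam_tendsto_atImInfty (h := 1) one_pos
    have hnum : Tendsto (fun τ => qjFun τ - a * qw 1 τ) atImInfty (𝓝 1) := by
      simpa [qw] using tendsto_qjFun.sub (hq.const_mul a)
    have := hq.div hnum one_ne_zero
    rw [zero_div] at this
    refine this.congr fun τ => ?_
    simp only [Pi.div_apply, qjFun]
    rw [show qw 1 τ * jFun τ - a * qw 1 τ = qw 1 τ * (jFun τ - a) by ring,
      show Periodic.qParam 1 (τ : ℂ) = qw 1 τ from rfl, div_mul_cancel_left₀ (qw_ne_zero 1 τ)]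
  have h := eq_zero_of_weight_lt (k := 0) (by norm_num) (f := fun τ => (jFun τ - a)⁻¹)
    ((mdiff_jFun.sub mdifferentiable_const).inv hd) (fun γ => ?_) hz
  · exact inv_ne_zero (hd UpperHalfPlane.I) (congrFun h UpperHalfPlane.I)
  · funext τ
    rw [ModularForm.SL_slash_apply, neg_zero, zpow_zero, mul_one, jFun_smul]

/-! ### Ramanujan's identities for `E₄` and `E₆` -/

/-- The normalised Eisenstein series tend to `1` at `∞`. -/
theorem tendsto_E {k : ℕ} (hk : 3 ≤ k) (hk2 : Even k) :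
    Tendsto (E hk : ℍ → ℂ) atImInfty (𝓝 1) := by
  have h := tendsto_coeff_zero one_pos
    (SlashInvariantFormClass.periodic_comp_ofComplex (E hk) one_mem_strictPeriods_SL) (E hk).holo'
    (ModularFormClass.bdd_at_infty (E hk))
  rwa [E_qExpansion_coeff_zero hk hk2] at h

theorem periodic_E2 : Periodic (E2 ∘ ofComplex) ((1 : ℝ) : ℂ) := by
  refine periodic_comp_ofComplex_of_vadd fun τ => ?_
  have h := congrFun (E2_slash_action ModularGroup.T) τ
  rw [D2_T, smul_zero, sub_zero, ModularForm.SL_slash_apply] at h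
  rw [← modular_T_smul, ← h]
  simp [denom, ModularGroup.coe_T]

theorem tendsto_E2 : Tendsto E2 atImInfty (𝓝 1) := by
  have hb := isBoundedAtImInfty_E2
  have h := tendsto_coeff_zero one_pos periodic_E2 E2_mdifferentiable hb
  have hs := hasFPowerSeriesOnBall_cuspFunction one_pos
    (analyticAt_cuspFunction_zero one_pos periodic_E2 E2_mdifferentiable hb)
    (c := fun m : ℕ => (if m = 0 then 1 else -24 * ArithmeticFunction.sigma 1 m : ℂ))
    (fun τ => by simpa [Periodic.qParam] using hasSum_qExpansion_E2 (z := τ))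
  have h0 := hs.coeff_zero fun _ => (0 : ℂ)
  rw [FormalMultilinearSeries.ofScalars_apply_eq, if_pos rfl, pow_zero, one_smul] at h0
  rwa [qExpansion_eq_taylorPS, coeff_zero_taylorPS, ← h0] at h

/-- **Ramanujan's identity** for the derivative of `E₄`. -/
theorem D_E4 (τ : ℍ) : D (E₄ : ℍ → ℂ) τ = (E2 τ * E₄ τ - E₆ τ) / 3 := by
  have hper := SlashInvariantFormClass.periodic_comp_ofComplex E₄ one_mem_strictPeriods_SL
  have h0 : Tendsto (Derivative.serreDerivative ((4 : ℤ) : ℂ) (E₄ : ℍ → ℂ) + (3 : ℂ)⁻¹ • ⇑E₆)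
      atImInfty (𝓝 0) := by
    have h := ((tendsto_D_zero hper (ModularFormClass.holo E₄)
      (ModularFormClass.bdd_at_infty E₄)).sub
      ((tendsto_E2.const_mul ((4 : ℂ) * 12⁻¹)).mul (tendsto_E (k := 4) (by norm_num) ⟨2, rfl⟩))).add
      ((tendsto_E (k := 6) (by norm_num) ⟨3, rfl⟩).const_mul (3 : ℂ)⁻¹)
    rw [show (0 : ℂ) - 4 * 12⁻¹ * 1 * 1 + 3⁻¹ * 1 = 0 by norm_num] at h
    exact h.congr fun τ => by simp
  have hinv : ∀ γ : SL(2, ℤ), (Derivative.serreDerivative ((4 : ℤ) : ℂ) (E₄ : ℍ → ℂ) +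
      (3 : ℂ)⁻¹ • ⇑E₆) ∣[(6 : ℤ)] γ =
      Derivative.serreDerivative ((4 : ℤ) : ℂ) (E₄ : ℍ → ℂ) + (3 : ℂ)⁻¹ • ⇑E₆ := fun γ => by
    rw [SlashAction.add_slash, ModularForm.SL_smul_slash, slash_E γ E₆]
    exact congrArg (· + _)
      (Derivative.serreDerivative_slash_invariant (k := 4) (ModularFormClass.holo E₄)
        (slash_E γ E₄))
  have h := congrFun (eq_zero_of_weight_lt (by norm_num)
    ((Derivative.serreDerivative_mdifferentiable _ (ModularFormClass.holo E₄)).add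
      ((ModularFormClass.holo E₆).const_smul _)) hinv h0) τ
  simp only [Pi.add_apply, Pi.smul_apply, Derivative.serreDerivative_apply, smul_eq_mul,
    Pi.zero_apply, Int.cast_ofNat] at h
  linear_combination h

/-- **Ramanujan's identity** for the derivative of `E₆`. -/
theorem D_E6 (τ : ℍ) : D (E₆ : ℍ → ℂ) τ = (E2 τ * E₆ τ - E₄ τ ^ 2) / 2 := by
  have hper := SlashInvariantFormClass.periodic_comp_ofComplex E₆ one_mem_strictPeriods_SL
  have h0 : Tendsto (Derivative.serreDerivative ((6 : ℤ) : ℂ) (E₆ : ℍ → ℂ) +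
      (2 : ℂ)⁻¹ • (⇑E₄ * ⇑E₄)) atImInfty (𝓝 0) := by
    have h4 := tendsto_E (k := 4) (by norm_num) ⟨2, rfl⟩
    have h := ((tendsto_D_zero hper (ModularFormClass.holo E₆)
      (ModularFormClass.bdd_at_infty E₆)).sub
      ((tendsto_E2.const_mul ((6 : ℂ) * 12⁻¹)).mul (tendsto_E (k := 6) (by norm_num) ⟨3, rfl⟩))).add
      ((h4.mul h4).const_mul (2 : ℂ)⁻¹)
    rw [show (0 : ℂ) - 6 * 12⁻¹ * 1 * 1 + 2⁻¹ * (1 * 1) = 0 by norm_num] at h
    exact h.congr fun τ => by simp
  have hinv : ∀ γ : SL(2, ℤ), (Derivative.serreDerivative ((6 : ℤ) : ℂ) (E₆ : ℍ → ℂ) +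
      (2 : ℂ)⁻¹ • (⇑E₄ * ⇑E₄)) ∣[(8 : ℤ)] γ =
      Derivative.serreDerivative ((6 : ℤ) : ℂ) (E₆ : ℍ → ℂ) + (2 : ℂ)⁻¹ • (⇑E₄ * ⇑E₄) := fun γ => by
    have h44 : (⇑E₄ * ⇑E₄) ∣[(8 : ℤ)] γ = ⇑E₄ * ⇑E₄ := by
      rw [show (8 : ℤ) = 4 + 4 by norm_num, ModularForm.mul_slash_SL2, slash_E γ E₄]
    rw [SlashAction.add_slash, ModularForm.SL_smul_slash, h44]
    exact congrArg (· + _)
      (Derivative.serreDerivative_slash_invariant (k := 6) (ModularFormClass.holo E₆)
        (slash_E γ E₆))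
  have h := congrFun (eq_zero_of_weight_lt (by norm_num)
    ((Derivative.serreDerivative_mdifferentiable _ (ModularFormClass.holo E₆)).add
      (((ModularFormClass.holo E₄).mul (ModularFormClass.holo E₄)).const_smul _)) hinv h0) τ
  simp only [Pi.add_apply, Pi.smul_apply, Pi.mul_apply, Derivative.serreDerivative_apply,
    smul_eq_mul, Pi.zero_apply, Int.cast_ofNat] at h
  linear_combination h

/-- `j - 1728 = E₆² / Δ`. -/
theorem jFun_sub_1728 (τ : ℍ) : jFun τ - 1728 = E₆ τ ^ 2 / Δ τ := by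
  have h := discriminant_eq_E₄_cube_sub_E₆_sq τ
  rw [jFun]
  field_simp [ModularForm.discriminant_ne_zero τ]
  linear_combination (-1728 : ℂ) * h

/-- `D j = -E₄² E₆ / Δ`. -/
theorem D_jFun (τ : ℍ) : D jFun τ = -(E₄ τ ^ 2 * E₆ τ) / Δ τ := by
  have hdisc : D (Δ : ℍ → ℂ) τ = E2 τ * Δ τ := by
    have hfun : (Δ : ℍ → ℂ) = (1728 : ℂ)⁻¹ • ((⇑E₄) ^ 3 - (⇑E₆) ^ 2) := by
      funext z
      simp [discriminant_eq_E₄_cube_sub_E₆_sq z, div_eq_inv_mul]
    rw [discriminant_eq_E₄_cube_sub_E₆_sq τ, hfun,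
      Derivative.normalizedDerivOfComplex_smul _ _
        (((ModularFormClass.holo E₄).pow 3).sub ((ModularFormClass.holo E₆).pow 2)),
      Derivative.normalizedDerivOfComplex_sub _ _ ((ModularFormClass.holo E₄).pow 3)
        ((ModularFormClass.holo E₆).pow 2),
      Derivative.normalizedDerivOfComplex_pow _ 3 (ModularFormClass.holo E₄),
      Derivative.normalizedDerivOfComplex_pow _ 2 (ModularFormClass.holo E₆)]
    simp only [Pi.smul_apply, Pi.sub_apply, Pi.mul_apply, Pi.pow_apply, smul_eq_mul,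
      Pi.natCast_def, D_E4, D_E6]
    ring
  have hprod : jFun * (Δ : ℍ → ℂ) = (⇑E₄) ^ 3 := by
    funext z
    simp [jFun, div_mul_cancel₀ _ (ModularForm.discriminant_ne_zero z)]
  have h := congrFun (congrArg D hprod) τ
  rw [Derivative.normalizedDerivOfComplex_mul _ _ mdiff_jFun mdiff_discriminant,
    Derivative.normalizedDerivOfComplex_pow _ 3 (ModularFormClass.holo E₄)] at h
  simp only [Pi.add_apply, Pi.mul_apply, Pi.pow_apply,
    Pi.natCast_def, hdisc, D_E4, jFun] at h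
  rw [eq_div_iff (ModularForm.discriminant_ne_zero τ)]
  field_simp [ModularForm.discriminant_ne_zero τ] at h
  linear_combination (norm := (field_simp; ring)) h / 3

/-! ### The elliptic points -/

/-- `ρ = (-1 + √3 i) / 2`. -/
def rhoPt : ℍ := ⟨⟨-1 / 2, Real.sqrt 3 / 2⟩, by simp⟩

theorem rhoPt_eq : (rhoPt : ℂ) ^ 2 + rhoPt + 1 = 0 := by
  have h : Real.sqrt 3 ^ 2 = 3 := Real.sq_sqrt (by norm_num)
  apply Complex.ext
  · simp [rhoPt, pow_two]; nlinarith
  · simp [rhoPt, pow_two]; ring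

theorem conj_rhoPt : conj (rhoPt : ℂ) = -1 - rhoPt := by
  apply Complex.ext <;> simp [rhoPt]
  ring

theorem S_T_smul (τ : ℍ) :
    (((S * T : SL(2, ℤ)) • τ : ℍ) : ℂ) = (-((τ : ℂ) + 1))⁻¹ := by
  rw [mul_smul, modular_S_smul, modular_T_smul]
  simp [coe_vadd, add_comm]

/-- `ρ` is fixed by `S T`. -/
theorem S_T_smul_rhoPt : (S * T : SL(2, ℤ)) • rhoPt = rhoPt := by
  apply UpperHalfPlane.ext
  rw [S_T_smul]
  refine inv_eq_of_mul_eq_one_right ?_
  linear_combination (-1 : ℂ) * rhoPt_eq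

/-- `i` is fixed by `S`. -/
theorem S_smul_I : (S : SL(2, ℤ)) • UpperHalfPlane.I = UpperHalfPlane.I := by
  apply UpperHalfPlane.ext
  rw [modular_S_smul]
  simp

/-- `S` acts by `-1` in the disc coordinate at `i`. -/
theorem discCoord_S_smul (τ : ℍ) :
    discCoord UpperHalfPlane.I ((S : SL(2, ℤ)) • τ) = -1 * discCoord UpperHalfPlane.I τ := by
  rw [discCoord, discCoord, modular_S_smul]
  simp only [UpperHalfPlane.coe_I, Complex.conj_I, inv_neg]
  have hτ : (τ : ℂ) ≠ 0 := τ.ne_zero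
  have h1 : (τ : ℂ) - -I ≠ 0 := by simpa using sub_conj_ne_zero UpperHalfPlane.I τ
  have h2 : -(τ : ℂ)⁻¹ - -I ≠ 0 := by
    have := sub_conj_ne_zero UpperHalfPlane.I ((S : SL(2, ℤ)) • τ)
    rw [modular_S_smul] at this
    simpa [UpperHalfPlane.coe_mk, inv_neg] using this
  field_simp
  rw [div_eq_iff (by intro h; apply h2; field_simp; linear_combination h)]
  field_simp
  linear_combination (-2 * (τ : ℂ)) * Complex.I_sq

/-- `S T` acts by `ρ²` in the disc coordinate at `ρ`. -/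
theorem discCoord_S_T_smul (τ : ℍ) :
    discCoord rhoPt ((S * T : SL(2, ℤ)) • τ) = (rhoPt : ℂ) ^ 2 * discCoord rhoPt τ := by
  rw [discCoord, discCoord, S_T_smul, conj_rhoPt]
  have h1 : (τ : ℂ) - (-1 - rhoPt) ≠ 0 := by
    rw [← conj_rhoPt]; exact sub_conj_ne_zero rhoPt τ
  have h2 := sub_conj_ne_zero rhoPt ((S * T : SL(2, ℤ)) • τ)
  rw [S_T_smul, conj_rhoPt] at h2
  have hτ : (τ : ℂ) + 1 ≠ 0 := fun h => by
    have := congrArg Complex.im h
    simp [τ.im_pos.ne'] at this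
  rw [div_eq_iff h2, mul_div_assoc', div_mul_eq_mul_div, eq_div_iff h1]
  field_simp
  linear_combination (-(rhoPt : ℂ) * (τ : ℂ) ^ 2 - (rhoPt : ℂ) * (τ : ℂ) + (τ : ℂ) + (rhoPt : ℂ) - 1
    + (τ : ℂ) * ((rhoPt : ℂ) ^ 2 - 2) + (rhoPt : ℂ) ^ 2 - 2 * (rhoPt : ℂ)) * rhoPt_eq

/-- `ρ²` is a primitive cube root of unity. -/
theorem isPrimitiveRoot_rhoPt : IsPrimitiveRoot ((rhoPt : ℂ) ^ 2) 3 := by
  have h3 : (rhoPt : ℂ) ^ 3 = 1 := by linear_combination ((rhoPt : ℂ) - 1) * rhoPt_eq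
  refine IsPrimitiveRoot.iff (by norm_num) |>.2 ⟨?_, fun l hl hl3 => ?_⟩
  · linear_combination ((rhoPt : ℂ) ^ 3 + 1) * h3
  · have hne : (rhoPt : ℂ) ≠ 1 := fun h => by
      have := congrArg Complex.im h
      simp [rhoPt] at this
    interval_cases l
    · intro h
      rw [pow_one] at h
      exact hne (by linear_combination h3 - (rhoPt : ℂ) * h)
    · intro h
      exact hne (by linear_combination h - (rhoPt : ℂ) * h3)

/-- `E₄(ρ) = 0`. -/
theorem E4_rhoPt : E₄ rhoPt = 0 := by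
  have h := smul_eq_denom_zpow (slash_E (S * T) E₄) rhoPt
  rw [S_T_smul_rhoPt] at h
  have hd : denom ((S * T : SL(2, ℤ)) : GL (Fin 2) ℝ) rhoPt = (rhoPt : ℂ) + 1 := by
    simp [denom, ModularGroup.coe_S, ModularGroup.coe_T, Matrix.mul_apply, Fin.sum_univ_two]
  rw [hd] at h
  by_contra hne
  have h1 : ((rhoPt : ℂ) + 1) ^ (4 : ℕ) = 1 :=
    (mul_right_cancel₀ hne ((one_mul _).trans h)).symm
  have h2 : (rhoPt : ℂ) + 2 = 0 := by
    linear_combination (-1 : ℂ) * h1 + ((rhoPt : ℂ) ^ 2 + 3 * rhoPt + 2) * rhoPt_eq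
  have := congrArg Complex.im h2
  simp [rhoPt] at this

/-- `E₆(i) = 0`. -/
theorem E6_I : E₆ UpperHalfPlane.I = 0 := by
  have h := smul_eq_denom_zpow (slash_E (S : SL(2, ℤ)) E₆) UpperHalfPlane.I
  rw [S_smul_I] at h
  have hd : denom ((S : SL(2, ℤ)) : GL (Fin 2) ℝ) UpperHalfPlane.I = Complex.I := by
    simp [denom, ModularGroup.coe_S]
  rw [hd, zpow_ofNat,
    show Complex.I ^ 6 = -1 by
      linear_combination (Complex.I ^ 4 - Complex.I ^ 2 + 1) * Complex.I_sq]
    at h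
  linear_combination h / 2

/-- `j(ρ) = 0`. -/
theorem jFun_rhoPt : jFun rhoPt = 0 := by simp [jFun, E4_rhoPt]

/-- `j(i) = 1728`. -/
theorem jFun_I : jFun UpperHalfPlane.I = 1728 := by
  have h := jFun_sub_1728 UpperHalfPlane.I
  rw [E6_I] at h
  simpa [sub_eq_zero] using h

/-! ### Local orders -/

theorem deriv_discFun (τ₀ : ℍ) {f : ℍ → ℂ} (hf : MDiff f) :
    deriv (discFun τ₀ f) 0 = 2 * π * I * D f τ₀ * ((τ₀ : ℂ) - conj (τ₀ : ℂ)) := by
  have h0 : discInv τ₀ 0 = τ₀ := by simp [discInv]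
  have h1 : HasDerivAt (discInv τ₀) ((τ₀ : ℂ) - conj (τ₀ : ℂ)) 0 := by
    have := (((hasDerivAt_id (0 : ℂ)).const_mul (conj (τ₀ : ℂ))).const_sub (τ₀ : ℂ)).div
      ((hasDerivAt_id (0 : ℂ)).const_sub 1) (by norm_num)
    refine this.congr_deriv ?_
    simp
    ring
  have h2 : HasDerivAt (f ∘ ofComplex) (deriv (f ∘ ofComplex) τ₀) (discInv τ₀ 0) := by
    rw [h0]
    exact (UpperHalfPlane.mdifferentiableAt_iff.1 (hf τ₀)).hasDerivAt
  rw [show discFun τ₀ f = (f ∘ ofComplex) ∘ discInv τ₀ from rfl, (h2.comp 0 h1).deriv,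
    Derivative.normalizedDerivOfComplex]
  field_simp [Real.pi_ne_zero, I_ne_zero]

/-- The value at the centre of the disc. -/
theorem discFun_zero (τ₀ : ℍ) (f : ℍ → ℂ) : discFun τ₀ f 0 = f τ₀ := by
  have := discFun_discCoord τ₀ f τ₀
  rwa [discCoord, sub_self, zero_div] at this

theorem order_ofPowerSeries_taylor_zero {G : ℂ → ℂ} (h : G 0 ≠ 0) :
    (HahnSeries.ofPowerSeries ℤ ℂ (taylorPS G)).order = 0 := by
  refine le_antisymm (HahnSeries.order_le_of_coeff_ne_zero ?_) ?_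
  · rwa [show (0 : ℤ) = ((0 : ℕ) : ℤ) from rfl, HahnSeries.ofPowerSeries_apply_coeff,
      coeff_zero_taylorPS]
  · refine (HahnSeries.le_order_iff_forall (fun h0 => h ?_)).2 fun j hj =>
      ModularCurve.ofPowerSeries_coeff_of_neg _ hj
    rw [← coeff_zero_taylorPS G, HahnSeries.ofPowerSeries_injective (h0.trans (map_zero _).symm),
      map_zero]

theorem order_ofPowerSeries_taylor_one {G : ℂ → ℂ} (h : G 0 = 0) (h' : deriv G 0 ≠ 0) :
    (HahnSeries.ofPowerSeries ℤ ℂ (taylorPS G)).order = 1 := by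
  refine le_antisymm (HahnSeries.order_le_of_coeff_ne_zero ?_) ?_
  · rwa [show (1 : ℤ) = ((1 : ℕ) : ℤ) from rfl, HahnSeries.ofPowerSeries_apply_coeff,
      coeff_one_taylorPS]
  · refine (HahnSeries.le_order_iff_forall (fun h0 => h' ?_)).2 fun j hj => ?_
    · rw [← coeff_one_taylorPS, HahnSeries.ofPowerSeries_injective (h0.trans (map_zero _).symm),
        map_zero]
    · rcases lt_or_ge j 0 with hj0 | hj0
      · exact ModularCurve.ofPowerSeries_coeff_of_neg _ hj0
      · obtain rfl : j = ((0 : ℕ) : ℤ) := by omega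
        rw [HahnSeries.ofPowerSeries_apply_coeff, coeff_zero_taylorPS, h]

theorem two_pi_I_mul_sub_conj_ne_zero (τ₀ : ℍ) {z : ℂ} (hz : z ≠ 0) :
    2 * (π : ℂ) * I * z * ((τ₀ : ℂ) - conj (τ₀ : ℂ)) ≠ 0 :=
  mul_ne_zero (mul_ne_zero Complex.two_pi_I_ne_zero hz) (sub_conj_ne_zero τ₀ τ₀)

/-- `j - a` is holomorphic. -/
theorem mdiff_jFun_sub (a : ℂ) : MDiff (fun τ => jFun τ - a) :=
  mdiff_jFun.sub mdifferentiable_const

/-- The expansion of `j - a` in the disc coordinate at `τ₀`. -/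
def jSubSeries (τ₀ : ℍ) (a : ℂ) : LaurentSeries ℂ :=
  HahnSeries.ofPowerSeries ℤ ℂ (taylorPS (discFun τ₀ fun τ => jFun τ - a))

/-- `jSubSeries` is the expansion of `j - a`. -/
theorem hasLoc_jSubSeries (τ₀ : ℍ) (a : ℂ) :
    HasLoc (discCoord τ₀) (fun τ => jFun τ - a) (jSubSeries τ₀ a) :=
  hasLoc_discCoord τ₀ (mdiff_jFun_sub a)

/-- `j - a` has a simple zero where `j = a` for `a ≠ 0, 1728`. -/
theorem order_jSubSeries_generic {τ₀ : ℍ} {a : ℂ} (h : jFun τ₀ = a) (h0 : a ≠ 0)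
    (h1 : a ≠ 1728) : (jSubSeries τ₀ a).order = 1 := by
  refine order_ofPowerSeries_taylor_one (by rw [discFun_zero, h, sub_self]) ?_
  rw [deriv_discFun _ (mdiff_jFun_sub a)]
  refine two_pi_I_mul_sub_conj_ne_zero τ₀ ?_
  have hD : D (fun τ => jFun τ - a) τ₀ = D jFun τ₀ := by
    rw [show (fun τ => jFun τ - a) = jFun - fun _ => a from rfl,
      Derivative.normalizedDerivOfComplex_sub _ _ mdiff_jFun mdifferentiable_const,
      Derivative.normalizedDerivOfComplex_const]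
    simp
  rw [hD, D_jFun]
  refine div_ne_zero (neg_ne_zero.2 (mul_ne_zero (pow_ne_zero _ fun hE => h0 ?_) fun hE => h1 ?_))
    (ModularForm.discriminant_ne_zero τ₀)
  · rw [← h, jFun, hE]; simp
  · have h2 := jFun_sub_1728 τ₀
    rw [hE] at h2
    rw [← h, ← sub_eq_zero, h2]
    simp

theorem order_disc_pow_mul {τ₀ : ℍ} {E U : ℍ → ℂ} (hE : MDiff E) (hU : MDiff U) (hE0 : E τ₀ = 0)
    (hE1 : D E τ₀ ≠ 0) (hU0 : U τ₀ ≠ 0) (m : ℕ) :
    (HahnSeries.ofPowerSeries ℤ ℂ (taylorPS (discFun τ₀ fun τ => E τ ^ m * U τ))).order = m := by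
  have hu := hasLoc_discCoord τ₀ hU
  have he := hasLoc_discCoord τ₀ hE
  have h := (hasLoc_discCoord τ₀ ((hE.pow m).mul hU)).unique (locCoord_discCoord τ₀)
    ((he.pow m).mul hu)
  rw [show (fun τ => E τ ^ m * U τ) = E ^ m * U from rfl, h]
  have hEs : (HahnSeries.ofPowerSeries ℤ ℂ (taylorPS (discFun τ₀ E))).order = 1 := by
    refine order_ofPowerSeries_taylor_one ((discFun_zero τ₀ E).trans hE0) ?_
    rw [deriv_discFun _ hE]
    exact two_pi_I_mul_sub_conj_ne_zero τ₀ hE1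
  have hUs : (HahnSeries.ofPowerSeries ℤ ℂ (taylorPS (discFun τ₀ U))).order = 0 :=
    order_ofPowerSeries_taylor_zero (by rwa [discFun_zero])
  have hne : HahnSeries.ofPowerSeries ℤ ℂ (taylorPS (discFun τ₀ E)) ≠ 0 := fun h0 => by
    simp [h0] at hEs
  have hne' : HahnSeries.ofPowerSeries ℤ ℂ (taylorPS (discFun τ₀ U)) ≠ 0 := fun h0 => by
    apply hU0
    rw [← discFun_zero τ₀ U, ← coeff_zero_taylorPS (discFun τ₀ U),
      HahnSeries.ofPowerSeries_injective (h0.trans (map_zero _).symm), map_zero]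
  rw [HahnSeries.order_mul (pow_ne_zero _ hne) hne', hUs, order_pow, hEs]
  ring

/-- `j` has a triple zero at `ρ`. -/
theorem order_jSubSeries_zero : (jSubSeries rhoPt 0).order = 3 := by
  have hE6 : E₆ rhoPt ≠ 0 := fun h => ModularForm.discriminant_ne_zero rhoPt (by
    rw [discriminant_eq_E₄_cube_sub_E₆_sq, h, E4_rhoPt]; simp)
  have h := order_disc_pow_mul (τ₀ := rhoPt) (ModularFormClass.holo E₄)
    (MDifferentiable.div mdifferentiable_const mdiff_discriminant
      ModularForm.discriminant_ne_zero : MDiff fun τ => (1 : ℂ) / Δ τ) E4_rhoPt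
    (by rw [D_E4, E4_rhoPt]; simpa using hE6)
    (one_div_ne_zero (ModularForm.discriminant_ne_zero rhoPt)) 3
  rw [jSubSeries, show (fun τ => jFun τ - 0) = fun τ => E₄ τ ^ 3 * (1 / Δ τ) by
    funext τ; rw [jFun]; ring]
  exact h

/-- `j - 1728` has a double zero at `i`. -/
theorem order_jSubSeries_1728 : (jSubSeries UpperHalfPlane.I 1728).order = 2 := by
  have hE4 : E₄ UpperHalfPlane.I ≠ 0 := fun h =>
    ModularForm.discriminant_ne_zero UpperHalfPlane.I (by
      rw [discriminant_eq_E₄_cube_sub_E₆_sq, h, E6_I]; simp)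
  have h := order_disc_pow_mul (τ₀ := UpperHalfPlane.I) (ModularFormClass.holo E₆)
    (MDifferentiable.div mdifferentiable_const mdiff_discriminant
      ModularForm.discriminant_ne_zero : MDiff fun τ => (1 : ℂ) / Δ τ) E6_I
    (by rw [D_E6, E6_I]; simpa using hE4)
    (one_div_ne_zero (ModularForm.discriminant_ne_zero UpperHalfPlane.I)) 2
  rw [jSubSeries, show (fun τ => jFun τ - 1728) = fun τ => E₆ τ ^ 2 * (1 / Δ τ) by
    funext τ; rw [jFun_sub_1728]; ring]
  exact h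

/-- An invariant holomorphic function with at most polynomial growth in `q⁻¹` is a polynomial
in `j`. -/
theorem exists_eq_eval_jFun : ∀ (M : ℕ) {f : ℍ → ℂ}, MDiff f →
    (∀ (γ : SL(2, ℤ)) τ, f (γ • τ) = f τ) → IsBoundedAtImInfty (fun τ => qw 1 τ ^ M * f τ) →
    ∃ p : Polynomial ℂ, ∀ τ, f τ = p.eval (jFun τ) := by
  intro M
  induction M with
  | zero =>
    intro f hf hinv hb
    simp only [pow_zero, one_mul] at hb
    have hper := periodic_of_SL_invariant hinv
    have ht := tendsto_coeff_zero one_pos hper hf hb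
    set c := PowerSeries.coeff 0 (qExpansion 1 f)
    refine ⟨Polynomial.C c, fun τ => ?_⟩
    have h := congrFun (eq_zero_of_weight_lt (k := 0) (by norm_num)
      (f := fun τ => f τ - c) (hf.sub mdifferentiable_const) (fun γ => ?_)
      (by simpa using ht.sub_const c)) τ
    · simpa [sub_eq_zero] using h
    · funext τ
      rw [ModularForm.SL_slash_apply, neg_zero, zpow_zero, mul_one, hinv]
  | succ M ih =>
    intro f hf hinv hb
    have hper : ∀ {g : ℍ → ℂ}, (∀ (γ : SL(2, ℤ)) τ, g (γ • τ) = g τ) →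
        Periodic ((fun τ => qw 1 τ ^ (M + 1) * g τ) ∘ ofComplex) ((1 : ℝ) : ℂ) := fun {g} hg =>
      periodic_comp_ofComplex_of_vadd fun τ => by rw [qw_vadd_one, ← modular_T_smul, hg]
    have ht := tendsto_coeff_zero one_pos (hper hinv) (((mdiff_qw 1).pow _).mul hf) hb
    set c := PowerSeries.coeff 0 (qExpansion 1 fun τ => qw 1 τ ^ (M + 1) * f τ)
    set g : ℍ → ℂ := fun τ => f τ - c * jFun τ ^ (M + 1) with hgdef
    have hg : MDiff g := hf.sub (mdifferentiable_const.mul (mdiff_jFun.pow _))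
    have hginv : ∀ (γ : SL(2, ℤ)) τ, g (γ • τ) = g τ := fun γ τ => by
      simp only [hgdef, hinv, jFun_smul]
    have h0 : IsZeroAtImInfty (fun τ => qw 1 τ ^ (M + 1) * g τ) := by
      have h2 := ht.sub ((tendsto_qjFun.pow (M + 1)).const_mul c)
      rw [one_pow, mul_one, sub_self] at h2
      refine h2.congr fun τ => ?_
      simp only [hgdef, qjFun]
      ring
    have hgb : IsBoundedAtImInfty (fun τ => qw 1 τ ^ (M + 1) * g τ) := h0.isBigO_one ℝ
    have hdecay := h0.exp_decay_atImInfty one_pos (hper hginv) (((mdiff_qw 1).pow _).mul hg) hgb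
    have hb' : IsBoundedAtImInfty (fun τ => qw 1 τ ^ M * g τ) := by
      obtain ⟨C, hC⟩ := hdecay.isBigOWith
      refine Asymptotics.IsBigO.of_bound C (hC.bound.mono fun τ hτ => ?_)
      rw [pow_succ', mul_assoc, norm_mul, Real.norm_of_nonneg (Real.exp_pos _).le,
        ← norm_qw, mul_comm C] at hτ
      rw [Pi.one_apply, norm_one, mul_one]
      exact le_of_mul_le_mul_left hτ (norm_pos_iff.2 (qw_ne_zero 1 τ))
    obtain ⟨p, hp⟩ := ih hg hginv hb'
    refine ⟨p + Polynomial.C c * Polynomial.X ^ (M + 1), fun τ => ?_⟩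
    simp only [Polynomial.eval_add, Polynomial.eval_mul, Polynomial.eval_C, Polynomial.eval_pow,
      Polynomial.eval_X, ← hp τ, hgdef]
    ring

end FermatAgent.Curve
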