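import Mathlib
import Fermat.Prelude.Def_ModularCurve_LaurentCoeff
import Fermat.Prelude.Thm_ModularCurve_coeffMap_qExpand
import Fermat.Agent.Curve.JFun

/-!
# The field generated by the `j(dτ)`, `d ∣ N`, and its embeddings indexed by the cosets of `Γ₀(N)`

For a field `K` of characteristic zero inside `ℂ`, the field `jField K N` generated by the
`q`-expansions of `j(dτ)` embeds into Laurent series in any local coordinate on `ℍ` once for every
coset of `Γ₀(N)`; invariant theory bounds its degree over `K(j)` by the index.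
-/

set_option autoImplicit false

noncomputable section

open UpperHalfPlane hiding I
open Filter Topology Metric Complex ModularGroup IntermediateField
open scoped MatrixGroups Manifold Real Polynomial

open ModularCurve (qExpand jqModC coeffMap)
open CongruenceSubgroup (Gamma0 Gamma0_mem)

namespace FermatAgent.Curve

/-- The index set of generators. -/
abbrev JIdx (N : ℕ) : Type := {d : ℕ // d ∈ N.divisors}

instance instNeZeroJIdx {N : ℕ} (d : JIdx N) : NeZero (d : ℕ) :=
  ⟨(Nat.pos_of_mem_divisors d.2).ne'⟩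

/-- The indices are divisors of `N`. -/
theorem JIdx.dvd {N : ℕ} (d : JIdx N) : (d : ℕ) ∣ N := Nat.dvd_of_mem_divisors d.2

/-- The generator `1`. -/
def JIdx.one (N : ℕ) [NeZero N] : JIdx N := ⟨1, Nat.one_mem_divisors.2 (NeZero.ne N)⟩

/-- The generator `N`. -/
def JIdx.top (N : ℕ) [NeZero N] : JIdx N := ⟨N, Nat.mem_divisors_self N (NeZero.ne N)⟩

/-! ### Affine substitutions -/

/-- `τ ↦ (a τ + b) / e`. -/
def affinePt (a e : ℕ) [NeZero a] [NeZero e] (b : ℤ) (τ : ℍ) : ℍ :=
  ⟨((a : ℂ) * τ + b) / e, by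
    have : (((a : ℂ) * τ + b) / e).im = a * τ.im / e := by
      simp [Complex.div_natCast_im]
    rw [this]
    have ha : (0 : ℝ) < a := Nat.cast_pos.2 (Nat.pos_of_ne_zero (NeZero.ne a))
    have he : (0 : ℝ) < e := Nat.cast_pos.2 (Nat.pos_of_ne_zero (NeZero.ne e))
    exact div_pos (mul_pos ha τ.im_pos) he⟩

/-- The value of `affinePt`. -/
theorem coe_affinePt (a e : ℕ) [NeZero a] [NeZero e] (b : ℤ) (τ : ℍ) :
    (affinePt a e b τ : ℂ) = ((a : ℂ) * τ + b) / e := rfl

/-- Affine substitutions keep holomorphy. -/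
theorem mdiff_comp_affinePt {f : ℍ → ℂ} (hf : MDiff f) (a e : ℕ) [NeZero a] [NeZero e] (b : ℤ) :
    MDiff fun τ => f (affinePt a e b τ) := by
  intro τ
  rw [UpperHalfPlane.mdifferentiableAt_iff]
  have h1 : DifferentiableAt ℂ (f ∘ ofComplex) (((a : ℂ) * τ + b) / e) :=
    UpperHalfPlane.mdifferentiableAt_iff.1 (hf (affinePt a e b τ))
  have h2 : DifferentiableAt ℂ (fun z : ℂ => ((a : ℂ) * z + b) / e) τ := by fun_prop
  refine (h1.comp (τ : ℂ) h2).congr_of_eventuallyEq ?_
  filter_upwards [isOpen_upperHalfPlaneSet.mem_nhds τ.im_pos] with z hz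
  simp only [Function.comp_apply, ofComplex_apply_of_im_pos hz]
  rw [← ofComplex_apply (affinePt a e b ⟨z, hz⟩)]
  rfl

/-- `q` at `(a τ + b) / e` is a root of unity times a power of `q^{1/(e m)}`. -/
theorem qw_affinePt (a e m : ℕ) [NeZero a] [NeZero e] [NeZero m] (b : ℤ) (τ : ℍ) :
    qw 1 (affinePt a e b τ) =
      cexp (2 * π * Complex.I * b / e) * qw (e * m : ℕ) τ ^ (a * m) := by
  simp only [qw, Function.Periodic.qParam, coe_affinePt, ← Complex.exp_nat_mul, ← Complex.exp_add]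
  congr 1
  have he : (e : ℂ) ≠ 0 := Nat.cast_ne_zero.2 (NeZero.ne e)
  have hm : (m : ℂ) ≠ 0 := Nat.cast_ne_zero.2 (NeZero.ne m)
  push_cast
  field_simp
  ring

/-- `j ((a τ + b) / e)` in the parameter of width `e m`. -/
theorem hasLoc_jFun_affinePt (a e m : ℕ) [NeZero a] [NeZero e] [NeZero m] (b : ℤ) :
    ∃ P, HasLoc (qw (e * m : ℕ)) (fun τ => jFun (affinePt a e b τ)) P ∧
      P.order = -((a * m : ℕ) : ℤ) := by
  have hc : ‖cexp (2 * π * Complex.I * b / e)‖ = 1 := by
    rw [Complex.norm_exp]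
    have : (2 * (π : ℂ) * Complex.I * b / e).re = 0 := by
      simp [Complex.div_natCast_re]
    rw [this, Real.exp_zero]
  refine ⟨_, hasLoc_jFun.pullback (affinePt a e b) hc (Complex.exp_ne_zero _) (a * m)
    (qw_affinePt a e m b), ?_⟩
  have hJ : (jqModC ℂ).coeff (-1) = 1 := by
    rw [jqModC, HahnSeries.coeff_single_mul, one_mul, sub_neg_eq_add, neg_add_cancel,
      show (0 : ℤ) = ((0 : ℕ) : ℤ) from rfl, HahnSeries.ofPowerSeries_apply_coeff,
      PowerSeries.coeff_map, PowerSeries.coeff_zero_eq_constantCoeff,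
      ModularCurve.constantCoeff_jNum, map_one]
  have hpos : (0 : ℤ) < ((a * m : ℕ) : ℤ) :=
    Nat.cast_pos.2 (Nat.pos_of_ne_zero (NeZero.ne _))
  set R := rotate (Complex.exp_ne_zero (2 * π * Complex.I * b / e)) (jqModC ℂ)
  have hR : R.coeff (-1) ≠ 0 := by
    rw [coeff_rotate, hJ, mul_one]
    exact zpow_ne_zero _ (Complex.exp_ne_zero _)
  refine le_antisymm (HahnSeries.order_le_of_coeff_ne_zero ?_) ?_
  · rw [show -((a * m : ℕ) : ℤ) = ((a * m : ℕ) : ℤ) * (-1) by ring,
      ModularCurve.qExpand_coeff_mul]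
    exact hR
  · refine (HahnSeries.le_order_iff_forall (fun h0 => hR ?_)).2 fun j hj => ?_
    · rw [(ModularCurve.qExpand_injective (a * m)) (h0.trans (map_zero _).symm),
        HahnSeries.coeff_zero]
    · by_cases hdvd : ((a * m : ℕ) : ℤ) ∣ j
      · obtain ⟨i, rfl⟩ := hdvd
        rw [ModularCurve.qExpand_coeff_mul, coeff_rotate]
        have hi : i < -1 := by
          by_contra hi
          nlinarith [mul_le_mul_of_nonneg_left (not_lt.1 hi) hpos.le]
        rw [jqModC, HahnSeries.coeff_single_mul, one_mul,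
          ModularCurve.ofPowerSeries_coeff_of_neg _ (by omega), mul_zero]
      · exact ModularCurve.qExpand_coeff_of_not_dvd _ _ hdvd

/-- Hermite normal form of `diag(d, 1) * k`. -/
theorem exists_hermite (d : ℕ) [NeZero d] (k : SL(2, ℤ)) :
    ∃ (γ : SL(2, ℤ)) (a e : ℕ) (b : ℤ), a * e = d ∧
      (d : ℤ) * k 0 0 = γ 0 0 * a ∧ k 1 0 = γ 1 0 * a ∧
      (d : ℤ) * k 0 1 = γ 0 0 * b + γ 0 1 * e ∧ k 1 1 = γ 1 0 * b + γ 1 1 * e := by
  have hk : k 0 0 * k 1 1 - k 0 1 * k 1 0 = 1 := by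
    have := k.2
    rwa [Matrix.det_fin_two] at this
  set x := (d : ℤ) * k 0 0
  set y := k 1 0
  have hd : (d : ℤ) ≠ 0 := Int.natCast_ne_zero.2 (NeZero.ne d)
  have hxy : Int.gcd x y ≠ 0 := fun h => by
    rw [Int.gcd_eq_zero_iff] at h
    have h00 : k 0 0 = 0 := (mul_eq_zero.1 h.1).resolve_left hd
    have h10 : k 1 0 = 0 := h.2
    simp [h00, y, h10] at hk
  obtain ⟨p, hp⟩ := Int.gcd_dvd_left x y
  obtain ⟨r, hr⟩ := Int.gcd_dvd_right x y
  set g : ℤ := (Int.gcd x y : ℤ) with hg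
  have hg0 : g ≠ 0 := Int.natCast_ne_zero.2 hxy
  set u := Int.gcdA x y
  set v := Int.gcdB x y
  have hbez : g = x * u + y * v := Int.gcd_eq_gcd_ab x y
  have hone : p * u + r * v = 1 := by
    apply mul_left_cancel₀ hg0
    conv_rhs => rw [mul_one, hbez, hp, hr]
    ring
  -- `γ⁻¹ = !![u, v; -r, p]`
  let γ : SL(2, ℤ) := ⟨!![p, -v; r, u], by
    rw [Matrix.det_fin_two]
    simp
    linear_combination hone⟩
  set e' := -r * ((d : ℤ) * k 0 1) + p * k 1 1
  have hdet : g * e' = d := by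
    have : g * e' = x * k 1 1 - y * ((d : ℤ) * k 0 1) := by rw [hp, hr]; ring
    rw [this]
    linear_combination (d : ℤ) * hk
  have hgnn : 0 ≤ g := Int.natCast_nonneg _
  have he' : 0 < e' :=
    pos_of_mul_pos_right (hdet.symm ▸ (by exact_mod_cast Nat.pos_of_ne_zero (NeZero.ne d) :
      (0 : ℤ) < d)) hgnn
  refine ⟨γ, Int.gcd x y, e'.toNat, u * ((d : ℤ) * k 0 1) + v * k 1 1, ?_, ?_, ?_, ?_, ?_⟩
  · zify
    rw [Int.toNat_of_nonneg he'.le, ← hg, hdet]
  · simp only [γ, ← hg]
    simp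
    rw [mul_comm p g, ← hp]
  · simp only [γ, ← hg]
    simp
    rw [mul_comm r g, ← hr]
  · simp only [γ]
    simp [Int.toNat_of_nonneg he'.le]
    linear_combination (-((d : ℤ) * k 0 1)) * hone
  · simp only [γ]
    simp [Int.toNat_of_nonneg he'.le]
    linear_combination (-(k 1 1)) * hone

/-- `τ ↦ d τ`. -/
def scalePt (d : ℕ) [NeZero d] (τ : ℍ) : ℍ := affinePt d 1 0 τ

/-- The value of `scalePt`. -/
theorem coe_scalePt (d : ℕ) [NeZero d] (τ : ℍ) : (scalePt d τ : ℂ) = d * τ := by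
  simp [scalePt, coe_affinePt]

/-- `d (k τ) = γ ((a τ + b) / e)` for the Hermite normal form of `diag(d, 1) k`. -/
theorem scalePt_smul (d : ℕ) [NeZero d] (k γ : SL(2, ℤ)) (a e : ℕ) [NeZero a] [NeZero e] (b : ℤ)
    (h00 : (d : ℤ) * k 0 0 = γ 0 0 * a) (h10 : k 1 0 = γ 1 0 * a)
    (h01 : (d : ℤ) * k 0 1 = γ 0 0 * b + γ 0 1 * e) (h11 : k 1 1 = γ 1 0 * b + γ 1 1 * e) (τ : ℍ) :
    scalePt d (k • τ) = γ • affinePt a e b τ := by
  apply UpperHalfPlane.ext
  rw [coe_scalePt, coe_sl_smul, coe_sl_smul, coe_affinePt]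
  have he : (e : ℂ) ≠ 0 := Nat.cast_ne_zero.2 (NeZero.ne e)
  rw [mul_div_assoc']
  have e1 : (d : ℂ) * ((k 0 0 : ℂ) * τ + k 0 1) =
      ((γ 0 0 : ℂ) * (((a : ℂ) * τ + b) / e) + γ 0 1) * e := by
    have c00 := congrArg (fun z : ℤ => (z : ℂ)) h00
    have c01 := congrArg (fun z : ℤ => (z : ℂ)) h01
    push_cast at c00 c01
    field_simp
    linear_combination (τ : ℂ) * c00 + c01
  have e2 : (k 1 0 : ℂ) * τ + k 1 1 =
      ((γ 1 0 : ℂ) * (((a : ℂ) * τ + b) / e) + γ 1 1) * e := by
    have c10 := congrArg (fun z : ℤ => (z : ℂ)) h10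
    have c11 := congrArg (fun z : ℤ => (z : ℂ)) h11
    push_cast at c10 c11
    field_simp
    linear_combination (τ : ℂ) * c10 + c11
  rw [e1, e2, mul_div_mul_right _ _ he]

/-- The function `j (d τ)`. -/
def jGenF (N : ℕ) (d : JIdx N) (τ : ℍ) : ℂ := jFun (scalePt (d : ℕ) τ)

/-- A translate of `j(d τ)` is `j((a τ + b) / e)` with `a e = d`. -/
theorem exists_jGenF_smul (N : ℕ) [NeZero N] (d : JIdx N) (k : SL(2, ℤ)) :
    ∃ (γ : SL(2, ℤ)) (a e m : ℕ) (b : ℤ) (_ : NeZero a) (_ : NeZero e) (_ : NeZero m),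
      a * e = (d : ℕ) ∧ e * m = N ∧ k 1 0 = γ 1 0 * a ∧
      ∀ τ, jGenF N d (k • τ) = jFun (affinePt a e b τ) := by
  obtain ⟨γ, a, e, b, hae, h00, h10, h01, h11⟩ := exists_hermite (d : ℕ) k
  have hd : a * e ≠ 0 := hae ▸ NeZero.ne _
  have : NeZero a := ⟨left_ne_zero_of_mul hd⟩
  have : NeZero e := ⟨right_ne_zero_of_mul hd⟩
  obtain ⟨m, hm⟩ : e ∣ N := (Dvd.intro_left a hae).trans d.dvd
  have : NeZero m := ⟨fun h => NeZero.ne N (by rw [hm, h, mul_zero])⟩
  refine ⟨γ, a, e, m, b, inferInstance, inferInstance, inferInstance, hae,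
    hm.symm, h10, fun τ => ?_⟩
  rw [jGenF, scalePt_smul _ k γ a e b h00 h10 h01 h11, jFun_smul]

/-- Translates of the generators are holomorphic. -/
theorem mdiff_jGenF_smul (N : ℕ) [NeZero N] (d : JIdx N) (k : SL(2, ℤ)) :
    MDiff fun τ => jGenF N d (k • τ) := by
  obtain ⟨γ, a, e, m, b, _, _, _, -, -, -, h⟩ := exists_jGenF_smul N d k
  rw [funext h]
  exact mdiff_comp_affinePt mdiff_jFun a e b

/-- The generators are invariant under `Γ₀(N)`. -/
theorem jGenF_gamma0 {N : ℕ} {γ : SL(2, ℤ)} (hγ : γ ∈ Gamma0 N) (d : JIdx N) (τ : ℍ) :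
    jGenF N d (γ • τ) = jGenF N d τ := by
  obtain ⟨c, hc⟩ : ((d : ℕ) : ℤ) ∣ γ 1 0 :=
    (Int.natCast_dvd_natCast.2 d.dvd).trans
      ((ZMod.intCast_zmod_eq_zero_iff_dvd _ _).1 (Gamma0_mem.1 hγ))
  have hdet : γ 0 0 * γ 1 1 - γ 0 1 * γ 1 0 = 1 := by
    have := γ.2
    rwa [Matrix.det_fin_two] at this
  let γ' : SL(2, ℤ) := ⟨!![γ 0 0, ((d : ℕ) : ℤ) * γ 0 1; c, γ 1 1], by
    rw [Matrix.det_fin_two]
    simp
    linear_combination hdet + γ 0 1 * hc⟩
  have key : scalePt (d : ℕ) (γ • τ) = γ' • scalePt (d : ℕ) τ := by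
    rw [scalePt_smul (d : ℕ) γ γ' (d : ℕ) 1 0 (by simp [γ']; ring) (by simp [γ', hc]; ring)
      (by simp [γ']) (by simp [γ'])]
    rfl
  rw [jGenF, jGenF, key, jFun_smul]

/-- The stabiliser of `j(Nτ)` in `SL(2, ℤ)` is contained in `Γ₀(N)`. -/
theorem mem_gamma0_of_jGenF_eq {N : ℕ} [NeZero N] {k : SL(2, ℤ)}
    (h : ∀ τ, jGenF N (JIdx.top N) (k • τ) = jGenF N (JIdx.top N) τ) : k ∈ Gamma0 N := by
  obtain ⟨γ, a, e, m, b, _, _, _, hae, hem, h10, hf⟩ := exists_jGenF_smul N (JIdx.top N) k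
  change a * e = N at hae
  obtain ⟨P, hP, hPo⟩ := hasLoc_jFun_affinePt a e m b
  obtain ⟨Q, hQ, hQo⟩ := hasLoc_jFun_affinePt N 1 N 0
  rw [hem] at hP
  rw [one_mul] at hQ
  have hQ' : HasLoc (qw (N : ℕ)) (fun τ => jFun (affinePt a e b τ)) Q :=
    hQ.congr_fun fun τ => by rw [← hf, h]; rfl
  have hNpos : (0 : ℝ) < ((N : ℕ) : ℝ) := Nat.cast_pos.2 (Nat.pos_of_ne_zero (NeZero.ne N))
  have hPQ := hP.unique (locCoord_qw hNpos) hQ'
  rw [hPQ, hQo] at hPo
  have heq : a * m = N * N := by omega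
  have ha : a ≤ N := hae ▸ Nat.le_mul_of_pos_right a (Nat.pos_of_ne_zero (NeZero.ne e))
  have hm : m ≤ N := hem ▸ Nat.le_mul_of_pos_left m (Nat.pos_of_ne_zero (NeZero.ne e))
  have haN : a = N := by
    nlinarith [Nat.mul_le_mul_left a hm, Nat.pos_of_ne_zero (NeZero.ne N)]
  rw [Gamma0_mem, ZMod.intCast_zmod_eq_zero_iff_dvd, h10, haN]
  exact dvd_mul_left _ _

/-! ### The field and its embeddings -/

variable (K : Type*) [Field K] (N : ℕ)

/-- The expansion of `j (d τ)`. -/
def jGenL (d : JIdx N) : LaurentSeries K := qExpand K (d : ℕ) (jqModC K)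

/-- `K(j(dτ) : d ∣ N)` inside Laurent series. -/
abbrev jField : IntermediateField K (LaurentSeries K) :=
  IntermediateField.adjoin K (Set.range (jGenL K N))

/-- Polynomials in the generators. -/
abbrev JPoly : Type _ := MvPolynomial (JIdx N) K

/-- Their expansions. -/
def evL : JPoly K N →ₐ[K] LaurentSeries K := MvPolynomial.aeval (jGenL K N)

/-- Their images in the field. -/
def toJField : JPoly K N →ₐ[K] jField K N :=
  MvPolynomial.aeval fun d => ⟨jGenL K N d, subset_adjoin K _ ⟨d, rfl⟩⟩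

/-- The series of an element of the field given by a polynomial. -/
theorem coe_toJField (P : JPoly K N) : (toJField K N P : LaurentSeries K) = evL K N P := by
  exact MvPolynomial.comp_aeval_apply (R := K) (S₁ := jField K N)
    (f := fun d => ⟨jGenL K N d, subset_adjoin K _ ⟨d, rfl⟩⟩) (jField K N).val P

/-- Every element of the field is a quotient of polynomials in the generators. -/
theorem exists_eq_div (f : jField K N) :
    ∃ P Q : JPoly K N, f = toJField K N P / toJField K N Q := by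
  obtain ⟨r, s, h⟩ := (mem_adjoin_range_iff K (jGenL K N) (f : LaurentSeries K)).1 f.2
  refine ⟨r, s, Subtype.ext ?_⟩
  rw [IntermediateField.coe_div, coe_toJField, coe_toJField]
  exact h

variable [Algebra K ℂ]

/-- The function of a polynomial. -/
def evF : JPoly K N →ₐ[K] (ℍ → ℂ) := MvPolynomial.aeval (jGenF N)

/-- Precomposition. -/
def precomp (g : ℍ → ℍ) : (ℍ → ℂ) →ₐ[K] (ℍ → ℂ) where
  toFun f := f ∘ g
  map_one' := rfl
  map_mul' _ _ := rfl
  map_zero' := rfl
  map_add' _ _ := rfl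
  commutes' _ := rfl

theorem evF_comp (g : ℍ → ℍ) (P : JPoly K N) :
    evF K N P ∘ g = MvPolynomial.aeval (fun d τ => jGenF N d (g τ)) P :=
  MvPolynomial.comp_aeval_apply (R := K) (S₁ := ℍ → ℂ) (f := jGenF N) (precomp K g) P

/-- `coeffMap` as an algebra map. -/
def coeffMapC : LaurentSeries K →ₐ[K] LaurentSeries ℂ where
  __ := coeffMap (algebraMap K ℂ)
  commutes' a := by
    show coeffMap (algebraMap K ℂ) (algebraMap K (LaurentSeries K) a) = _
    rw [algebraMap_laurent, algebraMap_laurent, ModularCurve.coeffMap_single]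
    rfl

/-- The function of a polynomial expands at `∞` to its series. -/
theorem hasLoc_evF (P : JPoly K N) : HasLoc (qw 1) (evF K N P) (coeffMapC K (evL K N P)) := by
  have h : coeffMapC K (evL K N P) =
      MvPolynomial.aeval (fun d => coeffMapC K (jGenL K N d)) P :=
    MvPolynomial.comp_aeval_apply (R := K) (f := jGenL K N) (coeffMapC K) P
  rw [h]
  refine HasLoc.aeval (fun d => ?_) P
  have hJ : coeffMapC K (jGenL K N d) = qExpand ℂ (d : ℕ) (jqModC ℂ) := by
    show coeffMap (algebraMap K ℂ) (qExpand K (d : ℕ) (jqModC K)) = _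
    rw [ModularCurve.coeffMap_qExpand]
    exact congrArg _ (ModularCurve.map_jqModC _)
  have h2 := hasLoc_jFun.pullback (t' := qw 1) (scalePt (d : ℕ)) norm_one one_ne_zero (d : ℕ)
    fun τ => by
      simp only [qw, Function.Periodic.qParam, coe_scalePt, ← Complex.exp_nat_mul, one_mul]
      congr 1
      push_cast
      ring
  rw [rotate_one, ← hJ] at h2
  exact h2

/-- A polynomial vanishes as a function iff its series vanishes. -/
theorem evF_eq_zero_iff (P : JPoly K N) : evF K N P = 0 ↔ evL K N P = 0 := by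
  constructor
  · intro h
    have h1 := hasLoc_evF K N P
    rw [h] at h1
    have h2 : HasLoc (qw 1) (0 : ℍ → ℂ) (HahnSeries.C (0 : ℂ)) := HasLoc.const 0
    have h3 := h1.unique (locCoord_qw one_pos) h2
    rw [map_zero] at h3
    exact (coeffMapC K).toRingHom.injective (h3.trans (map_zero _).symm)
  · intro h
    refine HasLoc.eq_zero (locCoord_qw one_pos) ?_
    simpa [h] using hasLoc_evF K N P

section Embedding

variable {K N} [NeZero N] {t : ℍ → ℂ}

/-- A coordinate in which all translates of the generators expand. -/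
structure GenCoord (N : ℕ) (t : ℍ → ℂ) : Prop where
  coord : LocCoord t
  exists_loc : ∀ (k : SL(2, ℤ)) (d : JIdx N), ∃ P, HasLoc t (fun τ => jGenF N d (k • τ)) P

variable (hc : GenCoord N t) (k : SL(2, ℤ))

section

omit [NeZero N]

/-- Expansion of a translate. -/
def phi : JPoly K N →ₐ[K] LaurentSeries ℂ :=
  MvPolynomial.aeval fun d => (hc.exists_loc k d).choose

/-- `phi` is the expansion of the translated function. -/
theorem hasLoc_phi (P : JPoly K N) :
    HasLoc t (fun τ => evF K N P (k • τ)) (phi hc k P) := by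
  show HasLoc t (evF K N P ∘ fun τ => k • τ) (phi hc k P)
  rw [evF_comp]
  exact HasLoc.aeval (fun d => (hc.exists_loc k d).choose_spec) P

theorem phi_eq_zero_iff (P : JPoly K N) : phi hc k P = 0 ↔ evL K N P = 0 := by
  rw [← evF_eq_zero_iff]
  constructor
  · intro h
    have h1 := hasLoc_phi hc k P
    rw [h] at h1
    funext τ
    simpa using congrFun (HasLoc.eq_zero hc.coord h1) (k⁻¹ • τ)
  · intro h
    have h1 := hasLoc_phi hc k P
    rw [h] at h1
    exact h1.unique hc.coord (by simpa using HasLoc.const (t := t) 0)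

omit [Algebra K ℂ] in
theorem toAdjoin_surjective :
    Function.Surjective (MvPolynomial.aeval (R := K)
      (fun d => (⟨jGenL K N d, Algebra.subset_adjoin ⟨d, rfl⟩⟩ :
        Algebra.adjoin K (Set.range (jGenL K N))))) := by
  rintro ⟨x, hx⟩
  rw [Algebra.adjoin_range_eq_range_aeval] at hx
  obtain ⟨P, rfl⟩ := hx
  refine ⟨P, Subtype.ext ?_⟩
  rw [← Subalgebra.coe_val, ← AlgHom.comp_apply, MvPolynomial.comp_aeval]
  rfl

omit [Algebra K ℂ] in
open scoped IntermediateField.algebraAdjoinAdjoin in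
/-- A homomorphism on polynomials killing exactly the relations extends to the field. -/
def jLift {E : Type*} [Field E] [Algebra K E] (φ : JPoly K N →ₐ[K] E)
    (h : ∀ P, φ P = 0 ↔ evL K N P = 0) : jField K N →ₐ[K] E :=
  IsFractionRing.liftAlgHom
    (g := AlgHom.liftOfSurjective _ toAdjoin_surjective φ (fun P hP => by
      rw [RingHom.mem_ker] at hP ⊢
      refine (h P).2 ?_
      exact (MvPolynomial.comp_aeval_apply (R := K)
        (f := fun d => (⟨jGenL K N d, Algebra.subset_adjoin ⟨d, rfl⟩⟩ :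
          Algebra.adjoin K (Set.range (jGenL K N))))
        (Algebra.adjoin K (Set.range (jGenL K N))).val P).symm.trans (congrArg Subtype.val hP)))
    (by
      rw [injective_iff_map_eq_zero]
      intro x hx
      obtain ⟨P, rfl⟩ := toAdjoin_surjective x
      rw [AlgHom.liftOfSurjective_apply, h] at hx
      refine Subtype.ext ?_
      rw [← Subalgebra.coe_val, ← AlgHom.comp_apply, MvPolynomial.comp_aeval]
      exact hx)

omit [Algebra K ℂ] in
open scoped IntermediateField.algebraAdjoinAdjoin in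
/-- The extension agrees with the map on polynomials. -/
theorem jLift_toJField {E : Type*} [Field E] [Algebra K E] (φ : JPoly K N →ₐ[K] E)
    (h : ∀ P, φ P = 0 ↔ evL K N P = 0) (P : JPoly K N) : jLift φ h (toJField K N P) = φ P := by
  have e : toJField K N P = algebraMap (Algebra.adjoin K (Set.range (jGenL K N))) (jField K N)
      (MvPolynomial.aeval (R := K) (fun d => (⟨jGenL K N d, Algebra.subset_adjoin ⟨d, rfl⟩⟩ :
        Algebra.adjoin K (Set.range (jGenL K N)))) P) := by
    apply Subtype.ext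
    rw [coe_toJField, evL]
    show _ = (Algebra.adjoin K (Set.range (jGenL K N))).val _
    rw [← AlgHom.comp_apply, MvPolynomial.comp_aeval]
    rfl
  rw [e, jLift, IsFractionRing.liftAlgHom_apply, IsFractionRing.lift_algebraMap]
  exact AlgHom.liftOfSurjective_apply ..

/-- The embedding of the field attached to a translate. -/
def emb : jField K N →ₐ[K] LaurentSeries ℂ :=
  jLift (phi hc k) (phi_eq_zero_iff hc k)

/-- The embedding of the field on a polynomial. -/
theorem emb_toJField (P : JPoly K N) : emb hc k (toJField K N P) = phi hc k P :=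
  jLift_toJField _ _ P

/-- An expansion of a translate determines `phi`. -/
theorem phi_eq_of_hasLoc {P : JPoly K N} {S : LaurentSeries ℂ}
    (h : HasLoc t (fun τ => evF K N P (k • τ)) S) : phi hc k P = S :=
  (hasLoc_phi hc k P).unique hc.coord h

omit [Algebra K ℂ] in
/-- Maps of the field agreeing on polynomials are equal. -/
theorem algHom_ext_jField {L : Type*} [Field L] [Algebra K L] {φ ψ : jField K N →ₐ[K] L}
    (h : ∀ P, φ (toJField K N P) = ψ (toJField K N P)) : φ = ψ := by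
  refine AlgHom.ext fun f => ?_
  obtain ⟨P, Q, rfl⟩ := exists_eq_div K N f
  rw [map_div₀, map_div₀, h, h]

/-- The embedding of a coset `gΓ₀(N)`: translate by `g⁻¹`. -/
def cosetEmb (x : SL(2, ℤ) ⧸ Gamma0 N) : jField K N →ₐ[K] LaurentSeries ℂ :=
  emb hc (x.out)⁻¹

/-- The functions of polynomials are invariant under `Γ₀(N)`. -/
theorem evF_gamma0 {γ : SL(2, ℤ)} (hγ : γ ∈ Gamma0 N) (P : JPoly K N) (τ : ℍ) :
    evF K N P (γ • τ) = evF K N P τ := by
  have h := congrFun (evF_comp K N (fun τ => γ • τ) P) τ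
  rw [show (fun d τ => jGenF N d (γ • τ)) = jGenF N from
    funext fun d => funext fun τ => jGenF_gamma0 hγ d τ] at h
  exact h

/-- The translate by the representative of a coset agrees with that by any element of it. -/
theorem evF_out (g : SL(2, ℤ)) (P : JPoly K N) (τ : ℍ) :
    evF K N P (((QuotientGroup.mk g : SL(2, ℤ) ⧸ Gamma0 N).out)⁻¹ • τ) =
      evF K N P (g⁻¹ • τ) := by
  obtain ⟨h, hh⟩ := QuotientGroup.mk_out_eq_mul (Gamma0 N) g
  rw [hh, mul_inv_rev, mul_smul, evF_gamma0 (inv_mem h.2)]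

/-- The embedding of a coset is the expansion of the translate. -/
theorem hasLoc_cosetEmb (x : SL(2, ℤ) ⧸ Gamma0 N) (P : JPoly K N) :
    HasLoc t (fun τ => evF K N P ((x.out)⁻¹ • τ)) (cosetEmb hc x (toJField K N P)) := by
  rw [cosetEmb, emb_toJField]
  exact hasLoc_phi hc _ P

end

/-- Different cosets give different embeddings. -/
theorem cosetEmb_injective :
    Function.Injective (cosetEmb (K := K) hc : SL(2, ℤ) ⧸ Gamma0 N → _) := by
  intro x y hxy
  set P : JPoly K N := MvPolynomial.X (JIdx.top N)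
  have hx := hasLoc_cosetEmb hc x P
  rw [hxy] at hx
  have heq := congrFun (HasLoc.eq_of_same hc.coord hx (hasLoc_cosetEmb hc y P))
  simp only [P, evF, MvPolynomial.aeval_X] at heq
  have hmem : (x.out)⁻¹ * y.out ∈ Gamma0 N := mem_gamma0_of_jGenF_eq fun τ => by
    have := heq (y.out • τ)
    rwa [inv_smul_smul, ← mul_smul] at this
  rw [← QuotientGroup.out_eq' x, ← QuotientGroup.out_eq' y]
  exact QuotientGroup.eq.2 hmem

omit [NeZero N] in
/-- A transformation rotating the coordinate rotates the embeddings. -/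
theorem cosetEmb_smul {γ : SL(2, ℤ)} {ζ : ℂ} (hζ : ‖ζ‖ = 1) (hζ0 : ζ ≠ 0)
    (hγ : ∀ τ, t (γ • τ) = ζ * t τ) (x : SL(2, ℤ) ⧸ Gamma0 N) (f : jField K N) :
    cosetEmb hc (γ⁻¹ • x) f = rotate hζ0 (cosetEmb hc x f) := by
  let rot : LaurentSeries ℂ →ₐ[K] LaurentSeries ℂ :=
    { rotate hζ0 with
      commutes' := fun a => by
        show rotate hζ0 (algebraMap K (LaurentSeries ℂ) a) = _
        rw [algebraMap_laurent]
        ext j
        rw [coeff_rotate]
        rcases eq_or_ne j 0 with rfl | hj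
        · simp
        · simp [HahnSeries.coeff_single_of_ne hj] }
  refine DFunLike.congr_fun (algHom_ext_jField
    (φ := cosetEmb hc (γ⁻¹ • x)) (ψ := rot.comp (cosetEmb hc x)) fun P => ?_) f
  show _ = rotate hζ0 _
  have h1 := hasLoc_cosetEmb hc (γ⁻¹ • x) P
  have h2 := (hasLoc_cosetEmb hc x P).pullback (t' := t) (fun τ => γ • τ) hζ hζ0 1
    (fun τ => by rw [pow_one]; exact hγ τ)
  rw [ModularCurve.qExpand_one_apply] at h2
  refine h1.unique hc.coord (h2.congr_fun fun τ => ?_)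
  have hx : γ⁻¹ • x = QuotientGroup.mk (γ⁻¹ * x.out) := by
    conv_lhs => rw [← QuotientGroup.out_eq' x]
    rfl
  rw [hx, evF_out, mul_inv_rev, inv_inv, mul_smul]
  rfl

/-- Every embedding sends `j` to its series in the coordinate. -/
theorem cosetEmb_j (x : SL(2, ℤ) ⧸ Gamma0 N) {S : LaurentSeries ℂ} (hS : HasLoc t jFun S) :
    cosetEmb hc x (toJField K N (MvPolynomial.X (JIdx.one N))) = S := by
  refine (hasLoc_cosetEmb hc x _).unique hc.coord (hS.congr_fun fun τ => ?_)
  simp only [evF, MvPolynomial.aeval_X, jGenF]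
  rw [show scalePt (JIdx.one N : ℕ) ((x.out)⁻¹ • τ) = (x.out)⁻¹ • τ from
    UpperHalfPlane.ext (by rw [coe_scalePt]; simp [JIdx.one])]
  exact jFun_smul _ _

end Embedding

/-- The generators' translates expand in `q^{1/N}`. -/
theorem genCoord_qw (N : ℕ) [NeZero N] : GenCoord N (qw (N : ℕ)) where
  coord := locCoord_qw (Nat.cast_pos.2 (Nat.pos_of_ne_zero (NeZero.ne N)))
  exists_loc k d := by
    obtain ⟨γ, a, e, m, b, _, _, _, -, hem, -, hf⟩ := exists_jGenF_smul N d k
    obtain ⟨P, hP, -⟩ := hasLoc_jFun_affinePt a e m b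
    rw [hem] at hP
    exact ⟨P, hP.congr_fun hf⟩

/-- The generators' translates expand in every disc coordinate. -/
theorem genCoord_discCoord (N : ℕ) [NeZero N] (τ₀ : ℍ) : GenCoord N (discCoord τ₀) where
  coord := locCoord_discCoord τ₀
  exists_loc k d := ⟨_, hasLoc_discCoord τ₀ (mdiff_jGenF_smul N d k)⟩

end FermatAgent.Curve
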