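import Mathlib
import Fermat.Prelude.Def_ModularCurve_ArithmeticGalois
import Fermat.Agent.Curve.ModularEmb
import Fermat.Agent.Curve.FunctionField

/-!
# The degree of `K(j(dτ) : d ∣ N)` over `K(j)` is at most the index of `Γ₀(N)`

The monic equation over `K[j]` of degree equal to the index satisfied by every polynomial in the
`j(dτ)` gives `finite_and_finrank_jField_le`; in particular the field is a function field.
-/

set_option autoImplicit false

noncomputable section

open UpperHalfPlane hiding I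
open Filter Topology Metric Complex ModularGroup IntermediateField
open scoped MatrixGroups Manifold Real Polynomial

open ModularCurve (qExpand jqModC coeffMap)
open CongruenceSubgroup (Gamma0 Gamma0_mem)

namespace FermatAgent.Curve

section Relation

variable (K : Type*) [Field K] [Algebra K ℂ] (N : ℕ) [NeZero N]

instance instFintypeCosetsGamma0 : Fintype (SL(2, ℤ) ⧸ Gamma0 N) :=
  Subgroup.fintypeQuotientOfFiniteIndex

/-- `j` in the field. -/
def jElt : jField K N := toJField K N (MvPolynomial.X (JIdx.one N))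

omit [Algebra K ℂ] in
/-- `j` in the field is the series of `j`. -/
theorem coe_jElt : (jElt K N : LaurentSeries K) = jqModC K := by
  rw [jElt, coe_toJField, evL, MvPolynomial.aeval_X, jGenL]
  exact ModularCurve.qExpand_one_apply _

/-- Holomorphic functions with an expansion at `∞` in width `N`. -/
def cuspSubring : Subring (ℍ → ℂ) where
  carrier := {f | MDiff f ∧ ∃ P, HasLoc (qw (N : ℕ)) f P}
  mul_mem' := fun ⟨h1, _, hP⟩ ⟨h2, _, hQ⟩ => ⟨h1.mul h2, _, hP.mul hQ⟩
  one_mem' := ⟨mdifferentiable_const, _, HasLoc.const 1⟩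
  add_mem' := fun ⟨h1, _, hP⟩ ⟨h2, _, hQ⟩ => ⟨h1.add h2, _, hP.add hQ⟩
  zero_mem' := ⟨mdifferentiable_const, _, HasLoc.const 0⟩
  neg_mem' := fun ⟨h1, _, hP⟩ => ⟨h1.neg, _, hP.neg⟩

variable {K N}

theorem evF_translate_mem (k : SL(2, ℤ)) (P : JPoly K N) :
    (fun τ => evF K N P (k • τ)) ∈ cuspSubring N := by
  refine ⟨?_, _, hasLoc_phi (genCoord_qw N) k P⟩
  induction P using MvPolynomial.induction_on with
  | C a => simp only [evF, MvPolynomial.aeval_C, Pi.algebraMap_apply]; exact mdifferentiable_const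
  | add p q hp hq => simp only [evF, map_add, Pi.add_apply]; exact hp.add hq
  | mul_X p i hp =>
    simp only [evF, map_mul, MvPolynomial.aeval_X, Pi.mul_apply]
    exact hp.mul (mdiff_jGenF_smul N i k)

/-- Invariant members of `cuspSubring` are polynomials in `j`. -/
theorem exists_eval_of_mem_cuspSubring {f : ℍ → ℂ} (hf : f ∈ cuspSubring N)
    (hinv : ∀ (γ : SL(2, ℤ)) τ, f (γ • τ) = f τ) : ∃ p : ℂ[X], ∀ τ, f τ = p.eval (jFun τ) := by
  obtain ⟨hd, P, M, G, hG, hGe, -, -⟩ := hf
  refine exists_eq_eval_jFun M hd hinv ?_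
  have hN : (0 : ℝ) < ((N : ℕ) : ℝ) := Nat.cast_pos.2 (Nat.pos_of_ne_zero (NeZero.ne N))
  have hq : ∀ τ, qw 1 τ = qw (N : ℕ) τ ^ N := qw_eq_pow N
  have heq : (fun τ => qw 1 τ ^ M * f τ) =
      fun τ => qw (N : ℕ) τ ^ ((N - 1) * M) * G (qw (N : ℕ) τ) := by
    funext τ
    rw [hGe, hq, ← mul_assoc, ← pow_add, ← pow_mul]
    congr 2
    obtain ⟨n, hn⟩ : ∃ n, N = n + 1 := ⟨N - 1, by have := NeZero.ne N; omega⟩
    rw [hn]; simp; ring
  rw [heq]
  exact ((((continuous_pow _).tendsto 0).comp (qParam_tendsto_atImInfty hN)).mul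
    ((hG.analyticAt (ball_mem_nhds 0 one_pos)).continuousAt.tendsto.comp
      (qParam_tendsto_atImInfty hN))).isBigO_one ℝ

/-- The monic equation over `ℂ[j]` of a `Γ₀(N)`-invariant function whose translates lie in a ring
of functions in which the invariant ones are polynomials in `j`. -/
theorem exists_monic_relation {S : Subring (ℍ → ℂ)}
    (hS : ∀ g ∈ S, (∀ (γ : SL(2, ℤ)) τ, g (γ • τ) = g τ) →
      ∃ p : ℂ[X], ∀ τ, g τ = p.eval (jFun τ))
    {f : ℍ → ℂ} (hinv : ∀ γ ∈ Gamma0 N, ∀ τ, f (γ • τ) = f τ)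
    (hf : ∀ k : SL(2, ℤ), (fun τ => f (k • τ)) ∈ S) :
    ∃ p : ℕ → ℂ[X], ∀ τ, f τ ^ Fintype.card (SL(2, ℤ) ⧸ Gamma0 N) +
      ∑ i ∈ Finset.range (Fintype.card (SL(2, ℤ) ⧸ Gamma0 N)),
        (p i).eval (jFun τ) * f τ ^ i = 0 := by
  classical
  set n := Fintype.card (SL(2, ℤ) ⧸ Gamma0 N)
  have hout : ∀ (g : SL(2, ℤ)) τ,
      f (((QuotientGroup.mk g : SL(2, ℤ) ⧸ Gamma0 N).out)⁻¹ • τ) = f (g⁻¹ • τ) := fun g τ => by
    obtain ⟨h, hh⟩ := QuotientGroup.mk_out_eq_mul (Gamma0 N) g
    rw [hh, mul_inv_rev, mul_smul, hinv _ (inv_mem h.2)]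
  let Φ : Polynomial S :=
    ∏ x : SL(2, ℤ) ⧸ Gamma0 N, (Polynomial.X - Polynomial.C ⟨_, hf (x.out)⁻¹⟩)
  have hmonic : Φ.Monic :=
    Polynomial.monic_prod_of_monic _ _ fun x _ => Polynomial.monic_X_sub_C _
  have hdeg : Φ.natDegree = n := by simp [Φ, n]
  have hΦ : ∀ (γ : SL(2, ℤ)) (i : ℕ) (τ : ℍ),
      (Φ.coeff i : ℍ → ℂ) (γ • τ) = (Φ.coeff i : ℍ → ℂ) τ := by
    intro γ i τ
    let pc : (ℍ → ℂ) →+* (ℍ → ℂ) :=
      RingHom.pi fun τ => Pi.evalRingHom (fun _ : ℍ => ℂ) (γ • τ)
    have hmap : (Φ.map S.subtype).map pc = Φ.map S.subtype := by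
      simp only [Φ, Polynomial.map_prod, Polynomial.map_sub, Polynomial.map_X, Polynomial.map_C]
      refine Fintype.prod_bijective (fun x => γ⁻¹ • x) (MulAction.bijective γ⁻¹) _ _ fun x => ?_
      congr 2
      funext τ'
      have hx : γ⁻¹ • x = QuotientGroup.mk (γ⁻¹ * x.out) := by
        conv_lhs => rw [← QuotientGroup.out_eq' x]
        rfl
      show f ((x.out)⁻¹ • γ • τ') = f (((γ⁻¹ • x).out)⁻¹ • τ')
      rw [hx, hout, mul_inv_rev, inv_inv, mul_smul]
    have h := congrArg (fun q => Polynomial.coeff q i) hmap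
    simp only [Polynomial.coeff_map] at h
    exact congrFun h τ
  choose p hp using fun i => hS _ (Φ.coeff i).2 fun γ τ => hΦ γ i τ
  refine ⟨p, fun τ => ?_⟩
  let ev : S →+* ℂ := (Pi.evalRingHom (fun _ : ℍ => ℂ) τ).comp S.subtype
  have hroot : (Φ.map ev).eval (f τ) = 0 := by
    rw [Polynomial.map_prod, Polynomial.eval_prod]
    refine Finset.prod_eq_zero (Finset.mem_univ (QuotientGroup.mk 1)) ?_
    simp only [Polynomial.map_sub, Polynomial.map_X, Polynomial.map_C, Polynomial.eval_sub,
      Polynomial.eval_X, Polynomial.eval_C]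
    show f τ - f _ = 0
    rw [hout, inv_one, one_smul, sub_self]
  rw [Polynomial.eval_eq_sum_range' (n := n + 1) (by rw [hmonic.natDegree_map, hdeg]; omega),
    Finset.sum_range_succ, Polynomial.coeff_map, ← hdeg, hmonic.coeff_natDegree, map_one,
    one_mul, hdeg, add_comm] at hroot
  rw [← hroot]
  refine congrArg _ (Finset.sum_congr rfl fun i _ => ?_)
  rw [← hp i, Polynomial.coeff_map]
  rfl

/-- A polynomial in `j` expands to the polynomial in its series. -/
theorem hasLoc_polyEval (q : ℂ[X]) :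
    HasLoc (qw 1) (fun τ => q.eval (jFun τ)) (q.eval₂ HahnSeries.C (jqModC ℂ)) := by
  induction q using Polynomial.induction_on' with
  | add p q hp hq => simp only [Polynomial.eval_add, Polynomial.eval₂_add]; exact hp.add hq
  | monomial n a =>
    simp only [Polynomial.eval_monomial, Polynomial.eval₂_monomial]
    exact (hasLoc_jFun.pow n).smul a

/-- Coefficientwise application of a linear form. -/
def coeffLinC (φ : ℂ →ₗ[K] K) : LaurentSeries ℂ →+ LaurentSeries K where
  toFun f := f.map φ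
  map_zero' := by ext; simp
  map_add' f g := by ext; simp

omit [Algebra K ℂ] in
/-- A `K`-linear form on `ℂ` fixing `1`. -/
theorem exists_linearForm [Algebra K ℂ] : ∃ φ : ℂ →ₗ[K] K, φ 1 = 1 := by
  obtain ⟨φ, hφ⟩ := LinearMap.exists_leftInverse_of_injective (Algebra.linearMap K ℂ)
    (LinearMap.ker_eq_bot.2 (algebraMap K ℂ).injective)
  exact ⟨φ, by simpa using LinearMap.congr_fun hφ 1⟩

omit [NeZero N] in
/-- A linear form on coefficients is linear over series with coefficients in `K`. -/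
theorem coeffLinC_C_mul (φ : ℂ →ₗ[K] K) (c : ℂ) (x : LaurentSeries K) :
    coeffLinC φ (HahnSeries.C c * coeffMapC K x) = HahnSeries.C (φ c) * x := by
  ext k
  show φ ((HahnSeries.C c * coeffMapC K x).coeff k) = (HahnSeries.C (φ c) * x).coeff k
  rw [HahnSeries.C_mul_eq_smul, HahnSeries.C_mul_eq_smul, HahnSeries.coeff_smul,
    HahnSeries.coeff_smul]
  show φ (c * algebraMap K ℂ (x.coeff k)) = φ c * x.coeff k
  rw [mul_comm c, ← Algebra.smul_def, map_smul, smul_eq_mul, mul_comm]

omit [NeZero N] in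
/-- A linear form on coefficients sends `p(j) x` to `(φ p)(j) x` for `x` over `K`. -/
theorem coeffLinC_eval_mul (φ : ℂ →ₗ[K] K) (p : ℂ[X]) (x : LaurentSeries K) :
    coeffLinC φ (p.eval₂ HahnSeries.C (jqModC ℂ) * coeffMapC K x) =
      (p.sum fun n c => Polynomial.monomial n (φ c)).eval₂ HahnSeries.C (jqModC K) * x := by
  induction p using Polynomial.induction_on' with
  | add p q hp hq =>
    rw [Polynomial.eval₂_add, add_mul, map_add, hp, hq,
      Polynomial.sum_add_index p q _ (fun i => by simp) (fun i a b => by simp),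
      Polynomial.eval₂_add, add_mul]
  | monomial n a =>
    rw [Polynomial.sum_monomial_index a _ (by simp), Polynomial.eval₂_monomial,
      Polynomial.eval₂_monomial,
      show jqModC ℂ = coeffMapC K (jqModC K) from (ModularCurve.map_jqModC _).symm,
      mul_assoc, ← map_pow, ← map_mul, coeffLinC_C_mul, mul_assoc]

variable (K N) in
/-- `p ↦ p(j)` in Laurent series. -/
def evalJ : K[X] →+* LaurentSeries K := Polynomial.eval₂RingHom HahnSeries.C (jqModC K)

/-- A polynomial in the generators is a root of a monic polynomial over `K[j]` of degree the index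
of `Γ₀(N)`. -/
theorem exists_relation (P : JPoly K N) :
    ∃ Ψ : K[X][X], Ψ.Monic ∧ Ψ.natDegree = Fintype.card (SL(2, ℤ) ⧸ Gamma0 N) ∧
      Ψ.eval₂ (evalJ K) (evL K N P) = 0 := by
  classical
  obtain ⟨p, hp⟩ := exists_monic_relation (S := cuspSubring N)
    (fun g hg hi => exists_eval_of_mem_cuspSubring hg hi) (fun γ hγ τ => evF_gamma0 hγ P τ)
    fun k => evF_translate_mem k P
  obtain ⟨φ, hφ⟩ := exists_linearForm (K := K)
  set n := Fintype.card (SL(2, ℤ) ⧸ Gamma0 N)
  have hloc : HasLoc (qw 1) (0 : ℍ → ℂ) (coeffMapC K (evL K N P) ^ n +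
      ∑ i ∈ Finset.range n, (p i).eval₂ HahnSeries.C (jqModC ℂ) * coeffMapC K (evL K N P) ^ i) := by
    refine (((hasLoc_evF K N P).pow n).add (HasLoc.sum (Finset.range n) fun i _ =>
      (hasLoc_polyEval (p i)).mul ((hasLoc_evF K N P).pow i))).congr_fun fun τ => ?_
    simp only [Pi.zero_apply, Pi.add_apply, Pi.pow_apply, Finset.sum_apply, Pi.mul_apply]
    exact (hp τ).symm
  have hz := hloc.unique (locCoord_qw one_pos) (HasLoc.const 0)
  set Q : ℕ → K[X] := fun i => (p i).sum fun n c => Polynomial.monomial n (φ c)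
  have hlow : (∑ i ∈ Finset.range n,
      Polynomial.C (Q i) * Polynomial.X ^ i).degree < (n : WithBot ℕ) := by
    refine (Polynomial.degree_sum_le _ _).trans_lt ((Finset.sup_lt_iff ?_).2 fun i hi => ?_)
    · exact WithBot.bot_lt_coe n
    · exact (Polynomial.degree_C_mul_X_pow_le i (Q i)).trans_lt
        (WithBot.coe_lt_coe.2 (Finset.mem_range.1 hi))
  refine ⟨Polynomial.X ^ n + ∑ i ∈ Finset.range n, Polynomial.C (Q i) * Polynomial.X ^ i,
    Polynomial.monic_X_pow_add hlow, Polynomial.natDegree_eq_of_degree_eq_some ?_, ?_⟩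
  · rw [Polynomial.degree_add_eq_left_of_degree_lt] <;> rw [Polynomial.degree_X_pow]
    exact hlow
  · rw [Polynomial.eval₂_add, Polynomial.eval₂_X_pow, Polynomial.eval₂_finsetSum]
    simp only [Polynomial.eval₂_mul, Polynomial.eval₂_C, Polynomial.eval₂_X_pow]
    have h := congrArg (coeffLinC φ) hz
    rw [map_zero, map_zero, map_add, map_sum] at h
    refine Eq.trans ?_ h
    refine congrArg₂ (· + ·) ?_ (Finset.sum_congr rfl fun i _ => ?_)
    · rw [← map_pow (coeffMapC K), ← one_mul (coeffMapC K (evL K N P ^ n)),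
        ← map_one (HahnSeries.C : ℂ →+* LaurentSeries ℂ), coeffLinC_C_mul, hφ, map_one, one_mul]
    · rw [← map_pow (coeffMapC K), coeffLinC_eval_mul]
      rfl

omit [Algebra K ℂ] in
/-- `evalJ` is evaluation at the series of `j`. -/
theorem evalJ_eq_aeval (p : K[X]) : evalJ K p = Polynomial.aeval (jqModC K) p := by
  show Polynomial.eval₂ HahnSeries.C (jqModC K) p = _
  rw [Polynomial.aeval_def]
  congr 1
  exact RingHom.ext fun a => (ModularCurve.algebraMap_laurentSeries_eq_single K a).symm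

omit [Algebra K ℂ] in
/-- Polynomials in `j` inside and outside the field agree. -/
theorem coe_aeval_jElt (p : K[X]) :
    ((Polynomial.aeval (jElt K N) p : jField K N) : LaurentSeries K) = evalJ K p := by
  rw [evalJ_eq_aeval, ← coe_jElt K N]
  exact (Polynomial.aeval_algHom_apply (jField K N).val (jElt K N) p).symm

/-- `j` is transcendental. -/
theorem transcendental_jElt : Transcendental K (jElt K N) := by
  rw [transcendental_iff]
  intro p hp
  have h1 : p.eval₂ HahnSeries.C (jqModC K) = 0 := by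
    show evalJ K p = 0
    rw [← coe_aeval_jElt (N := N), hp]
    rfl
  have h2 : HasLoc (qw 1) (fun τ => (p.map (algebraMap K ℂ)).eval (jFun τ)) 0 := by
    have h := hasLoc_polyEval (p.map (algebraMap K ℂ))
    have hcomp : (p.map (algebraMap K ℂ)).eval₂ HahnSeries.C (jqModC ℂ) =
        coeffMap (algebraMap K ℂ) (p.eval₂ HahnSeries.C (jqModC K)) := by
      rw [Polynomial.hom_eval₂, Polynomial.eval₂_map]
      congr 1
      · refine RingHom.ext fun a => ?_
        simp [HahnSeries.C_apply]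
      · exact (ModularCurve.map_jqModC _).symm
    rwa [hcomp, h1, map_zero] at h
  have h3 := congrFun (HasLoc.eq_zero (locCoord_qw one_pos) h2)
  have h4 : p.map (algebraMap K ℂ) = 0 := Polynomial.funext fun a => by
    obtain ⟨τ, rfl⟩ := exists_jFun_eq a
    simpa using h3 τ
  exact (Polynomial.map_eq_zero _).1 h4

/-- The monic relation of degree the index, inside the field. -/
theorem exists_relation_base (P : JPoly K N) :
    ∃ Ψ : K[X][X], Ψ.Monic ∧ Ψ.natDegree = Fintype.card (SL(2, ℤ) ⧸ Gamma0 N) ∧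
      Ψ.eval₂ (Polynomial.aeval (R := K) (jElt K N)).toRingHom (toJField K N P) = 0 := by
  obtain ⟨Ψ, h1, h2, h3⟩ := exists_relation P
  refine ⟨Ψ, h1, h2, (jField K N).val.toRingHom.injective ?_⟩
  rw [map_zero, Polynomial.hom_eval₂]
  refine Eq.trans ?_ h3
  congr 1
  · exact RingHom.ext fun p => coe_aeval_jElt p
  · exact coe_toJField K N P

end Relation

/-! ### Degree bound from monic relations over `K[x]` -/

section Generic

variable {K F : Type*} [Field K] [Field F] [Algebra K F] {x : F}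

/-- A nonzero algebraic element divides a nonzero polynomial in `x` within the ring it generates. -/
theorem exists_mul_eq_aeval (hx : Transcendental K x) {y : F} (hy : y ≠ 0) :
    ∀ (n : ℕ) (Ψ : K[X][X]), Ψ.natDegree ≤ n → Ψ ≠ 0 →
      Ψ.eval₂ (Polynomial.aeval (R := K) x).toRingHom y = 0 →
      ∃ (r : K[X]) (R : K[X][X]), r ≠ 0 ∧
        y * R.eval₂ (Polynomial.aeval (R := K) x).toRingHom y = Polynomial.aeval x r := by
  intro n
  induction n with
  | zero =>
    intro Ψ hd hne h0
    rw [Polynomial.eq_C_of_natDegree_le_zero hd, Polynomial.eval₂_C] at h0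
    exact absurd (by rw [Polynomial.eq_C_of_natDegree_le_zero hd, transcendental_iff.1 hx _ h0,
      map_zero]) hne
  | succ n ih =>
    intro Ψ hd hne h0
    rw [← Polynomial.divX_mul_X_add Ψ, Polynomial.eval₂_add, Polynomial.eval₂_mul,
      Polynomial.eval₂_X, Polynomial.eval₂_C] at h0
    by_cases hc : Ψ.coeff 0 = 0
    · rw [hc, map_zero, add_zero] at h0
      refine ih Ψ.divX ?_ (fun h => hne ?_) ((mul_eq_zero.1 h0).resolve_right hy)
      · rw [Polynomial.natDegree_divX_eq_natDegree_tsub_one]; omega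
      · rw [← Polynomial.divX_mul_X_add Ψ, h, hc, zero_mul, map_zero, add_zero]
    · refine ⟨Ψ.coeff 0, -Ψ.divX, hc, ?_⟩
      rw [Polynomial.eval₂_neg]
      change _ + Polynomial.aeval x (Ψ.coeff 0) = 0 at h0
      linear_combination -h0

theorem eval₂_aeval_mem {A : Subalgebra K F} (hxA : x ∈ A) {y : F} (hy : y ∈ A) (S : K[X][X]) :
    S.eval₂ (Polynomial.aeval (R := K) x).toRingHom y ∈ A := by
  rw [Polynomial.eval₂_eq_sum, Polynomial.sum]
  exact sum_mem fun i _ =>
    mul_mem (Algebra.adjoin_le (Set.singleton_subset_iff.2 hxA)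
      (Polynomial.aeval_mem_adjoin_singleton K x))
      (pow_mem hy i)

theorem finiteDimensional_and_finrank_le [CharZero K] (hx : Transcendental K x) {A : Subalgebra K F}
    (hxA : x ∈ A) {n : ℕ} (hdiv : ∀ f : F, ∃ a ∈ A, ∃ b ∈ A, f = a / b) {S : Set F} (hS : S.Finite)
    (hSA : A ≤ Algebra.adjoin K S) (hSA' : S ⊆ A)
    (hrel : ∀ a ∈ A, ∃ Ψ : K[X][X], Ψ.Monic ∧ Ψ.natDegree = n ∧
      Ψ.eval₂ (Polynomial.aeval (R := K) x).toRingHom a = 0) :
    FiniteDimensional K⟮x⟯ F ∧ Module.finrank K⟮x⟯ F ≤ n := by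
  set E := K⟮x⟯
  let xE : E := ⟨x, mem_adjoin_simple_self K x⟩
  have hev : (algebraMap E F).comp (Polynomial.aeval (R := K) xE).toRingHom =
      (Polynomial.aeval (R := K) x).toRingHom :=
    RingHom.ext fun p => (Polynomial.aeval_algebraMap_apply F xE p).symm
  have hmap : ∀ (Ψ : K[X][X]) (a : F),
      Polynomial.aeval a (Ψ.map (Polynomial.aeval (R := K) xE).toRingHom) =
        Ψ.eval₂ (Polynomial.aeval (R := K) x).toRingHom a := fun Ψ a => by
    rw [Polynomial.aeval_def, Polynomial.eval₂_map, hev]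
  have hint : ∀ a ∈ A, IsIntegral E a := fun a ha => by
    obtain ⟨Ψ, hm, -, h0⟩ := hrel a ha
    exact ⟨_, hm.map (Polynomial.aeval (R := K) xE).toRingHom, (hmap Ψ a).trans h0⟩
  have htop : IntermediateField.adjoin E S = ⊤ := by
    refine eq_top_iff.2 fun f _ => ?_
    obtain ⟨a, ha, b, hb, rfl⟩ := hdiv f
    have hle : Algebra.adjoin K S ≤
        ((IntermediateField.adjoin E S).restrictScalars K).toSubalgebra :=
      Algebra.adjoin_le (subset_adjoin E S)
    exact div_mem (hle (hSA ha)) (hle (hSA hb))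
  have hfd : FiniteDimensional E F := by
    have : Finite S := hS.to_subtype
    have h := IntermediateField.finiteDimensional_adjoin (K := E) (S := S) fun a ha =>
      hint a (hSA' ha)
    rw [htop] at h
    exact IntermediateField.topEquiv.toLinearEquiv.finiteDimensional
  refine ⟨hfd, ?_⟩
  have : CharZero E := charZero_of_injective_algebraMap (algebraMap K E).injective
  obtain ⟨θ, hθ⟩ := Field.exists_primitive_element E F
  obtain ⟨a, ha, b, hb, hab⟩ := hdiv θ
  obtain ⟨θ', r, hθ', hr, hθr⟩ : ∃ (θ' : F) (r : K[X]), θ' ∈ A ∧ r ≠ 0 ∧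
      θ' = Polynomial.aeval x r * θ := by
    rcases eq_or_ne b 0 with rfl | hb0
    · exact ⟨0, 1, zero_mem A, one_ne_zero, by simp [hab]⟩
    obtain ⟨Ψ, hm, -, h0⟩ := hrel b hb
    obtain ⟨r, R, hr, hR⟩ := exists_mul_eq_aeval hx hb0 _ Ψ le_rfl hm.ne_zero h0
    refine ⟨a * R.eval₂ (Polynomial.aeval (R := K) x).toRingHom b, r,
      mul_mem ha (eval₂_aeval_mem hxA hb R), hr, ?_⟩
    rw [hab, ← hR]
    field_simp
  obtain ⟨Ψ, hm, hdeg, h0⟩ := hrel θ' hθ'
  have hr' : Polynomial.aeval x r ≠ 0 := fun h => hr (transcendental_iff.1 hx r h)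
  have htop' : E⟮θ'⟯ = ⊤ := by
    refine eq_top_iff.2 (hθ.symm.le.trans (adjoin_simple_le_iff.2 ?_))
    have hrE : Polynomial.aeval x r ∈ E⟮θ'⟯ := by
      rw [show Polynomial.aeval x r = algebraMap E F (Polynomial.aeval xE r) from
        Polynomial.aeval_algebraMap_apply F xE r]
      exact IntermediateField.algebraMap_mem _ _
    have hmem := div_mem (mem_adjoin_simple_self E θ') hrE
    rw [show θ = θ' / Polynomial.aeval x r by rw [hθr, mul_div_cancel_left₀ _ hr']]; exact hmem
  calc Module.finrank E F = Module.finrank E E⟮θ'⟯ := by rw [htop', finrank_top']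
    _ = (minpoly E θ').natDegree := adjoin.finrank (hint θ' hθ')
    _ ≤ (Ψ.map (Polynomial.aeval (R := K) xE).toRingHom).natDegree :=
        Polynomial.natDegree_le_natDegree (minpoly.min _ _ (hm.map _) ((hmap Ψ θ').trans h0))
    _ = n := by rw [hm.natDegree_map, hdeg]

end Generic

variable (K : Type*) [Field K] [CharZero K] [Algebra K ℂ] (N : ℕ) [NeZero N]

/-- `[K(j(dτ) : d ∣ N) : K(j)]` is finite and at most the index of `Γ₀(N)`. -/
theorem finite_and_finrank_jField_le :
    FiniteDimensional K⟮jElt K N⟯ (jField K N) ∧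
      Module.finrank K⟮jElt K N⟯ (jField K N) ≤ Fintype.card (SL(2, ℤ) ⧸ Gamma0 N) := by
  refine finiteDimensional_and_finrank_le (transcendental_jElt (K := K) (N := N))
    (A := (toJField K N).range) ⟨_, rfl⟩ (fun f => ?_)
    (S := Set.range fun d => toJField K N (MvPolynomial.X d)) (Set.finite_range _) ?_ ?_ ?_
  · obtain ⟨P, Q, h⟩ := exists_eq_div K N f
    exact ⟨_, ⟨P, rfl⟩, _, ⟨Q, rfl⟩, h⟩
  · rw [← Algebra.map_top, ← MvPolynomial.adjoin_range_X, AlgHom.map_adjoin, ← Set.range_comp]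
    exact le_rfl
  · rintro _ ⟨d, rfl⟩
    exact ⟨_, rfl⟩
  · rintro _ ⟨P, rfl⟩
    exact exists_relation_base P

/-- `K(j(dτ) : d ∣ N)` is a function field of one variable. -/
theorem isFF_jField : IsFF K (jField K N) :=
  ⟨⟨jElt K N, transcendental_jElt, (finite_and_finrank_jField_le K N).1⟩⟩

section Bar

open ModularCurve in
/-- The function field of `X₀(N)` over `ℚ̄` is generated by the `j(d τ)`, `d ∣ N`. -/
theorem modularFunctionFieldBar_eq_jField (N : ℕ) [NeZero N] :
    modularFunctionFieldBar N = jField (AlgebraicClosure ℚ) N := by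
  set L := AlgebraicClosure ℚ
  have himg : ∀ (d : ℕ) [NeZero d], coeffEmb L (qExpand ℚ d jq) = qExpand L d (jqModC L) := by
    intro d _
    rw [← jqModC_rat, coeffEmb, ModularCurve.coeffMap_qExpand]
    exact congrArg _ (map_jqModC _)
  refine le_antisymm ?_ ?_
  · show IntermediateField.adjoin L (coeffEmb L '' (modularFunctionFieldFull N : Set _)) ≤ _
    rw [adjoin_le_iff]
    rintro _ ⟨x, hx, rfl⟩
    change x ∈ IntermediateField.adjoin ℚ (divisorExpansions N) at hx
    induction hx using IntermediateField.adjoin_induction with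
    | mem y hy =>
      obtain ⟨d, hd0, hd, rfl⟩ := hy
      have := hd0
      rw [himg]
      exact subset_adjoin _ _ ⟨⟨d, Nat.mem_divisors.2 ⟨hd, NeZero.ne N⟩⟩, rfl⟩
    | algebraMap a =>
      have : coeffEmb L (algebraMap ℚ (LaurentSeries ℚ) a) =
          algebraMap L (LaurentSeries L) (algebraMap ℚ L a) := by
        rw [ModularCurve.algebraMap_laurentSeries_eq_single,
          ModularCurve.algebraMap_laurentSeries_eq_single, coeffEmb, coeffMap_single]
      rw [this]
      exact IntermediateField.algebraMap_mem _ _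
    | add a b _ _ ha hb => rw [map_add]; exact add_mem ha hb
    | inv a _ ha => rw [map_inv₀]; exact inv_mem ha
    | mul a b _ _ ha hb => rw [map_mul]; exact mul_mem ha hb
  · rw [adjoin_le_iff]
    rintro _ ⟨d, rfl⟩
    have := coeffEmb_mem_laurentBaseChange L (F₀ := modularFunctionFieldFull N)
      (jqd_mem_full N d.dvd)
    rwa [himg] at this

end Bar

end FermatAgent.Curve
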