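import Mathlib
import Fermat.Prelude.Def_AlgebraicCurve_CanonicalDivisor
import Fermat.Prelude.Def_ModularCurve_GenusNumerics
import Fermat.Agent.Curve.Hurwitz
import Fermat.Agent.Curve.ModularDegree
import Fermat.Agent.Curve.CycleCount
import Fermat.Agent.Period.ParabolicBound
import Fermat.Agent.Period.Gamma0Cusps

/-!
# Fibres of `j` on `X₀(N)` and the genus

The expansions at the translates by the cosets of `Γ₀(N)` of a point over `a` give all places of
`jField K N` over `j = a`, the stabiliser of the point permuting them in cycles. So `j` is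
unramified outside `0`, `1728`, `∞`, and its fibres there are the orbits of `S T`, `S`, `T` on
`SL(2, ℤ) ⧸ Γ₀(N)`; Riemann–Hurwitz for `j : X₀(N) → ℙ¹` then gives the genus formula.
-/

set_option autoImplicit false

noncomputable section

open UpperHalfPlane hiding I
open Complex ModularGroup IntermediateField AlgebraicCurve
open scoped MatrixGroups Real

open CongruenceSubgroup (Gamma0)

namespace FermatAgent.Curve

variable (K : Type*) [Field K] [CharZero K] [IsAlgClosed K] [Algebra K ℂ] (N : ℕ) [NeZero N]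

instance instIsFFJField : IsFF K (jField K N) := isFF_jField K N

/-- The permutation `x ↦ γ⁻¹ x` of the cosets. -/
def cosetPerm (γ : SL(2, ℤ)) : Equiv.Perm (SL(2, ℤ) ⧸ Gamma0 N) :=
  MulAction.toPermHom SL(2, ℤ) _ γ⁻¹

omit [NeZero N] in
@[simp]
theorem cosetPerm_apply (γ : SL(2, ℤ)) (x : SL(2, ℤ) ⧸ Gamma0 N) :
    cosetPerm N γ x = γ⁻¹ • x := rfl

/-- The expansion of `j` in a coordinate, at every coset, for the family over `j - a`. -/
def familyAt (τ₀ : ℍ) (a : K) (m : ℕ) (hm : 0 < m)
    (ho : (jSubSeries τ₀ (algebraMap K ℂ a)).order = m) :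
    EmbeddingFamily (K := K) (jElt K N - algebraMap K (jField K N) a)
      (SL(2, ℤ) ⧸ Gamma0 N) ℂ where
  σ := cosetEmb (genCoord_discCoord N τ₀)
  σ_injective := cosetEmb_injective _
  h := jSubSeries τ₀ (algebraMap K ℂ a)
  σ_x x := by
    rw [map_sub, AlgHom.commutes, algebraMap_laurent]
    have hS := hasLoc_discCoord τ₀ mdiff_jFun
    have h1 : cosetEmb (genCoord_discCoord N τ₀) x (jElt K N) =
        HahnSeries.ofPowerSeries ℤ ℂ (taylorPS (discFun τ₀ jFun)) :=
      cosetEmb_j _ x hS
    rw [h1, ← HahnSeries.C_apply]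
    exact (hS.sub (HasLoc.const _)).unique (locCoord_discCoord τ₀) (hasLoc_jSubSeries τ₀ _)
  m := m
  m_pos := hm
  order_h := ho
  card_ge := by
    rw [adjoin_sub_algebraMap]
    exact (finite_and_finrank_jField_le K N).2

/-- The rotation of a family by a stabiliser of its base point. -/
def rotationAt (τ₀ : ℍ) (a : K) (m : ℕ) (hm : 0 < m)
    (ho : (jSubSeries τ₀ (algebraMap K ℂ a)).order = m) (γ : SL(2, ℤ)) {ζ : ℂ}
    (hprim : IsPrimitiveRoot ζ m) (hγ : ∀ τ, discCoord τ₀ (γ • τ) = ζ * discCoord τ₀ τ) :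
    (familyAt K N τ₀ a m hm ho).Rotation where
  ζ := ζ
  prim := hprim
  r := cosetPerm N γ
  compat x f := cosetEmb_smul (genCoord_discCoord N τ₀) (hprim.norm'_eq_one hm.ne')
    (hprim.ne_zero hm.ne') hγ x f

/-- `T` rotates `q^{1/N}` by a primitive root of unity. -/
theorem qw_T_smul (τ : ℍ) :
    qw (N : ℕ) ((T : SL(2, ℤ)) • τ) = cexp (2 * π * Complex.I / N) * qw (N : ℕ) τ := by
  rw [modular_T_smul, qw, qw, coe_vadd, Function.Periodic.qParam, Function.Periodic.qParam,
    ← Complex.exp_add]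
  congr 1
  push_cast
  field_simp [NeZero.ne N]

/-- `j` has a pole of order `N` in `q^{1/N}`. -/
theorem exists_series_infty :
    ∃ P : LaurentSeries ℂ, HasLoc (qw (N : ℕ)) jFun P ∧ P.order = -(N : ℤ) := by
  obtain ⟨P, hP, hPo⟩ := hasLoc_jFun_affinePt 1 1 N 0
  rw [one_mul] at hP hPo
  refine ⟨P, hP.congr_fun fun τ => congrArg jFun (UpperHalfPlane.ext ?_), hPo⟩
  simp [coe_affinePt]

/-- The family over `1 / j`. -/
def familyInfty : EmbeddingFamily (K := K) (jElt K N)⁻¹ (SL(2, ℤ) ⧸ Gamma0 N) ℂ where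
  σ := cosetEmb (genCoord_qw N)
  σ_injective := cosetEmb_injective _
  h := (exists_series_infty N).choose⁻¹
  σ_x x := by
    rw [map_inv₀]
    exact congrArg _ (cosetEmb_j _ x (exists_series_infty N).choose_spec.1)
  m := N
  m_pos := Nat.pos_of_ne_zero (NeZero.ne N)
  order_h := by
    have h := (exists_series_infty N).choose_spec.2
    rw [order_inv fun h0 => ?_, h, neg_neg]
    rw [h0, HahnSeries.order_zero] at h
    have := NeZero.ne N
    omega
  card_ge := by
    rw [adjoin_inv_eq]
    exact (finite_and_finrank_jField_le K N).2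

/-- The rotation at `∞`. -/
def rotationInfty : (familyInfty K N).Rotation where
  ζ := cexp (2 * π * Complex.I / N)
  prim := Complex.isPrimitiveRoot_exp N (NeZero.ne N)
  r := cosetPerm N T
  compat x f := cosetEmb_smul (genCoord_qw N)
    ((Complex.isPrimitiveRoot_exp N (NeZero.ne N)).norm'_eq_one (NeZero.ne N))
    ((Complex.isPrimitiveRoot_exp N (NeZero.ne N)).ne_zero (NeZero.ne N)) (qw_T_smul N) x f

omit [CharZero K] [IsAlgClosed K] in
/-- `j` has order `3` at `ρ`. -/
theorem jSubSeries_zero_order :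
    (jSubSeries rhoPt (algebraMap K ℂ 0)).order = ((3 : ℕ) : ℤ) := by
  rw [map_zero, order_jSubSeries_zero]
  rfl

omit [CharZero K] [IsAlgClosed K] in
/-- `j - 1728` has order `2` at `i`. -/
theorem jSubSeries_1728_order :
    (jSubSeries UpperHalfPlane.I (algebraMap K ℂ 1728)).order = ((2 : ℕ) : ℤ) := by
  rw [map_ofNat, order_jSubSeries_1728]
  rfl

/-- The degree of `j` on `X₀(N)` is the index of `Γ₀(N)`. -/
theorem finrank_jField :
    Module.finrank K⟮jElt K N⟯ (jField K N) = Fintype.card (SL(2, ℤ) ⧸ Gamma0 N) := by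
  classical
  have : Nonempty (SL(2, ℤ) ⧸ Gamma0 N) := ⟨QuotientGroup.mk 1⟩
  have h := (familyAt K N rhoPt 0 3 (by norm_num) (jSubSeries_zero_order K)).count.1
  rwa [adjoin_sub_algebraMap] at h

/-- The points over `j = 0` are the orbits of `S T` on the cosets. -/
theorem card_zeros_zero : (zerosSub (jElt K N) (0 : K)).card = numOrbits (cosetPerm N (S * T)) := by
  have : Nonempty (SL(2, ℤ) ⧸ Gamma0 N) := ⟨QuotientGroup.mk 1⟩
  exact (rotationAt K N rhoPt 0 3 (by norm_num) (jSubSeries_zero_order K) (S * T)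
    isPrimitiveRoot_rhoPt discCoord_S_T_smul).card_zeros

/-- The points over `j = 1728` are the orbits of `S` on the cosets. -/
theorem card_zeros_1728 : (zerosSub (jElt K N) (1728 : K)).card = numOrbits (cosetPerm N S) := by
  have : Nonempty (SL(2, ℤ) ⧸ Gamma0 N) := ⟨QuotientGroup.mk 1⟩
  exact (rotationAt K N UpperHalfPlane.I 1728 2 two_pos (jSubSeries_1728_order K) S
    (IsPrimitiveRoot.neg_one 0 (by norm_num)) discCoord_S_smul).card_zeros

/-- The poles of `j` are the orbits of `T` on the cosets. -/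
theorem card_poles :
    (finite_ord_pos (K := K) (jElt K N)⁻¹).toFinset.card = numOrbits (cosetPerm N T) := by
  have : Nonempty (SL(2, ℤ) ⧸ Gamma0 N) := ⟨QuotientGroup.mk 1⟩
  exact (rotationInfty K N).card_zeros

/-- `j` is unramified outside `0`, `1728` and `∞`. -/
theorem simple_zero {a : K} (h0 : a ≠ 0) (h1728 : a ≠ 1728) {v : Place K (jField K N)}
    (hv : 0 < v.ord (jElt K N - algebraMap K (jField K N) a)) :
    v.ord (jElt K N - algebraMap K (jField K N) a) = 1 := by
  classical
  have : Nonempty (SL(2, ℤ) ⧸ Gamma0 N) := ⟨QuotientGroup.mk 1⟩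
  obtain ⟨τ₀, hτ₀⟩ := exists_jFun_eq (algebraMap K ℂ a)
  have ho : (jSubSeries τ₀ (algebraMap K ℂ a)).order = ((1 : ℕ) : ℤ) := by
    rw [Nat.cast_one]
    refine order_jSubSeries_generic hτ₀ ((_root_.map_ne_zero _).2 h0) fun h => h1728 ?_
    exact (algebraMap K ℂ).injective (h.trans (map_ofNat _ _).symm)
  set E := familyAt K N τ₀ a 1 one_pos ho
  obtain ⟨i, rfl⟩ := E.exists_place_eq v hv
  obtain ⟨t, ht0, ht⟩ := exists_ord_eq_one (E.place i)
  have h := order_apply (E.σ i) (E.order_pos i) ht (jElt K N - algebraMap K (jField K N) a)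
  rw [E.σ_x, E.order_h] at h
  have hk := order_uniformizer_pos (E.σ i) (E.order_pos i) ht
  have hm : E.m = 1 := rfl
  rw [hm, Nat.cast_one] at h
  nlinarith [show (E.place i).ord (jElt K N - algebraMap K (jField K N) a) =
    (centre (E.σ i) (E.order_pos i)).ord (jElt K N - algebraMap K (jField K N) a) from rfl]

/-- The orbits of `T` on the cosets are the cusps. -/
theorem numOrbits_T : numOrbits (cosetPerm N T) = ModularCurve.cuspCount N := by
  rw [← Period.card_cuspSet_Gamma0 (N := N)]
  refine Nat.card_eq_of_bijective (fun q => Quotient.liftOn q (Period.cuspOf (Gamma0 N))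
    fun x y h => ?_) ⟨?_, ?_⟩
  · obtain ⟨n, hn⟩ := h
    rw [cosetPerm, ← map_zpow] at hn
    refine Period.cuspOf_eq_iff.2 ⟨n, ?_⟩
    rw [← hn]
    show (T : SL(2, ℤ)) ^ n • ((T : SL(2, ℤ))⁻¹ ^ n • x) = x
    rw [inv_zpow, smul_inv_smul]
  · rintro ⟨x⟩ ⟨y⟩ h
    obtain ⟨n, hn⟩ := Period.cuspOf_eq_iff.1 h
    refine Quotient.sound ⟨n, ?_⟩
    rw [cosetPerm, ← map_zpow]
    show (T : SL(2, ℤ))⁻¹ ^ n • x = y
    rw [inv_zpow, ← hn, inv_smul_smul]
  · intro c
    obtain ⟨x, rfl⟩ := Period.cuspOf_surjective c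
    exact ⟨⟦x⟧, rfl⟩

omit [NeZero N] in
theorem cosetPerm_pow_eq_one {γ : SL(2, ℤ)} {p : ℕ}
    (h : γ ^ p = -1) : cosetPerm N γ ^ p = 1 := by
  ext x
  rw [cosetPerm, ← map_pow, inv_pow, h, Equiv.Perm.one_apply]
  show (-1 : SL(2, ℤ))⁻¹ • x = x
  rw [inv_smul_eq_iff, Period.neg_one_smul_coset (Period.neg_one_mem_Gamma0 N)]

omit [NeZero N] in
theorem card_fixed_cosetPerm (γ : SL(2, ℤ)) :
    Nat.card {x // cosetPerm N γ x = x} =
      Nat.card {x : SL(2, ℤ) ⧸ Gamma0 N // γ • x = x} :=
  Nat.card_congr (Equiv.subtypeEquivRight fun x => by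
    rw [cosetPerm_apply, inv_smul_eq_iff, eq_comm])

/-- The index of `Γ₀(N)` is `ψ(N)`. -/
theorem card_cosets : Fintype.card (SL(2, ℤ) ⧸ Gamma0 N) = ModularCurve.dedekindPsi N := by
  rw [← Nat.card_eq_fintype_card, ← Subgroup.index_eq_card, Period.index_Gamma0]

/-- Orbits of `S` have length two, except the `ν₂` fixed cosets. -/
theorem two_mul_numOrbits_S : 2 * numOrbits (cosetPerm N S) =
    ModularCurve.dedekindPsi N + ModularCurve.nuTwo N := by
  classical
  rw [prime_mul_numOrbits Nat.prime_two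
    (cosetPerm_pow_eq_one N (by rw [pow_two, Period.S_mul_self])),
    card_fixed_cosetPerm, card_cosets, ← Period.fixTwo_Gamma0 (N := N)]
  simp [Period.fixTwo]

/-- Orbits of `S T` have length three, except the `ν₃` fixed cosets. -/
theorem three_mul_numOrbits_ST : 3 * numOrbits (cosetPerm N (S * T)) =
    ModularCurve.dedekindPsi N + 2 * ModularCurve.nuThree N := by
  classical
  rw [prime_mul_numOrbits Nat.prime_three
    (cosetPerm_pow_eq_one N (by rw [pow_three', ← Period.ellThree_sq_mul]; rfl)),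
    card_fixed_cosetPerm, card_cosets, ← Period.fixThree_Gamma0 (N := N)]
  rfl

/-- The parity in Riemann–Hurwitz: `T * S = S T` as permutations of the cosets. -/
theorem even_sum_orbits : Even (numOrbits (cosetPerm N T) + numOrbits (cosetPerm N S) +
    numOrbits (cosetPerm N (S * T)) + Fintype.card (SL(2, ℤ) ⧸ Gamma0 N)) := by
  classical
  set n := Fintype.card (SL(2, ℤ) ⧸ Gamma0 N)
  have h3 : cosetPerm N (S * T) ^ 3 = 1 :=
    cosetPerm_pow_eq_one N (by rw [pow_three', ← Period.ellThree_sq_mul]; rfl)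
  have hmul : cosetPerm N (S * T) = cosetPerm N T * cosetPerm N S := by
    rw [cosetPerm, cosetPerm, cosetPerm, ← map_mul, mul_inv_rev]
  have hs := congrArg Equiv.Perm.sign h3
  rw [map_pow, map_one, pow_three, Int.units_mul_self, mul_one] at hs
  have h := congrArg Equiv.Perm.sign hmul
  rw [map_mul, hs, sign_eq_neg_one_pow_numOrbits, sign_eq_neg_one_pow_numOrbits, ← pow_add] at h
  have e1 : Even ((n + numOrbits (cosetPerm N T)) + (n + numOrbits (cosetPerm N S))) := by
    rcases Nat.even_or_odd ((n + numOrbits (cosetPerm N T)) + (n + numOrbits (cosetPerm N S)))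
      with he | ho
    · exact he
    · rw [ho.neg_one_pow] at h
      exact absurd h (by decide)
  have e2 : Even (n + numOrbits (cosetPerm N (S * T))) := by
    rcases Nat.even_or_odd (n + numOrbits (cosetPerm N (S * T))) with he | ho
    · exact he
    · rw [sign_eq_neg_one_pow_numOrbits, ho.neg_one_pow] at hs
      exact absurd hs (by decide)
  obtain ⟨u, hu⟩ := e1
  obtain ⟨v, hv⟩ := e2
  exact ⟨u + v - n, by omega⟩

/-- The genus formula is not negative. -/
theorem six_cuspCount_le :
    3 * ModularCurve.nuTwo N + 4 * ModularCurve.nuThree N + 6 * ModularCurve.cuspCount N ≤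
      ModularCurve.dedekindPsi N + 12 := by
  have h := (Period.parabolicHoms_bound (K := ℚ) (Γ := Gamma0 N)
    (Period.neg_one_mem_Gamma0 N)).2
  rw [Period.fixTwo_Gamma0, Period.fixThree_Gamma0, Period.card_cuspSet_Gamma0,
    Period.index_Gamma0] at h
  omega

/-- **Riemann–Hurwitz for `j : X₀(N) → ℙ¹`.** The function field `K(j(τ), j(Nτ))` has genus
`1 + ψ / 12 - ν₂ / 4 - ν₃ / 3 - c / 2`, with `ψ` the index, `ν₂`, `ν₃` the numbers of elliptic
points and `c` the number of cusps. -/
theorem genus_jField [HasCanonicalDivisor (K := K) (F := jField K N)] :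
    (AlgebraicCurve.genus K (jField K N) : ℚ) = ModularCurve.genusFormula N := by
  classical
  have hne : (0 : K) ≠ 1728 := by norm_num
  have htr := transcendental_jElt (K := K) (N := N)
  obtain ⟨W, hW, hdeg⟩ := exists_divisor_D htr ({0, 1728} : Finset K) fun a ha v hv => by
    simp only [Finset.mem_insert, Finset.mem_singleton, not_or] at ha
    exact simple_zero K N ha.1 ha.2 hv
  rw [Finset.card_pair hne, Finset.sum_pair hne, card_zeros_zero, card_zeros_1728, card_poles,
    finrank_jField] at hdeg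
  have hn := card_cosets N
  have h2 := two_mul_numOrbits_S N
  have h3 := three_mul_numOrbits_ST N
  have hT := numOrbits_T N
  have hb := six_cuspCount_le N
  obtain ⟨u, hu⟩ := even_sum_orbits N
  obtain ⟨g, hg⟩ : ∃ g : ℕ, Divisor.degree W = 2 * (g : ℤ) - 2 := by
    refine ⟨(((Fintype.card (SL(2, ℤ) ⧸ Gamma0 N) : ℤ) - u + 1)).toNat, ?_⟩
    rw [hdeg]
    push_cast
    omega
  rw [genus_eq_of_degree htr hW hg]
  rw [hdeg] at hg
  rw [ModularCurve.genusFormula, ← hn, ← hT]
  have h2' : (2 : ℚ) * numOrbits (cosetPerm N S) =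
      Fintype.card (SL(2, ℤ) ⧸ Gamma0 N) + ModularCurve.nuTwo N := by
    rw [hn]; exact_mod_cast h2
  have h3' : (3 : ℚ) * numOrbits (cosetPerm N (S * T)) =
      Fintype.card (SL(2, ℤ) ⧸ Gamma0 N) + 2 * ModularCurve.nuThree N := by
    rw [hn]; exact_mod_cast h3
  have hg' := congrArg (fun z : ℤ => (z : ℚ)) hg
  push_cast at hg'
  linear_combination (-1 / 2 : ℚ) * hg' - (1 / 4 : ℚ) * h2' - (1 / 6 : ℚ) * h3'

open ModularCurve in
/-- The genus of `X₀(N)` is the classical genus formula, for any presentation `F` of its function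
field as `jField K N`. -/
theorem genus_of_eq_jField (F : IntermediateField K (LaurentSeries K)) (hF : F = jField K N)
    [HasCanonicalDivisor (K := K) (F := F)] :
    (AlgebraicCurve.genus K F : ℚ) = genusFormula N := by
  subst hF
  exact genus_jField K N

end FermatAgent.Curve
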