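import Fermat.Agent.Curve.PlaceLemmas

/-!
# Weak approximation for finitely many places
-/

set_option autoImplicit false

noncomputable section

open AlgebraicCurve

namespace FermatAgent.Curve

variable {K F : Type*} [Field K] [Field F] [Algebra K F]

theorem exists_pos_neg {v w : Place K F} (h : v ≠ w) :
    ∃ z : F, z ≠ 0 ∧ 0 < v.ord z ∧ w.ord z < 0 := by
  obtain ⟨f, hf0, hfv, hfw⟩ := exists_ord_nonneg_neg h
  obtain ⟨g, hg0, hgw, hgv⟩ := exists_ord_nonneg_neg h.symm
  refine ⟨f / g, div_ne_zero hf0 hg0, ?_, ?_⟩ <;> rw [ord_div hf0 hg0] <;> omega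

theorem exists_pos_neg_finset (v : Place K F) (S : Finset (Place K F)) (hv : v ∉ S) :
    ∃ u : F, u ≠ 0 ∧ 0 < v.ord u ∧ ∀ w ∈ S, w.ord u < 0 := by
  classical
  induction S using Finset.induction_on with
  | empty =>
    obtain ⟨t, ht, ht1⟩ := exists_ord_eq_one v
    exact ⟨t, ht, by omega, by simp⟩
  | insert w S hwS ih =>
    simp only [Finset.mem_insert, not_or] at hv
    obtain ⟨u, hu0, huv, huS⟩ := ih hv.2
    by_cases huw : w.ord u < 0
    · exact ⟨u, hu0, huv, Finset.forall_mem_insert _ _ _ |>.2 ⟨huw, huS⟩⟩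
    obtain ⟨y, hy0, hyv, hyw⟩ := exists_pos_neg hv.1
    set r : ℕ := ∑ s ∈ S, (s.ord u).natAbs + 1 with hr
    have hyr : y ^ r ≠ 0 := pow_ne_zero _ hy0
    have hwsum : u + y ^ r ≠ 0 ∧ w.ord (u + y ^ r) < 0 := by
      have hlt : w.ord (y ^ r) < 0 := by
        rw [ord_pow]; exact mul_neg_of_pos_of_neg (by omega) hyw
      obtain ⟨h1, h2⟩ := ord_add_eq_of_ordGE (v := w) hyr (g := u) (Or.inr (by omega))
      rw [add_comm] at h1 h2
      exact ⟨h1, h2 ▸ hlt⟩
    refine ⟨u + y ^ r, hwsum.1, ?_, Finset.forall_mem_insert _ _ _ |>.2 ⟨hwsum.2, fun s hs => ?_⟩⟩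
    · have h1 : OrdGE v 1 (u + y ^ r) := OrdGE.add (Or.inr (by omega)) (Or.inr (by
        rw [ord_pow]
        have : (1 : ℤ) ≤ r := by omega
        nlinarith))
      rw [ordGE_iff_le hwsum.1] at h1; omega
    · have hsu := huS s hs
      have hr' : (s.ord u).natAbs < r := by
        have := Finset.single_le_sum (f := fun s => (s.ord u).natAbs) (fun _ _ => Nat.zero_le _) hs
        omega
      rcases lt_trichotomy (s.ord y) 0 with h | h | h
      · have hlt : s.ord (y ^ r) < s.ord u := by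
          rw [ord_pow]
          have : (r : ℤ) * s.ord y ≤ (r : ℤ) * (-1) :=
            mul_le_mul_of_nonneg_left (by omega) (by omega)
          omega
        obtain ⟨-, h2⟩ := ord_add_eq_of_ordGE (v := s) hyr (g := u) (Or.inr (by omega))
        rw [add_comm] at h2
        omega
      · obtain ⟨-, h2⟩ := ord_add_eq_of_ordGE (v := s) hu0 (g := y ^ r)
          (Or.inr (by rw [ord_pow, h, mul_zero]; omega))
        omega
      · obtain ⟨-, h2⟩ := ord_add_eq_of_ordGE (v := s) hu0 (g := y ^ r)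
          (Or.inr (by rw [ord_pow]; nlinarith))
        omega

theorem exists_approx_idempotent (v : Place K F) (S : Finset (Place K F)) (hv : v ∉ S) (N : ℕ) :
    ∃ e : F, OrdGE v N (e - 1) ∧ ∀ w ∈ S, OrdGE w N e := by
  obtain ⟨u, hu0, huv, huS⟩ := exists_pos_neg_finset v S hv
  set M := N + 1 with hMdef
  have hMN : (M : ℤ) = N + 1 := by simp [hMdef]
  have hM : u ^ M ≠ 0 := pow_ne_zero _ hu0
  obtain ⟨h1, h2⟩ := ord_add_eq_of_ordGE (v := v) (one_ne_zero (α := F)) (g := u ^ M)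
    (Or.inr (by rw [Place.ord_one, ord_pow]; nlinarith))
  rw [Place.ord_one] at h2
  refine ⟨(1 + u ^ M)⁻¹, ?_, fun w hw => ?_⟩
  · have : (1 + u ^ M)⁻¹ - 1 = -(u ^ M * (1 + u ^ M)⁻¹) := by field_simp; ring
    rw [this]
    refine OrdGE.neg (Or.inr ?_)
    rw [v.ord_mul hM (inv_ne_zero h1), v.ord_inv, h2, ord_pow]
    nlinarith
  · have hneg := huS w hw
    obtain ⟨-, h4⟩ := ord_add_eq_of_ordGE (v := w) hM (g := (1 : F))
      (Or.inr (by rw [Place.ord_one, ord_pow]; nlinarith))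
    rw [add_comm] at h4
    exact Or.inr (by rw [w.ord_inv, h4, ord_pow]; nlinarith)

/-- Weak approximation. -/
theorem exists_approx (S : Finset (Place K F)) (x : Place K F → F) (N : ℤ) :
    ∃ f : F, ∀ v ∈ S, OrdGE v N (f - x v) := by
  classical
  set B : ℕ := N.natAbs + ∑ v ∈ S, ∑ w ∈ S, (v.ord (x w)).natAbs with hB
  have he : ∀ v : Place K F, ∃ e : F, OrdGE v (B : ℤ) (e - 1) ∧
      ∀ w ∈ S.erase v, OrdGE w (B : ℤ) e :=
    fun v => exists_approx_idempotent v (S.erase v) (Finset.notMem_erase v S) B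
  choose e he1 he2 using he
  refine ⟨∑ w ∈ S, e w * x w, fun v hv => ?_⟩
  have hbound : ∀ w ∈ S, OrdGE v (N - B) (x w) := by
    intro w hw
    refine Or.inr ?_
    have h1 : (v.ord (x w)).natAbs ≤ ∑ v ∈ S, ∑ w ∈ S, (v.ord (x w)).natAbs :=
      (Finset.single_le_sum (f := fun w => (v.ord (x w)).natAbs)
          (fun _ _ => Nat.zero_le _) hw).trans
        (Finset.single_le_sum (f := fun v => ∑ w ∈ S, (v.ord (x w)).natAbs)
          (fun _ _ => Nat.zero_le _) hv)
    omega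
  rw [← Finset.add_sum_erase _ _ hv, add_sub_right_comm]
  refine OrdGE.add ?_ (OrdGE.sum fun w hw => ?_)
  · rw [show e v * x v - x v = (e v - 1) * x v by ring]
    exact ((he1 v).mul (hbound v hv)).mono (by omega)
  · obtain ⟨hwv, hwS⟩ := Finset.mem_erase.1 hw
    exact ((he2 w v (Finset.mem_erase.2 ⟨Ne.symm hwv, hv⟩)).mul (hbound w hwS)).mono (by omega)

end FermatAgent.Curve
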