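import Fermat.Agent.Curve.FunctionField
import Fermat.Agent.Curve.Approximation

/-!
# The inequality `∑ e f ≤ [F' : F]`, finiteness of residue fields, and places of `K(t)`

`sum_ramificationIndex_mul_le` bounds `∑ e f` over any finite set of places above a place by
`[F' : F]`: at each `w`, powers below `e` of a uniformizer times lifts of independent residues,
both chosen small at the other places (`exists_uniformizer_small`, `exists_residue_approx`), are
linearly independent over `F`. In a field generated by one element `g`, a zero of `g` is simple,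
unique and of degree one (`ord_gen_eq_one`, `gen_place_unique`, `gen_place_deg`).
-/

set_option autoImplicit false

noncomputable section

open AlgebraicCurve IntermediateField Polynomial Module

namespace FermatAgent.Curve

variable {K F F' : Type*} [Field K] [Field F] [Field F'] [Algebra K F] [Algebra K F']
  [Algebra F F'] [IsScalarTower K F F'] [Algebra.IsIntegral F F']

/-- The order at `w` of an element from below is at least `e` times a bound at the place below. -/
theorem ordGE_restrict {w : Place K F'} {c : F} {n : ℤ}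
    (hc : OrdGE (w.restrict F) n c) :
    OrdGE w ((w.ramificationIndex F : ℤ) * n) (algebraMap F F' c) := by
  rcases hc with rfl | hc
  · exact Or.inl (map_zero _)
  · exact Or.inr (by rw [w.ord_restrict]; exact mul_le_mul_of_nonneg_left hc (by omega))

theorem mem_of_restrict_eq {w : Place K F'} {v : Place K F} (hw : w.restrict F = v) {c : F}
    (hc : c ∈ v.toValuationSubring) : algebraMap F F' c ∈ w.toValuationSubring := by
  subst hw; exact hc

omit [Algebra F F'] [IsScalarTower K F F'] [Algebra.IsIntegral F F'] in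
/-- A uniformizer at `w` that is small at the other places of a finite set. -/
theorem exists_uniformizer_small (S : Finset (Place K F')) {w : Place K F'} (hw : w ∈ S) {N : ℕ}
    (hN : 2 ≤ N) :
    ∃ t : F', t ≠ 0 ∧ w.ord t = 1 ∧ ∀ s ∈ S, s ≠ w → OrdGE s (N : ℤ) t := by
  classical
  obtain ⟨T, hT0, hT1⟩ := exists_ord_eq_one w
  obtain ⟨t, ht⟩ := exists_approx S (fun s => if s = w then T else 0) (N : ℤ)
  have h := ht w hw
  rw [if_pos rfl] at h
  obtain ⟨h1, h2⟩ := ord_add_eq_of_ordGE (v := w) hT0 (g := t - T)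
    (h.mono (by rw [hT1]; omega))
  rw [add_sub_cancel] at h1 h2
  exact ⟨t, h1, h2.trans hT1, fun s hs hne => by simpa [hne] using ht s hs⟩

/-- Elements with independent residues at `w`, approximated and small at the other places. -/
theorem exists_residue_approx (S : Finset (Place K F')) {w : Place K F'} (hw : w ∈ S) (N : ℕ)
    {f : ℕ} (hf : (f : Cardinal) ≤ Module.rank (w.restrict F).ResidueField w.ResidueField) :
    ∃ (z : Fin f → w.toValuationSubring) (y : Fin f → F'),
      LinearIndependent (w.restrict F).ResidueField (fun b => IsLocalRing.residue _ (z b)) ∧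
        ∀ b, OrdGE w (N : ℤ) (y b - z b) ∧ ∀ s ∈ S, s ≠ w → OrdGE s (N : ℤ) (y b) := by
  classical
  obtain ⟨l, hl⟩ := exists_linearIndependent_of_le_rank hf
  choose z hz using fun b => IsLocalRing.residue_surjective (l b)
  have happ : ∀ b : Fin f, ∃ y : F',
      OrdGE w (N : ℤ) (y - z b) ∧ ∀ s ∈ S, s ≠ w → OrdGE s (N : ℤ) y := by
    intro b
    obtain ⟨y, hy⟩ := exists_approx S (fun s => if s = w then (z b : F') else 0) (N : ℤ)
    exact ⟨y, by simpa using hy w hw, fun s hs hne => by simpa [hne] using hy s hs⟩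
  choose y hy using happ
  exact ⟨z, y, by rwa [show (fun b => IsLocalRing.residue _ (z b)) = l from funext hz], hy⟩

/-- A combination of independent residues with a unit coefficient is a unit. -/
theorem not_ordGE_one_sum {w : Place K F'} {v : Place K F} (hw : w.restrict F = v) {f : ℕ}
    {z : Fin f → w.toValuationSubring}
    (hz : LinearIndependent (w.restrict F).ResidueField (fun b => IsLocalRing.residue _ (z b)))
    {c : Fin f → F} (hc : ∀ b, c b ∈ v.toValuationSubring) {b : Fin f}
    (hb : ¬OrdGE v 1 (c b)) : ¬OrdGE w 1 (∑ b', algebraMap F F' (c b') * z b') := by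
  subst hw
  set U : w.toValuationSubring :=
    ∑ b', (⟨algebraMap F F' (c b'), hc b'⟩ : w.toValuationSubring) * z b' with hU
  intro h
  have h' : OrdGE w 1 (U : F') := by rw [hU]; push_cast; exact h
  rw [← residue_eq_zero_iff, hU, map_sum] at h'
  have hl := Fintype.linearIndependent_iff.1 hz
    (fun b' => IsLocalRing.residue (w.restrict F).toValuationSubring ⟨c b', hc b'⟩) ?_ b
  · rw [residue_eq_zero_iff] at hl
    exact hb hl
  · rw [← h']
    refine Finset.sum_congr rfl fun b' _ => ?_
    rw [map_mul, Algebra.smul_def, Place.algebraMap_residueField_eq,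
      Place.restrictResidueMap_residue]
    rfl

omit [Algebra F F'] [IsScalarTower K F F'] [Algebra.IsIntegral F F'] in
/-- In a vanishing double sum one line is as small as all other terms. -/
theorem ordGE_line_of_sum_eq_zero {ι : Type*} [Fintype ι] {α β : ι → Type*}
    [∀ i, Fintype (α i)] [∀ i, Fintype (β i)] {u : Place K F'} {n : ℤ}
    {x : (Σ i, α i × β i) → F'} (hsum : ∑ p, x p = 0) (i : ι) (a : α i)
    (hline : ∀ a' b, a' ≠ a → OrdGE u n (x ⟨i, (a', b)⟩))
    (hrest : ∀ j p, j ≠ i → OrdGE u n (x ⟨j, p⟩)) : OrdGE u n (∑ b, x ⟨i, (a, b)⟩) := by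
  classical
  rw [Fintype.sum_sigma, ← Finset.add_sum_erase _ _ (Finset.mem_univ i), Fintype.sum_prod_type,
    ← Finset.add_sum_erase _ _ (Finset.mem_univ a), add_assoc, add_eq_zero_iff_eq_neg] at hsum
  rw [hsum]
  exact ((OrdGE.sum fun a' ha => OrdGE.sum fun b _ => hline a' b (Finset.ne_of_mem_erase ha)).add
    (OrdGE.sum fun j hj => OrdGE.sum fun p _ => hrest j p (Finset.ne_of_mem_erase hj))).neg

/-- `∑ e_w f_w ≤ [F' : F]` over places above `v`. -/
theorem sum_ramificationIndex_mul_le [Module.Finite F F'] (v : Place K F)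
    (S : Finset (Place K F')) (hS : ∀ w ∈ S, w.restrict F = v) (f : Place K F' → ℕ)
    (hf : ∀ w ∈ S, (f w : Cardinal) ≤ Module.rank (w.restrict F).ResidueField w.ResidueField) :
    ∑ w ∈ S, w.ramificationIndex F * f w ≤ finrank F F' := by
  classical
  set N : ℕ := ∑ w ∈ S, w.ramificationIndex F + 2 with hNdef
  choose t ht0 ht1 htN using fun w : S => exists_uniformizer_small S w.2 (N := N) (by omega)
  choose z y hz hy using fun w : S => exists_residue_approx (F := F) S w.2 N (hf w.1 w.2)
  let fam : (Σ w : S, Fin (w.1.ramificationIndex F) × Fin (f w.1)) → F' :=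
    fun i => t i.1 ^ (i.2.1 : ℕ) * y i.1 i.2.2
  suffices h : LinearIndependent F fam by
    have := h.fintype_card_le_finrank
    simp only [Fintype.card_sigma, Fintype.card_prod, Fintype.card_fin] at this
    rwa [Finset.univ_eq_attach, Finset.sum_attach S (fun w => w.ramificationIndex F * f w)] at this
  rw [Fintype.linearIndependent_iff]
  intro g hg i₀
  by_contra hi₀
  obtain ⟨i₁, hi₁, hmin⟩ := Finset.exists_min_image (Finset.univ.filter fun i => g i ≠ 0)
    (fun i => v.ord (g i)) ⟨i₀, by simp [hi₀]⟩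
  simp only [Finset.mem_filter, Finset.mem_univ, true_and] at hi₁ hmin
  set c := fun i => g i / g i₁ with hcdef
  have hcmem : ∀ i, c i ∈ v.toValuationSubring := by
    intro i
    by_cases hgi : g i = 0
    · simp [hcdef, hgi]
    · rw [hcdef, mem_iff_ord_nonneg (div_ne_zero hgi hi₁), ord_div hgi hi₁]
      have := hmin i hgi
      omega
  have hc1 : ¬OrdGE v 1 (c i₁) := by simp [hcdef, hi₁, OrdGE]
  have hsum : ∑ i, algebraMap F F' (c i) * fam i = 0 := by
    have : ∑ i, c i • fam i = 0 := by
      rw [show ∑ i, c i • fam i = (g i₁)⁻¹ • ∑ i, g i • fam i by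
        simp [Finset.smul_sum, smul_smul, hcdef, div_eq_inv_mul], hg, smul_zero]
    simpa [Algebra.smul_def] using this
  obtain ⟨⟨w, a₁, b₁⟩, rfl⟩ : ∃ j, j = i₁ := ⟨i₁, rfl⟩
  -- least exponent with a coefficient that is a unit at `w`
  obtain ⟨⟨a, b⟩, hab, hamin⟩ := Finset.exists_min_image
    ((Finset.univ : Finset (Fin (w.1.ramificationIndex F) × Fin (f w.1))).filter
      fun p => ¬OrdGE v 1 (c ⟨w, p⟩)) (fun p => (p.1 : ℕ)) ⟨(a₁, b₁), by simp [hc1]⟩
  simp only [Finset.mem_filter, Finset.mem_univ, true_and] at hab hamin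
  have hwv : w.1.restrict F = v := hS _ w.2
  set A : ℤ := ((a : ℕ) : ℤ) with hA
  have hAe : A + 1 ≤ (w.1.ramificationIndex F : ℤ) := by have := a.2; omega
  have hAN : A + 1 ≤ (N : ℤ) := by
    have := Finset.single_le_sum (f := fun w : Place K F' => w.ramificationIndex F)
      (fun _ _ => Nat.zero_le _) w.2
    omega
  have hcge : ∀ i, OrdGE w.1 0 (algebraMap F F' (c i)) := fun i =>
    mem_iff_ordGE.1 (mem_of_restrict_eq hwv (hcmem i))
  have hyw : ∀ b', OrdGE w.1 0 (y w b') := fun b' => by
    simpa using ((hy w b').1.mono (show (0 : ℤ) ≤ N by omega)).add (mem_iff_ordGE.1 (z w b').2)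
  have htge : ∀ k : ℕ, OrdGE w.1 (k : ℤ) (t w ^ k) := fun k =>
    Or.inr (by rw [ord_pow, ht1, mul_one])
  have hlead : OrdGE w.1 (A + 1) (∑ b', algebraMap F F' (c ⟨w, (a, b')⟩) * fam ⟨w, (a, b')⟩) := by
    refine ordGE_line_of_sum_eq_zero hsum w a (fun a' b' hne => ?_) fun s ⟨a', b'⟩ hsw => ?_
    · by_cases hc : OrdGE v 1 (c ⟨w, (a', b')⟩)
      · have h1 := ordGE_restrict (w := w.1) (c := c ⟨w, (a', b')⟩) (n := 1)
          (by rw [hwv]; exact hc)
        rw [mul_one] at h1
        exact (h1.mul ((htge _).mul (hyw b'))).mono (by omega)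
      · have h1 := hamin (a', b') hc
        have h2 : (a : ℕ) < a' := lt_of_le_of_ne h1 fun he => hne (Fin.ext he.symm)
        exact ((hcge _).mul ((htge _).mul (hyw b'))).mono (by simp only [hA]; omega)
    · have hsw' : w.1 ≠ s.1 := fun h => hsw (Subtype.ext h.symm)
      exact ((hcge _).mul ((((htN s) _ w.2 hsw').pow _).mul ((hy s b').2 _ w.2 hsw'))).mono
        (by nlinarith)
  have happrox : OrdGE w.1 (A + 1) (t w ^ (a : ℕ) *
      ∑ b', algebraMap F F' (c ⟨w, (a, b')⟩) * (y w b' - z w b')) :=
    ((htge a).mul (OrdGE.sum fun b' _ => (hcge _).mul (hy w b').1)).mono (by omega)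
  set U := ∑ b', algebraMap F F' (c ⟨w, (a, b')⟩) * (z w b' : F') with hU
  have h2 : OrdGE w.1 (A + 1) (t w ^ (a : ℕ) * U) := by
    convert hlead.sub happrox using 1
    rw [hU, Finset.mul_sum, Finset.mul_sum, ← Finset.sum_sub_distrib]
    exact Finset.sum_congr rfl fun b' _ => by simp only [fam]; ring
  refine not_ordGE_one_sum hwv (hz w) (fun b' => hcmem ⟨w, (a, b')⟩) hab ?_
  show OrdGE w.1 1 U
  rcases h2 with h2 | h2
  · exact Or.inl ((mul_eq_zero.1 h2).resolve_left (pow_ne_zero _ (ht0 w)))
  · by_cases hU0 : U = 0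
    · exact Or.inl hU0
    · rw [w.1.ord_mul (pow_ne_zero _ (ht0 w)) hU0, ord_pow, ht1, mul_one] at h2
      exact Or.inr (by omega)

omit [Algebra F F'] in
/-- A polynomial in `g` is a unit times the power of `g` given by its multiplicity at `0`. -/
theorem exists_aeval_eq_pow_mul {g : F} {v : Place K F} (hv : 0 < v.ord g) {p : K[X]}
    (hp : aeval g p ≠ 0) : ∃ (a : K) (u : F), a ≠ 0 ∧ u ≠ 0 ∧
      aeval g p = g ^ p.rootMultiplicity 0 * u ∧ OrdGE v 1 (u - algebraMap K F a) ∧
      v.ord u = 0 := by
  have hp0 : p ≠ 0 := by rintro rfl; simp at hp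
  obtain ⟨q, hpq, hq⟩ := p.exists_eq_pow_rootMultiplicity_mul_and_not_dvd hp0 0
  rw [map_zero, sub_zero] at hq hpq
  rw [X_dvd_iff] at hq
  have hev : aeval g q = algebraMap K F (q.coeff 0) + g * aeval g q.divX := by
    conv_lhs => rw [← X_mul_divX_add q]
    rw [map_add, map_mul, aeval_X, aeval_C, add_comm]
  have hdiv : OrdGE v 0 (aeval g q.divX) := by
    induction q.divX using Polynomial.induction_on' with
    | add p q hp hq => rw [map_add]; exact hp.add hq
    | monomial n a =>
      rw [aeval_monomial]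
      exact ((ordGE_algebraMap a).mul (Or.inr (by rw [ord_pow]; positivity))).mono
        (le_of_eq (add_zero 0).symm)
  have hsmall : OrdGE v 1 (g * aeval g q.divX) :=
    ((ordGE_self g).mul hdiv).mono (by omega)
  obtain ⟨h1, h2⟩ := ord_add_eq_of_ordGE ((_root_.map_ne_zero (algebraMap K F)).2 hq)
    (g := g * aeval g q.divX) (by rw [ord_algebraMap hq, zero_add]; exact hsmall)
  refine ⟨q.coeff 0, aeval g q, hq, hev ▸ h1, ?_, ?_, ?_⟩
  · conv_lhs => rw [hpq]
    rw [map_mul, map_pow, aeval_X]
  · rw [hev, add_sub_cancel_left]; exact hsmall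
  · rw [hev, h2, ord_algebraMap hq]

omit [Algebra F F'] in
/-- In a field generated by an element `g`, a place where `g` vanishes is given by the order at
`g = 0`. -/
theorem exists_pow_mul_unit {g : F}
    (hgen : ∀ e : F, ∃ p q : K[X], e = aeval g p / aeval g q) {v : Place K F} (hv : 0 < v.ord g)
    {e : F} (he : e ≠ 0) : ∃ (m : ℤ) (a : K) (u : F), a ≠ 0 ∧
      e = g ^ m * u ∧ OrdGE v 1 (u - algebraMap K F a) ∧ v.ord e = m * v.ord g := by
  obtain ⟨p, q, rfl⟩ := hgen e
  have hg0 : g ≠ 0 := fun h => by simp [h] at hv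
  simp only [ne_eq, div_eq_zero_iff, not_or] at he
  obtain ⟨a, u, ha, hu0, hpu, hua, huo⟩ := exists_aeval_eq_pow_mul hv he.1
  obtain ⟨a', u', ha', hu0', hpu', hua', huo'⟩ := exists_aeval_eq_pow_mul hv he.2
  refine ⟨(p.rootMultiplicity 0 : ℤ) - q.rootMultiplicity 0, a / a', u / u', div_ne_zero ha ha',
    ?_, ?_, ?_⟩
  · rw [hpu, hpu', zpow_sub₀ hg0, zpow_natCast, zpow_natCast, mul_div_mul_comm]
  · have ha'F : algebraMap K F a' ≠ 0 := (_root_.map_ne_zero (algebraMap K F)).2 ha'
    have heq : u / u' - algebraMap K F (a / a') =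
        ((u - algebraMap K F a) * algebraMap K F a' - algebraMap K F a * (u' - algebraMap K F a'))
          * (u' * algebraMap K F a')⁻¹ := by
      rw [map_div₀]; field_simp; ring
    rw [heq]
    refine (((hua.mul (ordGE_algebraMap a')).mono (m := 1) (by simp)).sub
      (((ordGE_algebraMap a).mul hua').mono (m := 1) (by simp))).mul (m := 0)
      (Or.inr (by rw [v.ord_inv, v.ord_mul hu0' ha'F, huo', ord_algebraMap ha']; simp)) |>.mono
      (by simp)
  · rw [ord_div he.1 he.2, hpu, hpu', v.ord_mul (pow_ne_zero _ hg0) hu0,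
      v.ord_mul (pow_ne_zero _ hg0) hu0', huo, huo', ord_pow, ord_pow]
    ring

/-- In a field generated by one element `g`, a zero of `g` is simple. -/
theorem ord_gen_eq_one {g : F}
    (hgen : ∀ e : F, ∃ p q : K[X], e = aeval g p / aeval g q) {v : Place K F}
    (hv : 0 < v.ord g) : v.ord g = 1 := by
  obtain ⟨π, hπ0, hπ⟩ := exists_ord_eq_one v
  obtain ⟨m, a, u, -, -, -, hm⟩ := exists_pow_mul_unit hgen hv hπ0
  rw [hπ] at hm
  rcases Int.eq_one_or_neg_one_of_mul_eq_one' hm.symm with h | h <;> omega

/-- In a field generated by one element `g`, `g` has at most one zero. -/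
theorem gen_place_unique {g : F}
    (hgen : ∀ e : F, ∃ p q : K[X], e = aeval g p / aeval g q) {v w : Place K F}
    (hv : 0 < v.ord g) (hw : 0 < w.ord g) : v = w := by
  refine eq_of_forall_ord_nonneg fun e he h0 => ?_
  obtain ⟨m, a, u, ha, hemu, hua, hm⟩ := exists_pow_mul_unit hgen hv he
  obtain ⟨m', a', u', ha', hemu', hua', hm'⟩ := exists_pow_mul_unit hgen hw he
  rw [hm] at h0
  rw [hm', ord_gen_eq_one hgen hw, mul_one]
  rw [ord_gen_eq_one hgen hv, mul_one] at h0
  by_contra hlt
  push Not at hlt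
  -- then `e⁻¹` vanishes at `w`; compare through a polynomial identity
  obtain ⟨p, q, rfl⟩ := hgen e
  have hg0 : g ≠ 0 := fun h => by simp [h] at hv
  have same : ∀ p : K[X], aeval g p ≠ 0 → v.ord (aeval g p) = w.ord (aeval g p) := by
    intro p hp
    have h1 : ∀ u : Place K F, 0 < u.ord g → u.ord (aeval g p) = p.rootMultiplicity 0 := by
      intro u hu
      obtain ⟨c, e, -, he0, heq, -, heo⟩ := exists_aeval_eq_pow_mul hu hp
      rw [heq, u.ord_mul (pow_ne_zero _ hg0) he0, heo, ord_pow, ord_gen_eq_one hgen hu, mul_one,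
        add_zero]
    rw [h1 v hv, h1 w hw]
  simp only [ne_eq, div_eq_zero_iff, not_or] at he
  have h3 : v.ord (aeval g p / aeval g q) = w.ord (aeval g p / aeval g q) := by
    rw [ord_div he.1 he.2, ord_div he.1 he.2, same p he.1, same q he.2]
  rw [hm, hm', ord_gen_eq_one hgen hv, ord_gen_eq_one hgen hw] at h3
  omega

/-- In a field generated by one element `g`, the zero of `g` has degree one. -/
theorem gen_place_deg {g : F}
    (hgen : ∀ e : F, ∃ p q : K[X], e = aeval g p / aeval g q) {v : Place K F}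
    (hv : 0 < v.ord g) : v.deg = 1 ∧ Module.Finite K v.ResidueField := by
  have hsurj : Function.Surjective (algebraMap K v.ResidueField) := by
    intro r
    obtain ⟨⟨e, he⟩, rfl⟩ := IsLocalRing.residue_surjective r
    by_cases h1 : OrdGE v 1 e
    · exact ⟨0, by rw [map_zero, eq_comm, residue_eq_zero_iff]; exact h1⟩
    have he0 : e ≠ 0 := fun h => h1 (Or.inl h)
    obtain ⟨m, a, u, ha, hemu, hua, hm⟩ := exists_pow_mul_unit hgen hv he0
    have hnn := (mem_iff_ord_nonneg he0).1 he
    have hzero : m = 0 := by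
      simp only [OrdGE, he0, false_or] at h1
      rw [hm, ord_gen_eq_one hgen hv] at h1 hnn
      omega
    subst hzero
    rw [zpow_zero, one_mul] at hemu
    refine ⟨a, ?_⟩
    show IsLocalRing.residue _ (algebraMap K v.toValuationSubring a) = _
    rw [← sub_eq_zero, ← map_sub, residue_eq_zero_iff]
    have hd := hua.neg
    rw [← hemu, neg_sub] at hd
    exact hd
  refine ⟨?_, Module.Finite.of_surjective (Algebra.linearMap K v.ResidueField) hsurj⟩
  show finrank K v.ResidueField = 1
  have e := LinearEquiv.ofBijective (Algebra.linearMap K v.ResidueField)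
    ⟨(algebraMap K v.ResidueField).injective, hsurj⟩
  rw [← e.finrank_eq, finrank_self]

/-- Elements of `K(x)` are quotients of polynomials in `x`. -/
theorem gen_adjoinSimple (x : F) (e : K⟮x⟯) :
    ∃ p q : K[X], e = aeval (AdjoinSimple.gen K x) p / aeval (AdjoinSimple.gen K x) q := by
  obtain ⟨p, q, hpq⟩ := (mem_adjoin_simple_iff K _).1 e.2
  refine ⟨p, q, Subtype.ext ?_⟩
  rw [hpq]
  push_cast
  simp

end FermatAgent.Curve
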