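import Fermat.Agent.Curve.Inequality
import Fermat.Prelude.Def_AlgebraicCurve_Repartitions

/-!
# Degree of zeros and poles equals `[F : K(x)]`; principal divisors

Residue fields of places are finite over `K` (`finite_residueField`), an element has finitely many
zeros and poles (`finite_ord_ne_zero`), and the zeros of a transcendental `x`, with multiplicity
and degree, number at most `[F : K(x)]` (`sum_ord_mul_deg_le`). Riemann–Roch spaces of effective
divisors have dimension at most the degree plus a constant (`exists_riemannRochSpace_bound`), and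
grow at the rate `[F : K(x)]` along the pole divisor of `x` (`exists_riemannRochSpace_ge`).
Comparing the two gives equality (`sum_zeros_eq_finrank`), so principal divisors have degree zero
(`degree_divisorOf`).
-/

set_option autoImplicit false

noncomputable section

open AlgebraicCurve IntermediateField Polynomial Module

namespace FermatAgent.Curve

variable {K F : Type*} [Field K] [Field F] [Algebra K F]

theorem ord_algebraMap_gen (v : Place K F) (x : F) :
    v.ord (algebraMap K⟮x⟯ F (AdjoinSimple.gen K x)) = v.ord x := rfl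

theorem transcendental_gen {x : F} (hx : Transcendental K x) :
    Transcendental K (AdjoinSimple.gen K x) :=
  (transcendental_algebraMap_iff (A := F) (algebraMap K⟮x⟯ F).injective).1 hx

variable [IsFF K F]

/-- Residue fields of places are finite over `K`. -/
theorem finite_residueField (v : Place K F) : Module.Finite K v.ResidueField := by
  obtain ⟨t, -, ht⟩ := exists_ord_eq_one v
  have htr : Transcendental K t := transcendental_of_ord_ne_zero (v := v) (by omega)
  have := IsFF.finite_adjoin (F := F) htr
  have hpos : 0 < (v.restrict K⟮t⟯).ord (AdjoinSimple.gen K t) := by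
    have h := v.ord_restrict (F := K⟮t⟯) (AdjoinSimple.gen K t)
    rw [ord_algebraMap_gen, ht] at h
    by_contra hle
    push Not at hle
    nlinarith
  have := (gen_place_deg (gen_adjoinSimple t) hpos).2
  have : Module.Finite (v.restrict K⟮t⟯).ResidueField v.ResidueField := by
    by_contra hinf
    have hrank : (((finrank K⟮t⟯ F + 1 : ℕ) : Cardinal)) ≤
        Module.rank (v.restrict K⟮t⟯).ResidueField v.ResidueField :=
      Cardinal.natCast_le_aleph0.trans (not_lt.1 fun h => hinf (Module.rank_lt_aleph0_iff.1 h))
    have h := sum_ramificationIndex_mul_le (v.restrict K⟮t⟯) {v} (by simp)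
      (fun _ => finrank K⟮t⟯ F + 1) (by simpa using hrank)
    rw [Finset.sum_singleton] at h
    have h2 := v.ramificationIndex_pos (F := K⟮t⟯)
    nlinarith
  exact Module.Finite.trans (v.restrict K⟮t⟯).ResidueField v.ResidueField

/-- Every place has positive degree. -/
theorem deg_pos (v : Place K F) : 0 < v.deg := by
  have := finite_residueField v
  exact Module.finrank_pos

/-- `∑ ord(x) deg ≤ [F : K(x)]` over any finite set of zeros of `x`. -/
theorem sum_ord_mul_deg_le {x : F} (hx : Transcendental K x) (S : Finset (Place K F))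
    (hS : ∀ v ∈ S, 0 < v.ord x) :
    ∑ v ∈ S, (v.ord x).toNat * v.deg ≤ finrank K⟮x⟯ F := by
  rcases S.eq_empty_or_nonempty with rfl | ⟨v₁, hv₁⟩
  · simp
  have := IsFF.finite_adjoin (F := F) hx
  have hpos : ∀ v ∈ S, 0 < (v.restrict K⟮x⟯).ord (AdjoinSimple.gen K x) := by
    intro v hv
    have h := v.ord_restrict (F := K⟮x⟯) (AdjoinSimple.gen K x)
    rw [ord_algebraMap_gen] at h
    have := hS v hv
    by_contra hle
    push Not at hle
    nlinarith
  have heq : ∀ v ∈ S, v.restrict K⟮x⟯ = v₁.restrict K⟮x⟯ := fun v hv =>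
    gen_place_unique (gen_adjoinSimple x) (hpos v hv) (hpos v₁ hv₁)
  have hf : ∀ v ∈ S, (v.deg : Cardinal) ≤
      Module.rank (v.restrict K⟮x⟯).ResidueField v.ResidueField := by
    intro v hv
    have := finite_residueField v
    have : Module.Finite (v.restrict K⟮x⟯).ResidueField v.ResidueField :=
      Module.Finite.of_restrictScalars_finite K _ _
    rw [← Module.finrank_eq_rank, ← v.deg_restrict_mul_inertiaDeg (F := K⟮x⟯),
      (gen_place_deg (gen_adjoinSimple x) (hpos v hv)).1, one_mul]
    rfl
  refine le_trans (le_of_eq (Finset.sum_congr rfl fun v hv => ?_))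
    (sum_ramificationIndex_mul_le _ S heq (fun v => v.deg) hf)
  have h := v.ord_restrict (F := K⟮x⟯) (AdjoinSimple.gen K x)
  rw [ord_algebraMap_gen, ord_gen_eq_one (gen_adjoinSimple x) (hpos v hv), mul_one] at h
  rw [h, Int.toNat_natCast]

/-- An element has only finitely many zeros. -/
theorem finite_ord_pos (x : F) : {v : Place K F | 0 < v.ord x}.Finite := by
  by_cases hx : Transcendental K x
  · by_contra hinf
    obtain ⟨S, hS, hcard⟩ := Set.Infinite.exists_subset_card_eq hinf (finrank K⟮x⟯ F + 1)
    have h := sum_ord_mul_deg_le hx S fun v hv => hS hv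
    have : S.card ≤ ∑ v ∈ S, (v.ord x).toNat * v.deg := by
      rw [Finset.card_eq_sum_ones]
      refine Finset.sum_le_sum fun v hv => ?_
      have h1 : 0 < v.ord x := hS hv
      exact Nat.one_le_iff_ne_zero.2 (Nat.mul_ne_zero (by omega) (deg_pos v).ne')
    omega
  · convert Set.finite_empty
    ext v
    simp only [Set.mem_ofPred_eq, Set.mem_empty_iff_false, iff_false, not_lt]
    by_contra h
    exact hx (transcendental_of_ord_ne_zero (v := v) (by omega))

/-- An element has nonzero order at only finitely many places. -/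
theorem finite_ord_ne_zero (x : F) : {v : Place K F | v.ord x ≠ 0}.Finite := by
  refine ((finite_ord_pos x).union (finite_ord_pos x⁻¹)).subset fun v hv => ?_
  simp only [Set.mem_union, Set.mem_ofPred_eq, Place.ord_inv] at *
  omega

/-- The divisor `(ord_v x)_v`. -/
def divisorOf (x : F) : Divisor K F :=
  Finsupp.ofSupportFinite (fun v => v.ord x) (finite_ord_ne_zero x)

/-- The coefficient of `div x` at `v` is `ord_v x`. -/
@[simp] theorem divisorOf_apply (x : F) (v : Place K F) : divisorOf x v = v.ord x := rfl

/-- The divisor of a product is the sum of the divisors. -/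
theorem divisorOf_mul {x y : F} (hx : x ≠ 0) (hy : y ≠ 0) :
    (divisorOf (x * y) : Divisor K F) = divisorOf x + divisorOf y :=
  Finsupp.ext fun v => by simp [v.ord_mul hx hy]

/-! ### Growth of Riemann–Roch spaces -/

omit [IsFF K F] in
/-- `f ∈ L(D)` iff `ord_v f ≥ -D(v)` at every place, with `0` allowed. -/
theorem mem_riemannRochSpace {D : Divisor K F} {f : F} :
    f ∈ riemannRochSpace D ↔ ∀ v, OrdGE v (-D v) f := mem_riemannRochSpace_iff

theorem eq_zero_of_forall_ordGE_zero_of_pos {f : F} (h : ∀ v : Place K F, OrdGE v 0 f)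
    {v₀ : Place K F} (h0 : OrdGE v₀ 1 f) : f = 0 := by
  by_contra hf
  have h1 : 1 ≤ v₀.ord f := (ordGE_iff_le hf).1 h0
  have htr : Transcendental K f⁻¹ :=
    transcendental_of_ord_ne_zero (v := v₀) (by rw [Place.ord_inv]; omega)
  obtain ⟨w, hw⟩ := exists_place_ord_pos htr
  rw [Place.ord_inv] at hw
  have := (ordGE_iff_le hf).1 (h w)
  omega

/-- Adding a place `v` to `D` raises `ℓ(D)` by at most `deg v`. -/
theorem riemannRochSpace_step (D : Divisor K F) (v : Place K F)
    [Module.Finite K (riemannRochSpace D)] :
    Module.Finite K (riemannRochSpace (D + Finsupp.single v 1)) ∧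
      finrank K (riemannRochSpace (D + Finsupp.single v 1)) ≤
        finrank K (riemannRochSpace D) + v.deg := by
  classical
  have := finite_residueField v
  obtain ⟨t, ht0, ht⟩ := exists_ord_eq v (D v + 1)
  have hmem : ∀ f : riemannRochSpace (D + Finsupp.single v 1),
      t * (f : F) ∈ v.toValuationSubring := by
    intro f
    have h := mem_riemannRochSpace.1 f.2 v
    simp only [Finsupp.add_apply, Finsupp.single_eq_same] at h
    exact (((ordGE_self (v := v) t).mul h)).mem (by omega)
  let φ : riemannRochSpace (D + Finsupp.single v 1) →ₗ[K] v.ResidueField :=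
    { toFun := fun f => IsLocalRing.residue _ ⟨t * (f : F), hmem f⟩
      map_add' := fun f g => by
        rw [← map_add]; congr 1; exact Subtype.ext (mul_add t (f : F) (g : F))
      map_smul' := fun a f => by
        rw [RingHom.id_apply, Algebra.smul_def a (IsLocalRing.residue _ _),
          IsScalarTower.algebraMap_apply K v.toValuationSubring v.ResidueField]
        erw [← map_mul]
        congr 1
        refine Subtype.ext ?_
        show t * (a • (f : F)) = algebraMap K F a * (t * (f : F))
        rw [Algebra.smul_def]; ring }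
  have hker : LinearMap.ker φ =
      (riemannRochSpace D).comap (riemannRochSpace (D + Finsupp.single v 1)).subtype := by
    ext f
    rw [LinearMap.mem_ker, Submodule.mem_comap, Submodule.subtype_apply, mem_riemannRochSpace]
    show IsLocalRing.residue _ _ = 0 ↔ _
    rw [residue_eq_zero_iff]
    have hf := mem_riemannRochSpace.1 f.2
    constructor
    · intro h w
      by_cases hw : w = v
      · subst hw
        rcases eq_or_ne (f : F) 0 with h0 | h0
        · exact Or.inl h0
        · rw [ordGE_iff_le (mul_ne_zero ht0 h0), w.ord_mul ht0 h0, ht] at h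
          exact Or.inr (by omega)
      · simpa [Finsupp.single_eq_of_ne hw] using hf w
    · intro h
      exact ((ordGE_self (v := v) t).mul (h v)).mono (by omega)
  have hle : riemannRochSpace D ≤ riemannRochSpace (D + Finsupp.single v 1) := by
    intro f hf
    rw [mem_riemannRochSpace] at *
    intro w
    refine (hf w).mono ?_
    simp only [Finsupp.add_apply, Finsupp.single_apply]
    split_ifs <;> omega
  let e := Submodule.comapSubtypeEquivOfLe hle
  have : Module.Finite K (LinearMap.ker φ) := by
    rw [hker]; exact Module.Finite.equiv e.symm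
  have : Module.Finite K (↥(riemannRochSpace (D + Finsupp.single v 1)) ⧸ LinearMap.ker φ) :=
    Module.Finite.equiv φ.quotKerEquivRange.symm
  have hfin : Module.Finite K (riemannRochSpace (D + Finsupp.single v 1)) :=
    Module.Finite.of_submodule_quotient (LinearMap.ker φ)
  refine ⟨hfin, ?_⟩
  rw [← LinearMap.finrank_range_add_finrank_ker φ, hker, e.finrank_eq, add_comm]
  exact Nat.add_le_add_left (Submodule.finrank_le _) _

theorem riemannRochSpace_neg_single (v : Place K F) :
    riemannRochSpace (-Finsupp.single v 1) = ⊥ := by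
  rw [eq_bot_iff]
  intro f hf
  rw [mem_riemannRochSpace] at hf
  refine eq_zero_of_forall_ordGE_zero_of_pos (fun w => (hf w).mono ?_) (v₀ := v)
    ((hf v).mono (by simp))
  classical
  simp only [Finsupp.neg_apply, neg_neg, Finsupp.single_apply]
  split_ifs <;> omega

/-- `ℓ(D)` is finite and bounded by `deg D + const` for effective `D`. -/
theorem exists_riemannRochSpace_bound : ∃ c : ℕ, ∀ D : Divisor K F, 0 ≤ D →
    Module.Finite K (riemannRochSpace D) ∧
      (finrank K (riemannRochSpace D) : ℤ) ≤ Divisor.degree D + c := by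
  classical
  obtain ⟨v₀⟩ := exists_place (K := K) (F := F)
  have h0 : Module.Finite K (riemannRochSpace (-Finsupp.single v₀ 1)) := by
    rw [riemannRochSpace_neg_single]; infer_instance
  have hbot : finrank K (riemannRochSpace (-Finsupp.single v₀ 1)) = 0 := by
    rw [riemannRochSpace_neg_single, finrank_bot]
  obtain ⟨hf0, hd0⟩ := riemannRochSpace_step (-Finsupp.single v₀ 1) v₀
  rw [hbot, zero_add] at hd0
  rw [neg_add_cancel] at hd0 hf0
  refine ⟨v₀.deg, ?_⟩
  suffices h : ∀ (n : ℕ) (D : Divisor K F), 0 ≤ D → (∑ v ∈ D.support, (D v).toNat) = n →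
      Module.Finite K (riemannRochSpace D) ∧
        (finrank K (riemannRochSpace D) : ℤ) ≤ Divisor.degree D + v₀.deg from
    fun D hD => h _ D hD rfl
  intro n
  induction n with
  | zero =>
    intro D hD hsum
    obtain rfl : D = 0 := Finsupp.ext fun v => by
      have h1 : 0 ≤ D v := hD v
      by_contra hv
      rw [Finset.sum_eq_zero_iff] at hsum
      have := hsum v (Finsupp.mem_support_iff.2 hv)
      simp at hv
      omega
    refine ⟨hf0, ?_⟩
    rw [map_zero, zero_add]
    exact_mod_cast hd0
  | succ n ih =>
    intro D hD hsum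
    obtain ⟨v, hv⟩ : D.support.Nonempty := by
      rw [Finset.nonempty_iff_ne_empty]; intro h; simp [h] at hsum
    have hv' : 0 < D v := lt_of_le_of_ne (hD v) (Ne.symm (Finsupp.mem_support_iff.1 hv))
    set D' := D - Finsupp.single v 1 with hD'def
    have hD' : 0 ≤ D' := fun w => by
      have h1 : 0 ≤ D w := hD w
      simp only [hD'def, Finsupp.sub_apply, Finsupp.single_apply, Finsupp.zero_apply]
      split_ifs with h
      · subst h; omega
      · omega
    have hsum' : ∑ w ∈ D'.support, (D' w).toNat = n := by
      have h1 : ∑ w ∈ D'.support, (D' w).toNat = ∑ w ∈ D.support, (D' w).toNat := by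
        refine Finset.sum_subset (fun w hw => ?_) (fun w _ hw => ?_)
        · rw [Finsupp.mem_support_iff] at hw ⊢
          intro h
          apply hw
          have h2 : 0 ≤ D' w := hD' w
          simp only [hD'def, Finsupp.sub_apply, Finsupp.single_apply] at h2 ⊢
          split_ifs at h2 ⊢ <;> omega
        · simp [Finsupp.notMem_support_iff.1 hw]
      have h2 : ∑ w ∈ D.support.erase v, (D' w).toNat = ∑ w ∈ D.support.erase v, (D w).toNat :=
        Finset.sum_congr rfl fun w hw => by
          simp [hD'def, (Finset.mem_erase.1 hw).1]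
      rw [h1, ← Finset.add_sum_erase _ _ hv, h2]
      rw [← Finset.add_sum_erase _ _ hv] at hsum
      simp only [hD'def, Finsupp.sub_apply, Finsupp.single_eq_same]
      omega
    obtain ⟨hfin, hle⟩ := ih D' hD' hsum'
    obtain ⟨hfin', hle'⟩ := riemannRochSpace_step D' v
    have hDD : D' + Finsupp.single v 1 = D := sub_add_cancel _ _
    rw [hDD] at hfin' hle'
    refine ⟨hfin', ?_⟩
    rw [← hDD, map_add, Divisor.degree_single, hDD, one_mul]
    have := Int.ofNat_le.2 hle'
    push_cast at this
    linarith

/-- Some nonzero polynomial in `x` multiplies `y` to have poles only at poles of `x`. -/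
theorem exists_mul_regular {x : F} (hx : Transcendental K x) (y : F) :
    ∃ p : K[X], p ≠ 0 ∧ ∀ v : Place K F, 0 ≤ v.ord x → OrdGE v 0 (aeval x p * y) := by
  classical
  have hx0 : x ≠ 0 := fun h => hx (h ▸ isAlgebraic_zero)
  set B := ((finite_ord_pos (K := K) y⁻¹).toFinset).filter fun v => 0 ≤ v.ord x with hB
  have hp : ∀ v : Place K F, ∃ p : K[X], p ≠ 0 ∧ (0 ≤ v.ord x → OrdGE v 1 (aeval x p)) := by
    intro v
    by_cases h : 0 ≤ v.ord x
    · have := finite_residueField v
      let xv : v.toValuationSubring := ⟨x, (mem_iff_ord_nonneg hx0).2 h⟩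
      have hint : IsIntegral K (IsLocalRing.residue _ xv) := IsIntegral.of_finite K _
      refine ⟨minpoly K (IsLocalRing.residue _ xv), minpoly.ne_zero hint, fun _ => ?_⟩
      have h0 : IsLocalRing.residue _ (aeval xv (minpoly K (IsLocalRing.residue _ xv))) = 0 := by
        rw [← IsLocalRing.ResidueField.algebraMap_eq, ← aeval_algebraMap_apply,
          IsLocalRing.ResidueField.algebraMap_eq, minpoly.aeval]
      rw [residue_eq_zero_iff] at h0
      have h1 := aeval_algebraMap_apply (A := v.toValuationSubring) F xv
        (minpoly K (IsLocalRing.residue _ xv))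
      exact h1.symm ▸ h0
    · exact ⟨1, one_ne_zero, fun h' => absurd h' h⟩
  choose p hp0 hp using hp
  refine ⟨∏ v ∈ B, p v ^ (v.ord y).natAbs,
    Finset.prod_ne_zero_iff.2 fun v _ => pow_ne_zero _ (hp0 v), fun v hv => ?_⟩
  have hpol : ∀ q : K[X], OrdGE v 0 (aeval x q) := fun q => by
    induction q using Polynomial.induction_on' with
    | add p q hp hq => rw [map_add]; exact hp.add hq
    | monomial n a =>
      rw [aeval_monomial]
      exact ((ordGE_algebraMap a).mul (Or.inr (by rw [ord_pow]; positivity))).mono
        (le_of_eq (add_zero 0).symm)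
  rcases eq_or_ne y 0 with rfl | hy
  · exact Or.inl (mul_zero _)
  by_cases hyv : 0 ≤ v.ord y
  · exact ((hpol _).mul (ordGE_self y)).mono (by omega)
  have hvB : v ∈ B := by
    simp only [hB, Finset.mem_filter, Set.Finite.mem_toFinset, Set.mem_ofPred_eq, Place.ord_inv]
    exact ⟨by omega, hv⟩
  rw [← Finset.mul_prod_erase _ _ hvB, map_mul, map_pow]
  exact (((hp v hv).pow _).mul (hpol _)).mul (ordGE_self y) |>.mono (by omega)

/-- The pole divisor of `x`. -/
def poleDivisor (x : F) : Divisor K F :=
  ∑ v ∈ (finite_ord_pos (K := K) x⁻¹).toFinset, Finsupp.single v (-v.ord x)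

/-- Riemann–Roch spaces of multiples of a pole divisor grow at the rate of the degree. -/
theorem exists_riemannRochSpace_ge {x : F} (hx : Transcendental K x) :
    ∃ C : Divisor K F, 0 ≤ C ∧ ∀ k : ℕ,
      Module.Finite K (riemannRochSpace ((k : ℤ) • poleDivisor x + C)) ∧
      finrank K⟮x⟯ F * (k + 1) ≤ finrank K (riemannRochSpace ((k : ℤ) • poleDivisor x + C)) := by
  classical
  have := IsFF.finite_adjoin (F := F) hx
  have hx0 : x ≠ 0 := fun h => hx (h ▸ isAlgebraic_zero)
  set B := (finite_ord_pos (K := K) x⁻¹).toFinset with hBdef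
  have hB : ∀ v, v ∈ B ↔ v.ord x < 0 := fun v => by simp [hBdef, Place.ord_inv]
  set n := finrank K⟮x⟯ F
  let b := Module.finBasis K⟮x⟯ F
  choose p hp0 hp using fun i : Fin n => exists_mul_regular hx (b i)
  set u : Fin n → F := fun i => aeval x (p i) * b i with hu
  have hune : ∀ i, u i ≠ 0 := fun i =>
    mul_ne_zero (fun h => hp0 i (transcendental_iff.1 hx _ h)) (b.ne_zero i)
  have hlin : LinearIndependent K⟮x⟯ u := by
    rw [Fintype.linearIndependent_iff]
    intro g hg i
    have hq : ∀ i, aeval x (p i) ∈ K⟮x⟯ := fun i =>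
      (mem_adjoin_simple_iff K _).2 ⟨p i, 1, by simp⟩
    have h := Fintype.linearIndependent_iff.1 b.linearIndependent
      (fun i => g i * ⟨aeval x (p i), hq i⟩) (by
        rw [← hg]; refine Finset.sum_congr rfl fun i _ => ?_
        simp only [IntermediateField.smul_def, hu, MulMemClass.coe_mul, smul_eq_mul]; ring) i
    rcases mul_eq_zero.1 h with h | h
    · exact h
    · exact absurd (congrArg Subtype.val h) fun h => hp0 i (transcendental_iff.1 hx _ h)
  set c : ℕ := ∑ v ∈ B, ∑ i, (v.ord (u i)).natAbs with hc
  set Bdiv : Divisor K F := ∑ v ∈ B, Finsupp.single v (-v.ord x) with hBdiv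
  set C : Divisor K F := ∑ v ∈ B, Finsupp.single v (c : ℤ) with hC
  have hBapp : ∀ v, Bdiv v = if v ∈ B then -v.ord x else 0 := fun v => by
    simp only [hBdiv, Finsupp.finsetSum_apply, Finsupp.single_apply, Finset.sum_ite_eq']
  have hCapp : ∀ v, C v = if v ∈ B then (c : ℤ) else 0 := fun v => by
    simp [hC, Finsupp.finsetSum_apply, Finsupp.single_apply, Finset.sum_ite_eq']
  obtain ⟨c₀, hc₀⟩ := exists_riemannRochSpace_bound (K := K) (F := F)
  refine ⟨C, fun v => by simp only [hCapp, Finsupp.zero_apply]; split_ifs <;> simp, fun k => ?_⟩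
  show Module.Finite K (riemannRochSpace ((k : ℤ) • Bdiv + C)) ∧ _
  have hpos : (0 : Divisor K F) ≤ (k : ℤ) • Bdiv + C := fun v => by
    simp only [Finsupp.add_apply, Finsupp.smul_apply, hBapp, hCapp, Finsupp.zero_apply]
    split_ifs with h
    · have := (hB v).1 h
      rw [smul_eq_mul]
      exact add_nonneg (mul_nonneg (by omega) (by omega)) (by omega)
    · simp
  obtain ⟨hfin, hle⟩ := hc₀ _ hpos
  have hmem : ∀ (ji : Fin (k + 1) × Fin n),
      x ^ (ji.1 : ℕ) * u ji.2 ∈ riemannRochSpace ((k : ℤ) • Bdiv + C) := by
    intro ⟨j, i⟩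
    rw [mem_riemannRochSpace]
    intro v
    simp only [Finsupp.add_apply, Finsupp.smul_apply, hBapp, hCapp, smul_eq_mul]
    split_ifs with h
    · refine Or.inr ?_
      rw [v.ord_mul (pow_ne_zero _ hx0) (hune i), ord_pow]
      have h1 : (v.ord (u i)).natAbs ≤ c :=
        (Finset.single_le_sum (f := fun i => (v.ord (u i)).natAbs) (fun _ _ => Nat.zero_le _)
          (Finset.mem_univ i)).trans
        (Finset.single_le_sum (f := fun v => ∑ i, (v.ord (u i)).natAbs)
          (fun _ _ => Nat.zero_le _) h)
      have h3 := (hB v).1 h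
      have h4 : (j : ℤ) ≤ k := by have := j.2; omega
      have h5 : (k : ℤ) * v.ord x ≤ (j : ℤ) * v.ord x :=
        mul_le_mul_of_nonpos_right h4 h3.le
      have h6 : -(c : ℤ) ≤ v.ord (u i) := by omega
      rw [mul_neg]
      linarith
    · have hv : 0 ≤ v.ord x := not_lt.1 fun hh => h ((hB v).2 hh)
      simp only [mul_zero, add_zero, neg_zero]
      exact ((show OrdGE v 0 (x ^ (j : ℕ)) from Or.inr (by rw [ord_pow]; positivity)).mul
        (hp i v hv)).mono (by simp)
  have hind : LinearIndependent K (fun ji : Fin (k + 1) × Fin n =>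
      x ^ (ji.1 : ℕ) * u ji.2) := by
    have hgen : LinearIndependent K (fun j : Fin (k + 1) => AdjoinSimple.gen K x ^ (j : ℕ)) := by
      rw [Fintype.linearIndependent_iff]
      intro g hg j
      have h0 : aeval (AdjoinSimple.gen K x) (∑ i : Fin (k + 1), monomial (i : ℕ) (g i)) = 0 := by
        rw [map_sum, ← hg]
        exact Finset.sum_congr rfl fun i _ => by rw [aeval_monomial, Algebra.smul_def]
      have h1 := congrArg (coeff · (j : ℕ))
        (transcendental_iff.1 (transcendental_gen hx) _ h0)
      simp only [finsetSum_coeff, coeff_monomial, coeff_zero] at h1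
      rw [Finset.sum_eq_single j (fun b _ hb => if_neg fun h => hb (Fin.ext h))
        (fun h => absurd (Finset.mem_univ j) h), if_pos rfl] at h1
      exact h1
    have := linearIndependent_smul hgen hlin
    simpa [IntermediateField.smul_def] using this
  have hind' : LinearIndependent K (fun ji : Fin (k + 1) × Fin n =>
      (⟨_, hmem ji⟩ : riemannRochSpace ((k : ℤ) • Bdiv + C))) :=
    LinearIndependent.of_comp (riemannRochSpace ((k : ℤ) • Bdiv + C)).subtype hind
  have hcard := hind'.fintype_card_le_finrank
  rw [Fintype.card_prod, Fintype.card_fin, Fintype.card_fin, Nat.mul_comm] at hcard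
  exact ⟨hfin, hcard⟩

/-- The poles of `x`, with multiplicity and degree, number at least `[F : K(x)]`. -/
theorem le_sum_poles {x : F} (hx : Transcendental K x) :
    (finrank K⟮x⟯ F : ℤ) ≤
      ∑ v ∈ (finite_ord_pos (K := K) x⁻¹).toFinset, -v.ord x * v.deg := by
  classical
  obtain ⟨C, hC0, hge⟩ := exists_riemannRochSpace_ge hx
  obtain ⟨c₀, hc₀⟩ := exists_riemannRochSpace_bound (K := K) (F := F)
  set n := finrank K⟮x⟯ F
  set B := (finite_ord_pos (K := K) x⁻¹).toFinset with hBdef
  have hB : ∀ v, v ∈ B ↔ v.ord x < 0 := fun v => by simp [hBdef, Place.ord_inv]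
  have hBapp : ∀ v, poleDivisor x v = if v ∈ B then -v.ord x else 0 := fun v => by
    simp only [poleDivisor, ← hBdef, Finsupp.finsetSum_apply, Finsupp.single_apply,
      Finset.sum_ite_eq']
  have hdeg : Divisor.degree (poleDivisor x : Divisor K F) = ∑ v ∈ B, -v.ord x * v.deg := by
    simp [poleDivisor, ← hBdef]
  have key : ∀ k : ℕ, ((n * (k + 1) : ℕ) : ℤ) ≤
      k * Divisor.degree (poleDivisor x : Divisor K F) + Divisor.degree C + c₀ := by
    intro k
    have hpos : (0 : Divisor K F) ≤ (k : ℤ) • poleDivisor x + C := fun v => by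
      have h1 : 0 ≤ C v := hC0 v
      simp only [Finsupp.add_apply, Finsupp.smul_apply, hBapp, Finsupp.zero_apply]
      split_ifs with h
      · have := (hB v).1 h
        rw [smul_eq_mul]
        exact add_nonneg (mul_nonneg (by omega) (by omega)) h1
      · simpa using h1
    obtain ⟨hfin, hle⟩ := hc₀ _ hpos
    have hcard := (hge k).2
    rw [map_add, map_zsmul, smul_eq_mul] at hle
    exact le_trans (by exact_mod_cast hcard) hle
  rw [← hdeg]
  by_contra hlt
  push Not at hlt
  set k : ℕ := (Divisor.degree C + c₀).toNat + 1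
  have h1 := key k
  have h3 : (k : ℤ) * Divisor.degree (poleDivisor x : Divisor K F) ≤ (k : ℤ) * ((n : ℤ) - 1) :=
    mul_le_mul_of_nonneg_left (by omega) (by omega)
  push_cast at h1
  rw [mul_add, mul_comm (n : ℤ) k] at h1
  rw [mul_sub] at h3
  omega

/-- `K(x⁻¹) = K(x)`. -/
theorem adjoin_inv_eq {E : Type*} [Field E] [Algebra K E] (x : E) : K⟮x⁻¹⟯ = K⟮x⟯ := by
  apply le_antisymm
  · exact adjoin_simple_le_iff.2 (inv_mem (mem_adjoin_simple_self K x))
  · rw [adjoin_simple_le_iff]
    simpa using inv_mem (mem_adjoin_simple_self K x⁻¹)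

/-- The zeros (with multiplicity) of a transcendental element have degree `[F : K(x)]`. -/
theorem sum_zeros_eq_finrank {x : F} (hx : Transcendental K x) :
    ∑ v ∈ (finite_ord_pos (K := K) x).toFinset, v.ord x * v.deg = finrank K⟮x⟯ F := by
  apply le_antisymm
  · have h := sum_ord_mul_deg_le hx (finite_ord_pos (K := K) x).toFinset
      (fun v hv => by simpa using hv)
    refine le_trans (le_of_eq ?_) (Int.ofNat_le.2 h)
    push_cast
    refine Finset.sum_congr rfl fun v hv => ?_
    rw [Int.toNat_of_nonneg (le_of_lt (by simpa using hv))]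
  · have hx' : Transcendental K x⁻¹ := fun h => hx (inv_inv x ▸ h.inv)
    have h := le_sum_poles hx'
    rw [inv_inv, adjoin_inv_eq] at h
    simpa [Place.ord_inv] using h

/-- A principal divisor has degree zero. -/
theorem degree_divisorOf (x : F) : Divisor.degree (divisorOf x : Divisor K F) = 0 := by
  classical
  by_cases hx : Transcendental K x
  · have hx' : Transcendental K x⁻¹ := fun h => hx (inv_inv x ▸ h.inv)
    have h1 := sum_zeros_eq_finrank hx
    have h2 := sum_zeros_eq_finrank hx'
    rw [adjoin_inv_eq, ← h1] at h2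
    have hsplit : (divisorOf x : Divisor K F) =
        ∑ v ∈ (finite_ord_pos (K := K) x).toFinset, Finsupp.single v (v.ord x)
        - ∑ v ∈ (finite_ord_pos (K := K) x⁻¹).toFinset, Finsupp.single v (v.ord x⁻¹) := by
      ext v
      simp only [divisorOf_apply, Finsupp.sub_apply, Finsupp.finsetSum_apply, Finsupp.single_apply,
        Finset.sum_ite_eq', Set.Finite.mem_toFinset, Set.mem_ofPred_eq, Place.ord_inv]
      split_ifs <;> omega
    rw [hsplit, map_sub, map_sum, map_sum]
    simp only [Divisor.degree_single]
    rw [h2, sub_self]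
  · have : (divisorOf x : Divisor K F) = 0 := Finsupp.ext fun v => by
      rw [divisorOf_apply, Finsupp.zero_apply]
      by_contra h
      exact hx (transcendental_of_ord_ne_zero h)
    rw [this, map_zero]

instance (priority := 100) instHasPrincipalDivisors : HasPrincipalDivisors K F where
  exists_divisor f _ := ⟨divisorOf f, fun _ => rfl, degree_divisorOf f⟩

end FermatAgent.Curve
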