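import Mathlib.RingTheory.Norm.Transitivity
import Fermat.Agent.Curve.Degree
import Fermat.Prelude.Def_AlgebraicCurve_Correspondence
import Fermat.Prelude.Def_AlgebraicCurve_IsCurveOver

/-!
# Finite extensions of function fields: `∑ e f = [F' : F]` and the norm formula

`sum_fiber_eq` is the fundamental identity over a place: the inequality over each zero of an
element `x` is an equality, because the zeros of `x` in `F` and in `F'` are counted by the degrees
over `K(x)`. Hence every place has one above it (`exists_restrict_eq`) and, when residue degrees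
are one, the order of a norm is the sum of the orders over the fibre (`ord_norm_eq_sum`, by
approximation). Over an algebraically closed field this gives `pushforwardNormFormula`; both
formulas also hold along a homomorphism (`fundamentalIdentityAlong`, `normFormulaAlong`).
-/

set_option autoImplicit false

noncomputable section

open AlgebraicCurve IntermediateField Polynomial Module

namespace FermatAgent.Curve

variable {K F F' : Type*} [Field K] [Field F] [Field F'] [Algebra K F] [Algebra K F']
  [Algebra F F'] [IsScalarTower K F F'] [Module.Finite F F']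

omit [Module.Finite F F'] in
theorem transcendental_algebraMap {x : F} (hx : Transcendental K x) :
    Transcendental K (algebraMap F F' x) :=
  (transcendental_algebraMap_iff (algebraMap F F').injective).2 hx

/-- An extension of `v` exists and degree of finite-over-`K(x)` is multiplicative. -/
theorem finrank_adjoin_algebraMap {x : F} :
    finrank K⟮algebraMap F F' x⟯ F' = finrank K⟮x⟯ F * finrank F F' := by
  rw [Module.finrank_mul_finrank K⟮x⟯ F F']
  have heq : K⟮algebraMap F F' x⟯ = K⟮x⟯.map (IsScalarTower.toAlgHom K F F') := by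
    rw [adjoin_map]; simp
  let e : K⟮x⟯ ≃ₐ[K] K⟮algebraMap F F' x⟯ :=
    (K⟮x⟯.equivMap (IsScalarTower.toAlgHom K F F')).trans (IntermediateField.equivOfEq heq.symm)
  refine (Algebra.finrank_eq_of_equiv_equiv e.toRingEquiv (RingEquiv.refl F') ?_).symm
  ext a
  rfl

section Identity

variable [IsFF K F] [IsFF K F']

omit [IsFF K F] in
theorem finite_residue_extension (w : Place K F') :
    Module.Finite (w.restrict F).ResidueField w.ResidueField :=
  have := finite_residueField w
  Module.Finite.of_restrictScalars_finite K _ _

omit [IsFF K F] in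
theorem sum_fiber_le (v : Place K F) :
    ∑ w ∈ v.fiber F', w.ramificationIndex F * w.inertiaDeg F ≤ finrank F F' :=
  sum_ramificationIndex_mul_le v _ (fun _ hw => Place.mem_fiber.1 hw) _ fun w _ => by
    have := finite_residue_extension (F := F) w
    rw [← Module.finrank_eq_rank]; rfl

/-- **The fundamental identity** `∑ e f = [F' : F]` over the places above a place of `F`. -/
theorem sum_fiber_eq (v : Place K F) :
    ∑ w ∈ v.fiber F', w.ramificationIndex F * w.inertiaDeg F = finrank F F' := by
  classical
  obtain ⟨x, hx0, hxv⟩ := exists_ord_eq v 1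
  have hx : Transcendental K x := transcendental_of_ord_ne_zero (v := v) (by omega)
  have hup := sum_zeros_eq_finrank (transcendental_algebraMap (F' := F') hx)
  rw [finrank_adjoin_algebraMap, Nat.cast_mul, ← sum_zeros_eq_finrank hx] at hup
  set Z := (finite_ord_pos (K := K) x).toFinset
  set Z' := (finite_ord_pos (K := K) (algebraMap F F' x)).toFinset
  have hmaps : ∀ w ∈ Z', w.restrict F ∈ Z := by
    intro w hw
    simp only [Z', Z, Set.Finite.mem_toFinset, Set.mem_ofPred_eq, w.ord_restrict (F := F)] at hw ⊢
    exact (pos_iff_pos_of_mul_pos hw).1 (by have := w.ramificationIndex_pos (F := F); omega)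
  rw [← Finset.sum_fiberwise_of_maps_to hmaps, Finset.sum_mul] at hup
  have hfib : ∀ u ∈ Z, Z'.filter (fun w => w.restrict F = u) = u.fiber F' := by
    intro u hu
    ext w
    simp only [Finset.mem_filter, Place.mem_fiber, and_iff_right_iff_imp]
    intro hw
    simp only [Z', Z, Set.Finite.mem_toFinset, Set.mem_ofPred_eq, w.ord_restrict (F := F),
      hw] at hu ⊢
    exact mul_pos (by have := w.ramificationIndex_pos (F := F); omega) hu
  have hterm : ∀ u ∈ Z, ∑ w ∈ Z'.filter (fun w => w.restrict F = u),
      w.ord (algebraMap F F' x) * w.deg =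
      (u.ord x * u.deg) * ((∑ w ∈ u.fiber F', w.ramificationIndex F * w.inertiaDeg F : ℕ) : ℤ) := by
    intro u hu
    rw [hfib u hu]
    push_cast
    rw [Finset.mul_sum]
    refine Finset.sum_congr rfl fun w hw => ?_
    rw [w.ord_restrict, ← w.deg_restrict_mul_inertiaDeg (F := F), Place.mem_fiber.1 hw]
    push_cast
    ring
  rw [Finset.sum_congr rfl hterm] at hup
  have hle : ∀ u ∈ Z, (u.ord x * u.deg) *
      ((∑ w ∈ u.fiber F', w.ramificationIndex F * w.inertiaDeg F : ℕ) : ℤ) ≤
      u.ord x * u.deg * finrank F F' := by
    intro u hu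
    refine mul_le_mul_of_nonneg_left (Int.ofNat_le.2 (sum_fiber_le u)) ?_
    simp only [Z, Set.Finite.mem_toFinset, Set.mem_ofPred_eq] at hu
    positivity
  have hv : v ∈ Z := by simp [Z, hxv]
  have h := (Finset.sum_eq_sum_iff_of_le hle).1 hup v hv
  rw [hxv, one_mul] at h
  exact_mod_cast mul_left_cancel₀ (by exact_mod_cast (deg_pos v).ne') h

instance (priority := 100) instSumRamificationInertia : SumRamificationInertia K F F' where
  sum_ramificationIndex_mul_inertiaDeg v := by exact_mod_cast sum_fiber_eq v

/-- Every place of `F` lies below some place of `F'`. -/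
theorem exists_restrict_eq (v : Place K F) : ∃ w : Place K F', w.restrict F = v := by
  by_contra h
  push Not at h
  have h1 : v.fiber F' = ∅ := Finset.eq_empty_of_forall_notMem fun w hw =>
    h w (Place.mem_fiber.1 hw)
  have h2 := sum_fiber_eq (F' := F') v
  rw [h1, Finset.sum_empty] at h2
  exact (Module.finrank_pos (R := F) (M := F')).ne h2

section

omit [IsFF K F]

/- An element regular at all places over `v` is integral over the valuation ring of `v`. -/
theorem isIntegral_of_fiber (v : Place K F) {f : F'}
    (hf : ∀ w : Place K F', w.restrict F = v → f ∈ w.toValuationSubring) :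
    IsIntegral v.toValuationSubring f :=
  isIntegralElem_of_forall_valuationSubring (algebraMap v.toValuationSubring F') fun V hV => by
    by_cases htop : V = ⊤
    · subst htop; exact ValuationSubring.mem_top f
    have hK : ∀ a : K, algebraMap K F' a ∈ V := fun a => by
      rw [IsScalarTower.algebraMap_apply K F F' a]
      exact hV ⟨algebraMap K F a, v.algebraMap_mem' a⟩
    let w : Place K F' := placeOfValuationSubring V hK htop
    exact hf w (eq_of_toValuationSubring_le fun c hc => hV ⟨c, hc⟩).symm

theorem ord_norm_nonneg (v : Place K F) {f : F'}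
    (hf : ∀ w : Place K F', w.restrict F = v → OrdGE w 0 f) :
    OrdGE v 0 (Algebra.norm F f) := by
  have hint := isIntegral_of_fiber v fun w hw => mem_iff_ordGE.2 (hf w hw)
  obtain ⟨y, hy⟩ := IsIntegrallyClosed.isIntegral_iff.mp
    (Algebra.isIntegral_norm (R := v.toValuationSubring) (K := F) hint)
  refine mem_iff_ordGE.1 ?_
  rw [← hy]
  exact y.2

theorem ord_norm_eq_zero (v : Place K F) {f : F'} (hf0 : f ≠ 0)
    (hf : ∀ w : Place K F', w.restrict F = v → w.ord f = 0) :
    v.ord (Algebra.norm F f) = 0 := by
  have hN : Algebra.norm F f ≠ 0 := Algebra.norm_ne_zero_iff.2 hf0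
  have h1 := (ordGE_iff_le hN).1 (ord_norm_nonneg v fun w hw => Or.inr (hf w hw).ge)
  have h2 := ord_norm_nonneg v (f := f⁻¹) fun w hw => Or.inr (by rw [w.ord_inv, hf w hw]; simp)
  rw [Algebra.norm_inv, ordGE_iff_le (inv_ne_zero hN), v.ord_inv] at h2
  omega

theorem ord_norm_pos (v : Place K F) {f : F'} (hf0 : f ≠ 0)
    (hf : ∀ w : Place K F', w.restrict F = v → OrdGE w 0 f)
    {w₀ : Place K F'} (hw₀ : w₀.restrict F = v) (hpos : OrdGE w₀ 1 f) :
    0 < v.ord (Algebra.norm F f) := by
  set r := finrank F⟮f⟯ F'
  set p := minpoly F f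
  have hint := isIntegral_of_fiber v fun w hw => mem_iff_ordGE.2 (hf w hw)
  have hintF : IsIntegral F f := IsIntegral.of_finite F f
  -- coefficients of the minimal polynomial are integral
  have hcoeff : ∀ i, OrdGE v 0 (p.coeff i) := by
    intro i
    have hq : p = (minpoly v.toValuationSubring f).map (algebraMap v.toValuationSubring F) :=
      minpoly.isIntegrallyClosed_eq_field_fractions' F hint
    rw [hq, coeff_map]
    exact mem_iff_ordGE.1 ((minpoly v.toValuationSubring f).coeff i).2
  -- the constant coefficient vanishes at `w₀`, hence at `v`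
  have h0 : OrdGE w₀ 1 (algebraMap F F' (p.coeff 0)) := by
    have h := minpoly.aeval F f
    rw [← X_mul_divX_add (minpoly F f), map_add, map_mul, aeval_X, aeval_C] at h
    rw [eq_neg_of_add_eq_zero_right h]
    refine OrdGE.neg ((hpos.mul (m := 0) ?_).mono (by simp))
    rw [aeval_eq_sum_range]
    refine OrdGE.sum fun i _ => ?_
    rw [coeff_divX, Algebra.smul_def]
    have h2 : OrdGE w₀ 0 (algebraMap F F' (p.coeff (i + 1))) := by
      have h3 : OrdGE (w₀.restrict F) 0 (p.coeff (i + 1)) := hw₀.symm ▸ hcoeff (i + 1)
      simpa using ordGE_restrict h3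
    exact (h2.mul ((hf w₀ hw₀).pow i)).mono (by simp)
  have hc : p.coeff 0 ≠ 0 := minpoly.coeff_zero_ne_zero hintF hf0
  rw [ordGE_iff_le ((_root_.map_ne_zero (algebraMap F F')).2 hc), w₀.ord_restrict, hw₀] at h0
  have hv : 1 ≤ v.ord (p.coeff 0) := by
    by_contra hle
    push Not at hle
    have := w₀.ramificationIndex_pos (F := F)
    nlinarith
  have hgen : Algebra.norm F (AdjoinSimple.gen F f) = (-1) ^ p.natDegree * p.coeff 0 := by
    have h := Algebra.PowerBasis.norm_gen_eq_coeff_zero_minpoly (adjoin.powerBasis hintF)
    simpa [IntermediateField.minpoly_gen] using h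
  rw [Algebra.norm_eq_norm_adjoin, hgen, ord_pow]
  have hsign : v.ord ((-1 : F) ^ p.natDegree * p.coeff 0) = v.ord (p.coeff 0) := by
    rcases neg_one_pow_eq_or F p.natDegree with h | h <;> rw [h] <;> simp [ord_neg_eq]
  rw [hsign]
  have hr : 0 < r := Module.finrank_pos
  nlinarith [hr, hv]

end

/-- The norm formula, when all residue degrees are `1`. -/
theorem ord_norm_eq_sum (h1 : ∀ w : Place K F', w.inertiaDeg F = 1) (v : Place K F) {f : F'}
    (hf : f ≠ 0) : v.ord (Algebra.norm F f) = ∑ w ∈ v.fiber F', w.ord f := by
  classical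
  -- elements vanishing at exactly one place of the fibre
  have ht : ∀ w₀ : Place K F', ∃ t : F', t ≠ 0 ∧ ∀ w ∈ v.fiber F',
      w.ord t = if w = w₀ then 1 else 0 := by
    intro w₀
    obtain ⟨T, hT0, hT⟩ := exists_ord_eq_one w₀
    obtain ⟨t, ht⟩ := exists_approx (insert w₀ (v.fiber F'))
      (fun w => if w = w₀ then T else 1) 2
    have key : ∀ w ∈ insert w₀ (v.fiber F'), t ≠ 0 ∧ w.ord t = if w = w₀ then 1 else 0 := by
      intro w hw
      have h := ht w hw
      by_cases hww : w = w₀
      · subst hww
        rw [if_pos rfl] at h ⊢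
        obtain ⟨a, b⟩ := ord_add_eq_of_ordGE (v := w) hT0 (g := t - T) (h.mono (by omega))
        rw [add_sub_cancel] at a b
        exact ⟨a, b.trans hT⟩
      · rw [if_neg hww] at h ⊢
        obtain ⟨a, b⟩ := ord_add_eq_of_ordGE (v := w) (one_ne_zero (α := F')) (g := t - 1)
          (h.mono (by simp))
        rw [add_sub_cancel] at a b
        exact ⟨a, b.trans w.ord_one⟩
    exact ⟨t, (key w₀ (Finset.mem_insert_self _ _)).1,
      fun w hw => (key w (Finset.mem_insert_of_mem hw)).2⟩
  choose t ht0 ht using ht
  have hN : ∀ g : F', g ≠ 0 → Algebra.norm F g ≠ 0 := fun g => Algebra.norm_ne_zero_iff.2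
  have decomp : ∀ g : F', g ≠ 0 → v.ord (Algebra.norm F g) =
      ∑ w ∈ v.fiber F', w.ord g * v.ord (Algebra.norm F (t w)) := by
    intro g hg
    set P := ∏ w ∈ v.fiber F', t w ^ (w.ord g) with hP
    have hP0 : P ≠ 0 := Finset.prod_ne_zero_iff.2 fun w _ => zpow_ne_zero _ (ht0 w)
    have hPord : ∀ u ∈ v.fiber F', u.ord P = u.ord g := by
      intro u hu
      rw [hP, ord_prod _ _ fun w _ => zpow_ne_zero _ (ht0 w),
        Finset.sum_congr rfl fun w _ => by rw [u.ord_zpow, ht w u hu]]
      simp [Finset.sum_ite_eq, hu]
    have h0 := ord_norm_eq_zero v (f := g / P) (div_ne_zero hg hP0) fun u hu => by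
      rw [ord_div hg hP0, hPord u (Place.mem_fiber.2 hu), sub_self]
    rw [div_eq_mul_inv, map_mul, Algebra.norm_inv, ← div_eq_mul_inv, ord_div (hN _ hg) (hN _ hP0),
      sub_eq_zero] at h0
    rw [h0, hP, map_prod, ord_prod _ _ fun w _ => hN _ (zpow_ne_zero _ (ht0 w))]
    exact Finset.sum_congr rfl fun w _ => by rw [Algebra.norm_zpow, v.ord_zpow]
  have hpos : ∀ w ∈ v.fiber F', 1 ≤ v.ord (Algebra.norm F (t w)) := fun w hw =>
    ord_norm_pos v (ht0 w)
      (fun u hu => Or.inr (by rw [ht w u (Place.mem_fiber.2 hu)]; split_ifs <;> simp))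
      (Place.mem_fiber.1 hw) (Or.inr (by rw [ht w w hw, if_pos rfl]))
  -- evaluate at a uniformizer of `v`
  obtain ⟨π, hπ0, hπ⟩ := exists_ord_eq_one v
  have hπ' : algebraMap F F' π ≠ 0 := (_root_.map_ne_zero _).2 hπ0
  have hcount := decomp _ hπ'
  rw [Algebra.norm_algebraMap, ord_pow, hπ, mul_one] at hcount
  have hew : ∀ w ∈ v.fiber F', w.ord (algebraMap F F' π) = w.ramificationIndex F := fun w hw => by
    rw [w.ord_restrict, Place.mem_fiber.1 hw, hπ, mul_one]
  rw [Finset.sum_congr rfl fun w hw => by rw [hew w hw]] at hcount
  have hsum := sum_fiber_eq (F' := F') v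
  simp only [h1, mul_one] at hsum
  rw [← hsum, Nat.cast_sum] at hcount
  have hone : ∀ w ∈ v.fiber F', v.ord (Algebra.norm F (t w)) = 1 := by
    intro w hw
    have he : (0 : ℤ) < w.ramificationIndex F := by exact_mod_cast w.ramificationIndex_pos
    have hle : ∀ u ∈ v.fiber F', (u.ramificationIndex F : ℤ) ≤
        u.ramificationIndex F * v.ord (Algebra.norm F (t u)) := fun u hu =>
      le_mul_of_one_le_right (by omega) (hpos u hu)
    have h := (Finset.sum_eq_sum_iff_of_le hle).1 hcount w hw
    exact mul_left_cancel₀ he.ne' (h.symm.trans (mul_one _).symm)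
  rw [decomp f hf]
  exact Finset.sum_congr rfl fun w hw => by rw [hone w hw, mul_one]

/-- Over an algebraically closed field every place has degree one. -/
theorem deg_eq_one [IsAlgClosed K] {E : Type*} [Field E] [Algebra K E] [IsFF K E] (w : Place K E) :
    w.deg = 1 :=
  have := finite_residueField w
  w.deg_eq_one_of_isAlgClosed_of_finite

/-- Over an algebraically closed field the divisor `d · v` has degree `d`. -/
theorem degree_single_eq [IsAlgClosed K] {E : Type*} [Field E] [Algebra K E] [IsFF K E]
    (v : Place K E) (d : ℤ) :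
    Divisor.degree (Finsupp.single v d : Divisor K E) = d := by
  rw [Divisor.degree_single, deg_eq_one v, Nat.cast_one, mul_one]

/-- Over an algebraically closed field the degree of a divisor is the sum of its coefficients. -/
theorem degree_eq_sum [IsAlgClosed K] {E : Type*} [Field E] [Algebra K E] [IsFF K E]
    (D : Divisor K E) :
    Divisor.degree D = D.sum fun _ n => n := by
  rw [Divisor.degree, Finsupp.liftAddHom_apply]
  exact Finset.sum_congr rfl fun v _ => by simp [deg_eq_one v]

/-- Over an algebraically closed field all residue degrees are one. -/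
theorem inertiaDeg_eq_one [IsAlgClosed K] (w : Place K F') : w.inertiaDeg F = 1 := by
  have h := w.deg_restrict_mul_inertiaDeg (F := F)
  rw [deg_eq_one, deg_eq_one, one_mul] at h
  exact h

/-- The push-forward of a principal divisor is the divisor of the norm. -/
theorem pushforwardNormFormula [IsAlgClosed K] : Divisor.PushforwardNormFormula K F F' := by
  classical
  intro f hf D hD v
  rw [ord_norm_eq_sum inertiaDeg_eq_one v hf, Divisor.pushforward_apply]
  have h1 : ∀ w : Place K F', (w.inertiaDeg F : ℤ) = 1 := fun w => by
    exact_mod_cast inertiaDeg_eq_one w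
  simp only [h1, mul_one]
  rw [Finset.sum_ite, Finset.sum_const_zero, add_zero]
  rw [Finset.sum_congr rfl (fun w (_ : w ∈ v.fiber F') => (hD w).symm)]
  refine Finset.sum_subset (fun w hw => ?_) (fun w hw hn => ?_)
  · exact Place.mem_fiber.2 (Finset.mem_filter.1 hw).2
  · simp only [Finset.mem_filter, Finsupp.mem_support_iff, not_and] at hn
    by_contra hne
    exact hn hne (Place.mem_fiber.1 hw)

end Identity

/-! ### Versions along an algebra homomorphism -/

section Along

omit [Algebra F F'] [IsScalarTower K F F'] [Module.Finite F F']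

variable [IsFF K F] [IsFF K F'] (φ : F →ₐ[K] F')

/-- The fundamental identity along a homomorphism of function fields. -/
theorem fundamentalIdentityAlong (hφ : φ.toRingHom.IsIntegral) (hfin : FiniteAlong K φ) :
    FundamentalIdentityAlong K φ hφ := by
  let := algebraAlong φ
  have := isScalarTower_along φ
  have : Module.Finite F F' := hfin
  have := isIntegral_along φ hφ
  exact (inferInstance : FundamentalIdentity K F F')

/-- The norm formula along a homomorphism of function fields. -/
theorem normFormulaAlong [IsAlgClosed K] (hfin : FiniteAlong K φ) :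
    NormFormulaAlong K φ hfin := by
  let := algebraAlong φ
  have := isScalarTower_along φ
  have : Module.Finite F F' := hfin
  exact pushforwardNormFormula

/-- A homomorphism of function fields of one variable makes the larger field finite over the
smaller. -/
theorem finiteAlong : FiniteAlong K φ := by
  let := algebraAlong φ
  have := isScalarTower_along φ
  obtain ⟨x, hx, hfin⟩ := IsFF.exists_transcendental (K := K) (F := F)
  have hy : Transcendental K (φ x) := (transcendental_algebraMap_iff φ.injective).2 hx
  have := IsFF.finite_adjoin (F := F') hy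
  obtain ⟨s, hs⟩ := Module.Finite.fg_top (R := K⟮φ x⟯) (M := F')
  refine ⟨⟨s, top_unique fun z htop => ?_⟩⟩
  clear htop
  have hz : z ∈ Submodule.span K⟮φ x⟯ (s : Set F') := hs ▸ Submodule.mem_top
  induction hz using Submodule.span_induction with
  | mem y hy => exact Submodule.subset_span hy
  | zero => exact zero_mem _
  | add y z _ _ hy hz => exact add_mem hy hz
  | smul a y _ hy =>
    obtain ⟨p, q, hpq⟩ := (mem_adjoin_simple_iff K _).1 a.2
    have : a • y = (aeval x p / aeval x q) • y := by
      rw [Algebra.smul_def, Algebra.smul_def]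
      congr 1
      show (a : F') = φ _
      rw [hpq, map_div₀, ← aeval_algHom_apply, ← aeval_algHom_apply]
    rw [this]
    exact Submodule.smul_mem _ _ hy

/-- A homomorphism of function fields of one variable is integral. -/
theorem isIntegral_toRingHom : φ.toRingHom.IsIntegral := by
  let := algebraAlong φ
  have : Module.Finite F F' := finiteAlong φ
  exact fun z => IsIntegral.of_finite F z

end Along

end FermatAgent.Curve
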