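import Mathlib.RingTheory.LaurentSeries

/-!
# Lemmas on the order of Laurent series
-/

set_option autoImplicit false

noncomputable section

namespace FermatAgent.Curve

variable {L : Type*} [Field L]

/-- All coefficients below `n` vanish. -/
def SGE (n : ℤ) (f : LaurentSeries L) : Prop := ∀ j < n, f.coeff j = 0

/-- `SGE n f` iff `f = 0` or `f` has order at least `n`. -/
theorem sge_iff {n : ℤ} {f : LaurentSeries L} : SGE n f ↔ f = 0 ∨ n ≤ f.order := by
  rcases eq_or_ne f 0 with rfl | hf
  · simp [SGE]
  · simp [SGE, hf, HahnSeries.le_order_iff_forall hf]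

/-- A nonzero series without exponents below `n` has order at least `n`. -/
theorem SGE.le_order {n : ℤ} {f : LaurentSeries L} (h : SGE n f) (hf : f ≠ 0) : n ≤ f.order :=
  (sge_iff.1 h).resolve_left hf

/-- A series has no exponents below its order. -/
theorem sge_order (f : LaurentSeries L) : SGE f.order f := sge_iff.2 (Or.inr le_rfl)

/-- A lower bound on the exponents may be weakened. -/
theorem SGE.mono {n m : ℤ} {f : LaurentSeries L} (h : SGE n f) (hm : m ≤ n) : SGE m f :=
  fun j hj => h j (hj.trans_le hm)

/-- The zero series satisfies every bound. -/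
theorem SGE.zero {n : ℤ} : SGE n (0 : LaurentSeries L) := fun _ _ => rfl

/-- Bounds on exponents are kept by sums. -/
theorem SGE.add {n : ℤ} {f g : LaurentSeries L} (hf : SGE n f) (hg : SGE n g) : SGE n (f + g) :=
  fun j hj => by rw [HahnSeries.coeff_add, hf j hj, hg j hj, add_zero]

/-- Bounds on exponents are kept by negation. -/
theorem SGE.neg {n : ℤ} {f : LaurentSeries L} (hf : SGE n f) : SGE n (-f) :=
  fun j hj => by rw [HahnSeries.coeff_neg, hf j hj, neg_zero]

/-- Bounds on exponents are kept by differences. -/
theorem SGE.sub {n : ℤ} {f g : LaurentSeries L} (hf : SGE n f) (hg : SGE n g) : SGE n (f - g) := by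
  rw [sub_eq_add_neg]; exact hf.add hg.neg

/-- Bounds on exponents add up under products. -/
theorem SGE.mul {n m : ℤ} {f g : LaurentSeries L} (hf : SGE n f) (hg : SGE m g) :
    SGE (n + m) (f * g) := by
  rcases eq_or_ne f 0 with rfl | hf0
  · rw [zero_mul]; exact SGE.zero
  rcases eq_or_ne g 0 with rfl | hg0
  · rw [mul_zero]; exact SGE.zero
  refine sge_iff.2 (Or.inr ?_)
  rw [HahnSeries.order_mul hf0 hg0]
  exact add_le_add (hf.le_order hf0) (hg.le_order hg0)

/-- Bounds on exponents are kept by finite sums. -/
theorem SGE.sum {ι : Type*} {s : Finset ι} {n : ℤ} {f : ι → LaurentSeries L}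
    (h : ∀ i ∈ s, SGE n (f i)) : SGE n (∑ i ∈ s, f i) := by
  classical
  induction s using Finset.induction_on with
  | empty => exact SGE.zero
  | insert a s ha ih =>
    rw [Finset.sum_insert ha]
    exact (h a (Finset.mem_insert_self a s)).add (ih fun i hi => h i (Finset.mem_insert_of_mem hi))

/-- A series satisfying every bound is zero. -/
theorem eq_zero_of_forall_sge {f : LaurentSeries L} (h : ∀ N : ℕ, SGE (N : ℤ) f) : f = 0 := by
  by_contra hf
  have := (h (f.order.toNat + 1)).le_order hf
  omega

/-- The order of an inverse is the negative of the order. -/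
theorem order_inv {f : LaurentSeries L} (hf : f ≠ 0) : f⁻¹.order = -f.order := by
  have h := HahnSeries.order_mul hf (inv_ne_zero hf)
  rw [mul_inv_cancel₀ hf, HahnSeries.order_one] at h
  omega

/-- The order of a power is the multiple of the order. -/
theorem order_pow (f : LaurentSeries L) (n : ℕ) : (f ^ n).order = n * f.order := by
  rw [HahnSeries.order_pow, nsmul_eq_mul]

/-- The order of an integral power is the multiple of the order. -/
theorem order_zpow {f : LaurentSeries L} (hf : f ≠ 0) (n : ℤ) : (f ^ n).order = n * f.order := by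
  rcases Int.eq_nat_or_neg n with ⟨m, rfl | rfl⟩
  · rw [zpow_natCast, order_pow]
  · rw [zpow_neg, zpow_natCast, order_inv (pow_ne_zero _ hf), order_pow]; ring

/-- A series without negative exponents and with nonzero constant term has order zero. -/
theorem order_eq_zero_of_sge {f : LaurentSeries L} (h : SGE 0 f) (h0 : f.coeff 0 ≠ 0) :
    f ≠ 0 ∧ f.order = 0 := by
  have hf : f ≠ 0 := fun h => h0 (by rw [h]; rfl)
  exact ⟨hf, le_antisymm (HahnSeries.order_le_of_coeff_ne_zero h0) (h.le_order hf)⟩

end FermatAgent.Curve
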