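import Mathlib.RingTheory.PowerSeries.Trunc
import Fermat.Agent.Curve.Laurent
import Fermat.Agent.Curve.Extension

/-!
# Laurent expansion at a place (constants algebraically closed)

Regular functions have values and Taylor expansions at a place; `expand ht` is the resulting
embedding of `F` into `K((s))` sending the uniformizer `t` to `s`, with `ord_v` as order
(`order_expand`).
-/

set_option autoImplicit false

noncomputable section

open AlgebraicCurve Polynomial

namespace FermatAgent.Curve

variable {K F : Type*} [Field K] [Field F] [Algebra K F] [IsAlgClosed K] [IsFF K F]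
variable (v : Place K F)

theorem residue_algebraMap_surjective : Function.Surjective (algebraMap K v.ResidueField) := by
  have := finite_residueField v
  have : Algebra.IsIntegral K v.ResidueField := Algebra.IsIntegral.of_finite K v.ResidueField
  exact IsAlgClosed.algebraMap_bijective_of_isIntegral.surjective

/-- The value of a regular function at a place. -/
def evalAt (a : v.toValuationSubring) : K :=
  (residue_algebraMap_surjective v (IsLocalRing.residue _ a)).choose

/-- `a` minus its value at `v` vanishes at `v`. -/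
theorem evalAt_spec (a : v.toValuationSubring) :
    OrdGE v 1 ((a : F) - algebraMap K F (evalAt v a)) := by
  have h : algebraMap K v.ResidueField (evalAt v a) = IsLocalRing.residue _ a :=
    (residue_algebraMap_surjective v (IsLocalRing.residue _ a)).choose_spec
  have h2 : IsLocalRing.residue _ (a - algebraMap K v.toValuationSubring (evalAt v a)) = 0 := by
    rw [map_sub, sub_eq_zero, ← h]; rfl
  rw [residue_eq_zero_iff] at h2
  exact h2

/-- A regular function takes some constant value at `v`. -/
theorem exists_sub_algebraMap {f : F} (hf : OrdGE v 0 f) :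
    ∃ c : K, OrdGE v 1 (f - algebraMap K F c) :=
  ⟨_, evalAt_spec v ⟨f, mem_iff_ordGE.2 hf⟩⟩

variable {v}

omit [IsAlgClosed K] [IsFF K F] in
/-- A function has at most one value at a place. -/
theorem eq_of_ordGE_one_sub {f : F} {c c' : K} (h : OrdGE v 1 (f - algebraMap K F c))
    (h' : OrdGE v 1 (f - algebraMap K F c')) : c = c' := by
  by_contra hne
  have h1 := h'.sub h
  rw [show f - algebraMap K F c' - (f - algebraMap K F c) = algebraMap K F (c - c') by
    rw [map_sub]; ring] at h1
  rcases h1 with h1 | h1
  · exact sub_ne_zero.mpr hne ((map_eq_zero _).mp h1)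
  · rw [ord_algebraMap (sub_ne_zero.mpr hne)] at h1; omega

omit [IsAlgClosed K] [IsFF K F] in
/-- The expansion in a uniformizer is unique: if a polynomial in `t` of degree less than `n`
vanishes to order `n`, it is zero. -/
theorem eq_zero_of_ordGE_sum {t : F} (ht : v.ord t = 1) :
    ∀ {n : ℕ} {a : ℕ → K}, OrdGE v n (∑ i ∈ Finset.range n, algebraMap K F (a i) * t ^ i) →
      ∀ i < n, a i = 0 := by
  intro n a h i hi
  classical
  by_contra hne
  have hex : ∃ i, i < n ∧ a i ≠ 0 := ⟨i, hi, hne⟩
  obtain ⟨hm, hma⟩ := Nat.find_spec hex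
  set m := Nat.find hex
  have ht0 : t ≠ 0 := fun h => by simp [h] at ht
  have hterm : algebraMap K F (a m) * t ^ m ≠ 0 :=
    mul_ne_zero ((_root_.map_ne_zero _).2 hma) (pow_ne_zero _ ht0)
  have hord : v.ord (algebraMap K F (a m) * t ^ m) = m := by
    rw [v.ord_mul ((_root_.map_ne_zero _).2 hma) (pow_ne_zero _ ht0), ord_algebraMap hma,
      ord_pow, ht]
    ring
  have hrest : OrdGE v ((m : ℤ) + 1)
      (∑ j ∈ (Finset.range n).erase m, algebraMap K F (a j) * t ^ j) := by
    refine OrdGE.sum fun j hj => ?_
    obtain ⟨hjm, hjn⟩ := Finset.mem_erase.1 hj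
    by_cases haj : a j = 0
    · rw [haj, map_zero, zero_mul]; exact OrdGE.zero
    have : m ≤ j := Nat.find_min' hex ⟨Finset.mem_range.1 hjn, haj⟩
    exact ((ordGE_algebraMap _).mul (Or.inr (le_of_eq (ord_pow t j).symm))).mono
      (by rw [ht]; omega)
  rw [← Finset.add_sum_erase _ _ (Finset.mem_range.2 hm)] at h
  obtain ⟨h1, h2⟩ := ord_add_eq_of_ordGE hterm (by rw [hord]; exact hrest)
  rw [ordGE_iff_le h1, h2, hord] at h
  omega

section

variable {t : F} (ht : v.ord t = 1)

include ht

omit [IsAlgClosed K] [IsFF K F] in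
theorem next_mem {f : F} {c : K} (h : OrdGE v 1 (f - algebraMap K F c)) :
    OrdGE v 0 ((f - algebraMap K F c) / t) := by
  rw [div_eq_mul_inv]
  exact (h.mul (m := -1) (Or.inr (by rw [v.ord_inv, ht]))).mono (by omega)

/-- The pairs `(remainder, coefficient)`. -/
def expandStep (f : v.toValuationSubring) : v.toValuationSubring :=
  ⟨((f : F) - algebraMap K F (evalAt v f)) / t, (next_mem ht (evalAt_spec v f)).mem le_rfl⟩

/-- Taylor coefficients. -/
def expandCoeff (f : v.toValuationSubring) (n : ℕ) : K := evalAt v ((expandStep ht)^[n] f)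

theorem ordGE_sub_sum (n : ℕ) : ∀ f : v.toValuationSubring,
    OrdGE v n ((f : F) - ∑ i ∈ Finset.range n, algebraMap K F (expandCoeff ht f i) * t ^ i) := by
  induction n with
  | zero => intro f; simpa using mem_iff_ordGE.1 f.2
  | succ n ih =>
    intro f
    have ht0 : t ≠ 0 := fun h => by simp [h] at ht
    rw [Finset.sum_range_succ']
    have hshift : ∀ i, expandCoeff ht f (i + 1) = expandCoeff ht (expandStep ht f) i := fun i => by
      simp [expandCoeff, Function.iterate_succ_apply]
    have h0 : expandCoeff ht f 0 = evalAt v f := rfl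
    have heq : (f : F) -
        (∑ i ∈ Finset.range n, algebraMap K F (expandCoeff ht f (i + 1)) * t ^ (i + 1)
        + algebraMap K F (expandCoeff ht f 0) * t ^ 0) =
        t * ((expandStep ht f : F) -
          ∑ i ∈ Finset.range n, algebraMap K F (expandCoeff ht (expandStep ht f) i) * t ^ i) := by
      simp only [hshift, h0, expandStep, pow_zero, mul_one]
      rw [mul_sub, mul_div_cancel₀ _ ht0, Finset.mul_sum]
      simp only [pow_succ]
      rw [Finset.sum_congr rfl fun i _ => show _ = t * (_ * t ^ i) by ring]
      ring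
    rw [heq]
    exact ((ordGE_self (v := v) t).mul (ih _)).mono (by push_cast; omega)

/-- Expansion of regular functions. -/
def expandPS (f : v.toValuationSubring) : PowerSeries K := PowerSeries.mk (expandCoeff ht f)

theorem coeff_expandPS_eq {n : ℕ} (f : v.toValuationSubring) {a : ℕ → K}
    (h : OrdGE v n ((f : F) - ∑ i ∈ Finset.range n, algebraMap K F (a i) * t ^ i)) :
    ∀ i < n, PowerSeries.coeff i (expandPS ht f) = a i := by
  intro i hi
  rw [expandPS, PowerSeries.coeff_mk]
  refine sub_eq_zero.1
    (eq_zero_of_ordGE_sum ht (a := fun i => expandCoeff ht f i - a i) (n := n) ?_ i hi)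
  have h2 := h.sub (ordGE_sub_sum ht n f)
  simp only [map_sub, sub_mul, Finset.sum_sub_distrib]
  rwa [sub_sub_sub_cancel_left] at h2

omit [IsAlgClosed K] [IsFF K F] in
theorem ordGE_aeval_sub (p : K[X]) (n : ℕ) :
    OrdGE v n (aeval t p - ∑ i ∈ Finset.range n, algebraMap K F (p.coeff i) * t ^ i) := by
  set N := max n (p.natDegree + 1)
  rw [aeval_eq_sum_range' (n := N) (by omega), ← Finset.sum_range_add_sum_Ico _ (le_max_left n _)]
  simp only [Algebra.smul_def, add_sub_cancel_left]
  refine OrdGE.sum fun i hi => ?_
  exact ((ordGE_algebraMap _).mul (Or.inr (le_of_eq (ord_pow t i).symm))).mono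
    (by rw [ht]; simp only [Finset.mem_Ico] at hi; omega)

/-- A regular function agrees to order `n` with the truncation of its expansion. -/
theorem ordGE_sub_trunc (f : v.toValuationSubring) (n : ℕ) :
    OrdGE v n ((f : F) - aeval t (PowerSeries.trunc n (expandPS ht f))) := by
  have h1 := ordGE_sub_sum ht n f
  have h2 := ordGE_aeval_sub ht (PowerSeries.trunc n (expandPS ht f)) n
  rw [Finset.sum_congr rfl fun i hi => by
    rw [PowerSeries.coeff_trunc, if_pos (Finset.mem_range.1 hi), expandPS,
      PowerSeries.coeff_mk]] at h2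
  have := h1.sub h2
  rwa [sub_sub_sub_cancel_right] at this

/-- Expansion of regular functions, as a ring homomorphism. -/
def expandHom : v.toValuationSubring →+* PowerSeries K where
  toFun := expandPS ht
  map_one' := by
    ext i
    refine (coeff_expandPS_eq ht 1 (n := i + 1) (a := fun k => if k = 0 then 1 else 0) ?_ i
      (by omega)).trans (by simp [PowerSeries.coeff_one])
    rw [Finset.sum_eq_single 0 (fun b _ hb => by simp [hb]) (by simp)]
    simp [OrdGE]
  map_zero' := by
    ext i
    refine (coeff_expandPS_eq ht 0 (n := i + 1) (a := fun _ => 0) ?_ i (by omega)).trans (by simp)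
    simp [OrdGE]
  map_add' f g := by
    ext i
    refine (coeff_expandPS_eq ht (f + g) (n := i + 1)
      (a := fun k => expandCoeff ht f k + expandCoeff ht g k) ?_ i (by omega)).trans
      (by simp [expandPS])
    have h := (ordGE_sub_sum ht (i + 1) f).add (ordGE_sub_sum ht (i + 1) g)
    simp only [map_add, add_mul, Finset.sum_add_distrib]
    rwa [sub_add_sub_comm] at h
  map_mul' f g := by
    ext i
    refine (coeff_expandPS_eq ht (f * g) (n := i + 1)
      (a := fun k => (PowerSeries.trunc (i + 1) (expandPS ht f) *
        PowerSeries.trunc (i + 1) (expandPS ht g)).coeff k) ?_ i (by omega)).trans ?_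
    · have hp : ∀ p : K[X], OrdGE v 0 (aeval t p) := fun p => by
        simpa using ordGE_aeval_sub ht p 0
      have h1 := ((ordGE_sub_trunc ht f (i + 1)).mul (mem_iff_ordGE.1 g.2)).add
        (((hp (PowerSeries.trunc (i + 1) (expandPS ht f))).mul (ordGE_sub_trunc ht g (i + 1))).mono
          (show ((i + 1 : ℕ) : ℤ) + 0 ≤ 0 + ((i + 1 : ℕ) : ℤ) by omega))
      have h2 := (h1.mono (show ((i + 1 : ℕ) : ℤ) ≤ _ by omega)).add
        (ordGE_aeval_sub ht (PowerSeries.trunc (i + 1) (expandPS ht f) *
          PowerSeries.trunc (i + 1) (expandPS ht g)) (i + 1))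
      rw [map_mul] at h2
      convert h2 using 1
      rw [MulMemClass.coe_mul]
      ring
    · rw [PowerSeries.coeff_mul_eq_coeff_trunc_mul_trunc (expandPS ht f) (expandPS ht g)
        (Nat.lt_succ_self i), ← Polynomial.coe_mul, Polynomial.coeff_coe]

theorem expandHom_algebraMap (c : K) :
    expandHom ht (algebraMap K v.toValuationSubring c) = PowerSeries.C c := by
  ext i
  refine (coeff_expandPS_eq ht _ (n := i + 1) (a := fun k => if k = 0 then c else 0) ?_ i
    (by omega)).trans (by simp [PowerSeries.coeff_C])
  rw [Finset.sum_eq_single 0 (fun b _ hb => by simp [hb]) (by simp)]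
  simp [OrdGE]

theorem expandHom_injective : Function.Injective (expandHom ht) := by
  rw [injective_iff_map_eq_zero]
  intro f hf
  by_contra hne
  have hne' : (f : F) ≠ 0 := fun h => hne (Subtype.ext h)
  have h := ordGE_sub_sum ht ((v.ord (f : F)).toNat + 1) f
  rw [Finset.sum_eq_zero fun i _ => by
    rw [show expandCoeff ht f i = PowerSeries.coeff i (expandHom ht f) from
      (PowerSeries.coeff_mk _ _).symm, hf, map_zero, map_zero, zero_mul], sub_zero,
    ordGE_iff_le hne'] at h
  omega

theorem expand_aux_injective :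
    Function.Injective ((HahnSeries.ofPowerSeries ℤ K).comp (expandHom ht)) :=
  fun _ _ h => expandHom_injective ht (HahnSeries.ofPowerSeries_injective h)

/-- Laurent expansion at `v` in the uniformizer `t`. -/
def expand : F →ₐ[K] LaurentSeries K where
  toRingHom := IsFractionRing.lift (A := v.toValuationSubring) (K := F) (expand_aux_injective ht)
  commutes' c := by
    show IsFractionRing.lift (expand_aux_injective ht) (algebraMap K F c) = _
    rw [IsScalarTower.algebraMap_apply K v.toValuationSubring F, IsFractionRing.lift_algebraMap,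
      RingHom.comp_apply, expandHom_algebraMap, HahnSeries.algebraMap_apply']
    simp

theorem expand_coe (f : v.toValuationSubring) :
    expand ht (f : F) = HahnSeries.ofPowerSeries ℤ K (expandHom ht f) :=
  IsFractionRing.lift_algebraMap (expand_aux_injective ht) f

/-- The uniformizer expands to `s`. -/
theorem expand_t : expand ht t = HahnSeries.single 1 1 := by
  have hmem : t ∈ v.toValuationSubring := mem_iff_ordGE.2 (Or.inr (by omega))
  refine (expand_coe ht ⟨t, hmem⟩).trans ?_
  have : expandHom ht ⟨t, hmem⟩ = PowerSeries.X := by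
    ext i
    refine (coeff_expandPS_eq ht ⟨t, hmem⟩ (n := i + 2) (a := fun k => if k = 1 then 1 else 0) ?_ i
      (by omega)).trans (by simp [PowerSeries.coeff_X])
    rw [Finset.sum_eq_single 1 (fun b _ hb => by simp [hb]) (by simp)]
    simp [OrdGE]
  rw [this, HahnSeries.ofPowerSeries_X]

omit [IsAlgClosed K] [IsFF K F] in
/-- A nonzero function is a power of the uniformizer times a unit. -/
theorem exists_eq_pow_mul {f : F} (hf : f ≠ 0) :
    ∃ u : v.toValuationSubring, IsUnit u ∧ f = t ^ (v.ord f) * u := by
  have hmem : t ∈ v.toValuationSubring := mem_iff_ordGE.2 (Or.inr (by omega))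
  have ht0 : t ≠ 0 := fun h => by simp [h] at ht
  have hu : v.ord (f / t ^ v.ord f) = 0 := by
    rw [ord_div hf (zpow_ne_zero _ ht0), v.ord_zpow, ht]; ring
  have hne : f / t ^ v.ord f ≠ 0 := div_ne_zero hf (zpow_ne_zero _ ht0)
  refine ⟨⟨_, (mem_iff_ord_nonneg hne).2 hu.ge⟩, ?_, ?_⟩
  · by_contra hnu
    have h := (ordGE_one_iff_of_mem (v := v) ⟨_, (mem_iff_ord_nonneg hne).2 hu.ge⟩).2 hnu
    rw [ordGE_iff_le hne] at h
    omega
  · exact (mul_div_cancel₀ _ (zpow_ne_zero _ ht0)).symm

/-- The order of the expansion is `ord`. -/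
theorem order_expand (f : F) : (expand ht f).order = v.ord f := by
  rcases eq_or_ne f 0 with rfl | hf
  · simp
  obtain ⟨u, hu, huf⟩ := exists_eq_pow_mul ht hf
  have hc : (expand ht (u : F)).coeff 0 ≠ 0 ∧ SGE 0 (expand ht (u : F)) := by
    rw [expand_coe]
    refine ⟨?_, fun j hj => ?_⟩
    · rw [show (0 : ℤ) = ((0 : ℕ) : ℤ) from rfl, HahnSeries.ofPowerSeries_apply_coeff,
        PowerSeries.coeff_zero_eq_constantCoeff]
      exact (PowerSeries.isUnit_constantCoeff _ (hu.map (expandHom ht))).ne_zero
    · rw [HahnSeries.ofPowerSeries_apply]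
      refine HahnSeries.embDomain_of_notMem_range ?_
      rintro ⟨m, rfl⟩
      exact absurd hj (not_lt.2 (Int.natCast_nonneg m))
  obtain ⟨h1, h2⟩ := order_eq_zero_of_sge hc.2 hc.1
  conv_lhs => rw [huf]
  rw [map_mul, map_zpow₀, expand_t, HahnSeries.order_mul (zpow_ne_zero _ (by simp)) h1, h2,
    add_zero, order_zpow (HahnSeries.single_ne_zero one_ne_zero),
    HahnSeries.order_single one_ne_zero, mul_one]

/-- The expansion is injective. -/
theorem expand_injective : Function.Injective (expand ht) := (expand ht).toRingHom.injective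

/-- `ord_v f ≥ n` iff the expansion has no exponent below `n`. -/
theorem ordGE_iff_sge {n : ℤ} {f : F} : OrdGE v n f ↔ SGE n (expand ht f) := by
  rw [sge_iff, order_expand, map_eq_zero]
  rfl

end

end FermatAgent.Curve
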