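import Mathlib.GroupTheory.Perm.Cycle.Basic
import Mathlib.RingTheory.RootsOfUnity.PrimitiveRoots
import Mathlib.RingTheory.PowerSeries.Inverse
import Mathlib.RingTheory.PowerSeries.Order
import Fermat.Agent.Curve.Expansion

/-!
# Places through embeddings into Laurent series

At most `ord P x` distinct embeddings of `F` into `L((s))` sending `x` to one series of positive
order are centred at a place `P`, in any characteristic.  So `[F : K(x)]` of them find every zero
of `x`; if a rotation `s ↦ ζ s` permutes the embeddings by a permutation `r`, the zeros of `x`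
correspond to the cycles of `r`.
-/

set_option autoImplicit false

noncomputable section

open AlgebraicCurve Polynomial IntermediateField

namespace FermatAgent.Curve

variable {K F L : Type*} [Field K] [Field F] [Algebra K F] [Field L] [Algebra K L]

variable (L) in
/-- Laurent series without negative exponents. -/
def powerSeriesSubring : ValuationSubring (LaurentSeries L) where
  carrier := {f | SGE 0 f}
  mul_mem' ha hb := by have := ha.mul hb; rwa [add_zero] at this
  one_mem' := fun j hj => by simp [HahnSeries.coeff_one, hj.ne]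
  add_mem' ha hb := ha.add hb
  zero_mem' := SGE.zero
  neg_mem' ha := ha.neg
  mem_or_inv_mem' f := by
    rcases eq_or_ne f 0 with rfl | hf
    · exact Or.inl SGE.zero
    rcases le_total 0 f.order with h | h
    · exact Or.inl ((sge_order f).mono h)
    · exact Or.inr ((sge_order f⁻¹).mono (by rw [order_inv hf]; omega))

/-- Constants become constant Laurent series. -/
theorem algebraMap_laurent (a : K) :
    algebraMap K (LaurentSeries L) a = HahnSeries.single 0 (algebraMap K L a) := by
  rw [HahnSeries.algebraMap_apply', PowerSeries.algebraMap_apply, HahnSeries.ofPowerSeries_C,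
    HahnSeries.C_apply]

theorem sge_algebraMap (a : K) : SGE 0 (algebraMap K (LaurentSeries L) a) := by
  intro j hj
  rw [algebraMap_laurent]
  simp [HahnSeries.coeff_single_of_ne hj.ne]

variable [IsFF K F]

/-- The place on which an embedding is centred. -/
def centre (σ : F →ₐ[K] LaurentSeries L) {x : F} (hx : 0 < (σ x).order) : Place K F :=
  placeOfValuationSubring ((powerSeriesSubring L).comap σ.toRingHom)
    (fun a => by
      show SGE 0 (σ (algebraMap K F a))
      rw [σ.commutes]; exact sge_algebraMap a)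
    (fun h => by
      have hmem : x⁻¹ ∈ (powerSeriesSubring L).comap σ.toRingHom := h ▸ ValuationSubring.mem_top _
      have h2 : SGE 0 (σ x⁻¹) := hmem
      have hne : σ x ≠ 0 := fun h0 => by simp [h0] at hx
      rw [map_inv₀, sge_iff, order_inv hne] at h2
      rcases h2 with h2 | h2
      · exact inv_ne_zero hne h2
      · omega)

section Single

variable (σ : F →ₐ[K] LaurentSeries L) {x : F} (hx : 0 < (σ x).order)

/-- The valuation ring of the centre consists of the elements whose images have no negative
exponents. -/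
theorem mem_centre {f : F} : f ∈ (centre σ hx).toValuationSubring ↔ SGE 0 (σ f) := Iff.rfl

/-- Embeddings giving all elements the same orders have the same centre. -/
theorem centre_eq_of_forall {τ : F →ₐ[K] LaurentSeries L} (hτ : 0 < (τ x).order)
    (h : ∀ f, (σ f).order = (τ f).order) : centre σ hx = centre τ hτ := by
  refine Place.ext (SetLike.ext fun f => ?_)
  rw [mem_centre, mem_centre, sge_iff, sge_iff, map_eq_zero, map_eq_zero, h]

/-- If `t` is a uniformizer at the centre of `σ`, then `ord (σ f) = ord (σ t) · ord_P f`. -/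
theorem order_apply {t : F} (ht : (centre σ hx).ord t = 1) (f : F) :
    (σ f).order = (σ t).order * (centre σ hx).ord f := by
  have ht0 : t ≠ 0 := fun h => by simp [h] at ht
  rcases eq_or_ne f 0 with rfl | hf
  · simp
  obtain ⟨u, hu, huf⟩ := exists_eq_pow_mul ht hf
  obtain ⟨u, rfl⟩ := hu
  have hu0 : ((u : (centre σ hx).toValuationSubring) : F) ≠ 0 := fun h =>
    u.ne_zero (Subtype.ext h)
  have h1 := ((mem_centre σ hx).1 (u : (centre σ hx).toValuationSubring).2).le_order
    ((_root_.map_ne_zero σ).2 hu0)
  have h2 := (mem_centre σ hx).1 (u⁻¹ : (centre σ hx).toValuationSubringˣ).1.2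
  have hinv : (((u⁻¹ : (centre σ hx).toValuationSubringˣ) : (centre σ hx).toValuationSubring) : F)
      = ((u : (centre σ hx).toValuationSubring) : F)⁻¹ := by
    refine eq_inv_of_mul_eq_one_left ?_
    exact congrArg Subtype.val u.inv_mul
  rw [hinv, map_inv₀] at h2
  have h3 := h2.le_order (inv_ne_zero ((_root_.map_ne_zero σ).2 hu0))
  rw [order_inv ((_root_.map_ne_zero σ).2 hu0)] at h3
  conv_lhs => rw [huf]
  rw [map_mul, map_zpow₀, HahnSeries.order_mul (zpow_ne_zero _ ((_root_.map_ne_zero σ).2 ht0))
    ((_root_.map_ne_zero σ).2 hu0), order_zpow ((_root_.map_ne_zero σ).2 ht0)]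
  rw [show (σ ((u : (centre σ hx).toValuationSubring) : F)).order = 0 by omega, add_zero, mul_comm]

/-- `x` vanishes at the centre. -/
theorem centre_ord_pos : 0 < (centre σ hx).ord x := by
  have hx0 : x ≠ 0 := fun h => by simp [h] at hx
  by_contra hle
  have hmem : x⁻¹ ∈ (centre σ hx).toValuationSubring :=
    (mem_iff_ord_nonneg (inv_ne_zero hx0)).2 (by rw [Place.ord_inv]; omega)
  rw [mem_centre, map_inv₀] at hmem
  have := hmem.le_order (inv_ne_zero ((_root_.map_ne_zero σ).2 hx0))
  rw [order_inv ((_root_.map_ne_zero σ).2 hx0)] at this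
  omega

/-- The image of a uniformizer at the centre has positive order. -/
theorem order_uniformizer_pos {t : F} (ht : (centre σ hx).ord t = 1) : 0 < (σ t).order := by
  have h := order_apply σ hx ht x
  have h2 := centre_ord_pos σ hx
  exact (pos_iff_pos_of_mul_pos (h ▸ hx)).2 h2

/-- Elements vanishing to order `n` at the centre have images with exponents at least `n`. -/
theorem sge_apply {t : F} (ht : (centre σ hx).ord t = 1) {n : ℕ} {f : F}
    (hf : OrdGE (centre σ hx) n f) : SGE (n : ℤ) (σ f) := by
  rcases eq_or_ne f 0 with rfl | hf0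
  · rw [map_zero]; exact SGE.zero
  refine sge_iff.2 (Or.inr ?_)
  rw [order_apply σ hx ht]
  have h1 := order_uniformizer_pos σ hx ht
  have h2 := (ordGE_iff_le hf0).1 hf
  nlinarith

variable [IsAlgClosed K]

/-- An embedding is determined by the image of a uniformizer. -/
theorem eq_of_centre_eq {τ : F →ₐ[K] LaurentSeries L} (hτ : 0 < (τ x).order)
    (hc : centre τ hτ = centre σ hx) {t : F} (ht : (centre σ hx).ord t = 1) (heq : σ t = τ t) :
    σ = τ := by
  suffices h : ∀ f : F, OrdGE (centre σ hx) 0 f → σ f = τ f by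
    refine AlgHom.ext fun f => ?_
    by_cases hf : 0 ≤ (centre σ hx).ord f
    · exact h f (Or.inr hf)
    · refine inv_injective ?_
      rw [← map_inv₀, ← map_inv₀]
      exact h _ (Or.inr (by rw [Place.ord_inv]; omega))
  intro f hf
  refine sub_eq_zero.1 (eq_zero_of_forall_sge fun n => ?_)
  set P := aeval t (PowerSeries.trunc n (expandPS ht ⟨f, mem_iff_ordGE.2 hf⟩))
  have hd : OrdGE (centre σ hx) n (f - P) := ordGE_sub_trunc ht ⟨f, mem_iff_ordGE.2 hf⟩ n
  have hP : σ P = τ P := by
    rw [← aeval_algHom_apply, ← aeval_algHom_apply, heq]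
  have h1 := sge_apply σ hx ht hd
  have h2 := sge_apply τ hτ (t := t) (by rw [hc]; exact ht) (hc.symm ▸ hd)
  rw [map_sub] at h1 h2
  rw [hP] at h1
  simpa using h1.sub h2

end Single

/-- The order as a divisibility. -/
theorem natCast_le_order_iff {R : Type*} [CommRing R] {φ : PowerSeries R} {n : ℕ} :
    (n : ℕ∞) ≤ φ.order ↔ PowerSeries.X ^ n ∣ φ :=
  ⟨fun h => PowerSeries.X_pow_dvd_iff.2 fun i hi => PowerSeries.coeff_of_lt_order i
    (lt_of_lt_of_le (by exact_mod_cast hi) h),
    fun h => PowerSeries.nat_le_order φ n (PowerSeries.X_pow_dvd_iff.1 h)⟩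

/-- Many small distinct approximate roots force a polynomial to vanish to high order modulo `X`. -/
theorem X_pow_card_dvd_map {L : Type*} [Field L] {ι : Type*} (T : ι → PowerSeries L) {d : ℕ}
    (S : Finset ι) (hpos : ∀ i ∈ S, PowerSeries.constantCoeff (T i) = 0)
    (hsep : ∀ i ∈ S, ∀ j ∈ S, i ≠ j → ¬ PowerSeries.X ^ (d + 1) ∣ T i - T j) :
    ∀ (n : ℕ) (Q : (PowerSeries L)[X]), S.card * d < n →
      (∀ i ∈ S, PowerSeries.X ^ n ∣ Q.eval (T i)) →
      Polynomial.X ^ S.card ∣ Q.map (PowerSeries.constantCoeff (R := L)) := by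
  classical
  induction S using Finset.induction_on with
  | empty => intro n Q _ _; simp
  | insert a S ha ih =>
    intro n Q hn hQ
    rw [Finset.card_insert_of_notMem ha] at hn ⊢
    obtain ⟨Q1, hQ1⟩ : (Polynomial.X - Polynomial.C (T a)) ∣ Q - Polynomial.C (Q.eval (T a)) :=
      dvd_iff_isRoot.2 (by simp)
    have hQe : Q = (Polynomial.X - Polynomial.C (T a)) * Q1 + Polynomial.C (Q.eval (T a)) := by
      rw [← hQ1, sub_add_cancel]
    have hdn : d ≤ n := by nlinarith
    have h1 : ∀ i ∈ S, PowerSeries.X ^ (n - d) ∣ Q1.eval (T i) := by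
      intro i hi
      have hne : i ≠ a := fun h => ha (h ▸ hi)
      have h2 : PowerSeries.X ^ n ∣ (T i - T a) * Q1.eval (T i) := by
        have h3 := congrArg (fun P => P.eval (T i)) hQe
        simp only [eval_add, eval_mul, eval_sub, eval_X, eval_C] at h3
        rw [show (T i - T a) * Q1.eval (T i) = Q.eval (T i) - Q.eval (T a) by
          linear_combination -h3]
        exact dvd_sub (hQ i (Finset.mem_insert_of_mem hi)) (hQ a (Finset.mem_insert_self _ _))
      have hs := hsep i (Finset.mem_insert_of_mem hi) a (Finset.mem_insert_self _ _) hne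
      rw [PowerSeries.X_pow_dvd_iff] at hs
      push Not at hs
      obtain ⟨c, hc, hc'⟩ := hs
      rcases eq_or_ne (Q1.eval (T i)) 0 with h0 | h0
      · rw [h0]; exact dvd_zero _
      have hT : (T i - T a) ≠ 0 := fun h => hc' (by rw [h, map_zero])
      have ho : (T i - T a).order ≤ (c : ℕ∞) := PowerSeries.order_le c hc'
      rw [← natCast_le_order_iff, PowerSeries.order_mul] at h2
      rw [← natCast_le_order_iff]
      lift (T i - T a).order to ℕ using (PowerSeries.order_eq_top.not.2 hT) with o1
      lift (Q1.eval (T i)).order to ℕ using (PowerSeries.order_eq_top.not.2 h0) with o2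
      rw [← Nat.cast_add, Nat.cast_le] at h2
      rw [Nat.cast_le] at ho ⊢
      omega
    have ih' := ih (fun i hi => hpos i (Finset.mem_insert_of_mem hi))
      (fun i hi j hj => hsep i (Finset.mem_insert_of_mem hi) j (Finset.mem_insert_of_mem hj))
      (n - d) Q1 (by rw [add_one_mul] at hn; omega) h1
    have hc0 : PowerSeries.constantCoeff (Q.eval (T a)) = 0 :=
      PowerSeries.X_dvd_iff.1 ((dvd_pow_self _ (by omega : n ≠ 0)).trans
        (hQ a (Finset.mem_insert_self _ _)))
    rw [hQe, Polynomial.map_add, Polynomial.map_mul, Polynomial.map_sub, Polynomial.map_X,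
      Polynomial.map_C, Polynomial.map_C, hpos a (Finset.mem_insert_self _ _), hc0, map_zero,
      sub_zero, add_zero, pow_succ']
    exact mul_dvd_mul_left _ ih'

/-- A Laurent series of nonnegative order as a power series. -/
theorem exists_eq_ofPowerSeries {f : LaurentSeries L} (hf : SGE 0 f) :
    ∃ p : PowerSeries L, HahnSeries.ofPowerSeries ℤ L p = f := by
  refine ⟨PowerSeries.mk fun i => f.coeff i, ?_⟩
  ext i
  rcases lt_or_ge i 0 with hi | hi
  · rw [hf i hi, HahnSeries.ofPowerSeries_apply, HahnSeries.embDomain_of_notMem_range]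
    rintro ⟨l, hl⟩
    simp at hl
    omega
  · obtain ⟨l, rfl⟩ := Int.eq_ofNat_of_zero_le hi
    rw [HahnSeries.ofPowerSeries_apply_coeff, PowerSeries.coeff_mk]

theorem X_pow_dvd_of_sge {p : PowerSeries L} {n : ℕ}
    (h : SGE (n : ℤ) (HahnSeries.ofPowerSeries ℤ L p)) : PowerSeries.X ^ n ∣ p :=
  PowerSeries.X_pow_dvd_iff.2 fun i hi => by
    have := h i (by exact_mod_cast hi)
    rwa [HahnSeries.ofPowerSeries_apply_coeff] at this

section Count

variable [IsAlgClosed K] {ι : Type*} {σ : ι → F →ₐ[K] LaurentSeries L} (hinj : Function.Injective σ)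
  {x : F} {h : LaurentSeries L} (hσx : ∀ i, σ i x = h) (hpos : ∀ i, 0 < (σ i x).order)

include hinj hσx in
/-- At most `ord P x` of the embeddings are centred at `P`. -/
theorem card_centre_le [Fintype ι] [DecidableEq (Place K F)] (P : Place K F) :
    ((Finset.univ.filter fun i => centre (σ i) (hpos i) = P).card : ℤ) ≤ max (P.ord x) 0 := by
  classical
  set S := Finset.univ.filter fun i => centre (σ i) (hpos i) = P with hS
  rcases S.eq_empty_or_nonempty with hemp | ⟨i0, hi0⟩
  · rw [hemp]; simp
  have hmem : ∀ i ∈ S, centre (σ i) (hpos i) = P := fun i hi => (Finset.mem_filter.1 hi).2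
  have hP : 0 < P.ord x := hmem i0 hi0 ▸ centre_ord_pos _ _
  obtain ⟨e, he⟩ : ∃ e : ℕ, P.ord x = e := ⟨(P.ord x).toNat, (Int.toNat_of_nonneg hP.le).symm⟩
  rw [max_eq_left hP.le, he, Nat.cast_le]
  by_contra hcard
  push Not at hcard
  obtain ⟨t, -, ht⟩ := exists_ord_eq_one P
  have hTo : ∀ i ∈ S, ∃ p : PowerSeries L, PowerSeries.constantCoeff p = 0 ∧
      HahnSeries.ofPowerSeries ℤ L p = σ i t := by
    intro i hi
    have h1 := order_uniformizer_pos (σ i) (hpos i) (t := t) (by rw [hmem i hi]; exact ht)
    obtain ⟨p, hp⟩ := exists_eq_ofPowerSeries (f := σ i t) ((sge_order _).mono h1.le)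
    refine ⟨p, ?_, hp⟩
    have h2 := HahnSeries.coeff_eq_zero_of_lt_order h1
    rw [← hp] at h2
    rw [← PowerSeries.coeff_zero_eq_constantCoeff_apply,
      ← HahnSeries.ofPowerSeries_apply_coeff (Γ := ℤ)]
    exact h2
  choose! T hT0 hT using hTo
  have hne : ∀ i ∈ S, ∀ j ∈ S, i ≠ j → T i ≠ T j := fun i hi j hj hij hTe => hij (hinj
    (eq_of_centre_eq (σ i) (hpos i) (hpos j) ((hmem j hj).trans (hmem i hi).symm) (t := t)
      (by rw [hmem i hi]; exact ht) (by rw [← hT i hi, ← hT j hj, hTe])))
  obtain ⟨d, hd⟩ : ∃ d : ℕ, ∀ i ∈ S, ∀ j ∈ S, i ≠ j → ¬ PowerSeries.X ^ (d + 1) ∣ T i - T j := by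
    refine ⟨(S ×ˢ S).sup fun p => (T p.1 - T p.2).order.toNat, fun i hi j hj hij hdvd => ?_⟩
    have h1 := Finset.le_sup (f := fun p : ι × ι => (T p.1 - T p.2).order.toNat)
      (Finset.mk_mem_product hi hj)
    have h2 := natCast_le_order_iff.2 hdvd
    lift (T i - T j).order to ℕ using
      (PowerSeries.order_eq_top.not.2 (sub_ne_zero.2 (hne i hi j hj hij))) with o ho
    rw [Nat.cast_le] at h2
    simp only [ENat.toNat_natCast] at h1
    omega
  set n := S.card * d + e + 1
  set u : P.toValuationSubring := ⟨x, mem_iff_ordGE.2 (Or.inr hP.le)⟩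
  set G := PowerSeries.trunc n (expandPS ht u) with hG
  have hd1 : OrdGE P n (x - aeval t G) := ordGE_sub_trunc ht u n
  obtain ⟨hp, hhp⟩ := exists_eq_ofPowerSeries (f := h)
    ((sge_order h).mono (hσx i0 ▸ (hpos i0).le))
  set Q : (PowerSeries L)[X] :=
    G.map ((PowerSeries.C (R := L)).comp (algebraMap K L)) - Polynomial.C hp with hQ
  have hQev : ∀ i ∈ S, PowerSeries.X ^ n ∣ Q.eval (T i) := by
    intro i hi
    refine X_pow_dvd_of_sge ?_
    have h1 := sge_apply (σ i) (hpos i) (t := t) (by rw [hmem i hi]; exact ht)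
      ((hmem i hi).symm ▸ hd1)
    have he : (HahnSeries.ofPowerSeries ℤ L) (Q.eval (T i)) = -(σ i (x - aeval t G)) := by
      rw [map_sub (σ i), hσx, ← aeval_algHom_apply, ← hT i hi, hQ, eval_sub, eval_C,
        eval_map, map_sub, hhp, hom_eval₂, neg_sub, aeval_def, ← RingHom.comp_assoc]
      congr 2
      ext a
      simp [algebraMap_laurent, HahnSeries.C_apply]
    rw [he]
    exact h1.neg
  have hdvd := X_pow_card_dvd_map T S hT0 hd n Q (by omega) hQev
  have hQ0 : Q.map (PowerSeries.constantCoeff (R := L)) =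
      G.map (algebraMap K L) - Polynomial.C (PowerSeries.constantCoeff hp) := by
    rw [hQ, Polynomial.map_sub, Polynomial.map_map, Polynomial.map_C]
    rfl
  rw [hQ0] at hdvd
  have hcoef : ∀ l ≤ e, G.coeff l = 0 := by
    intro l hl
    have := Polynomial.X_pow_dvd_iff.1 hdvd l (by omega)
    rw [Polynomial.coeff_sub, Polynomial.coeff_map, Polynomial.coeff_C] at this
    split_ifs at this with h0
    · subst h0
      have hh : PowerSeries.constantCoeff hp = 0 := by
        rw [← PowerSeries.coeff_zero_eq_constantCoeff_apply,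
          ← HahnSeries.ofPowerSeries_apply_coeff (Γ := ℤ), hhp, ← hσx i0]
        exact HahnSeries.coeff_eq_zero_of_lt_order (hpos i0)
      rwa [hh, sub_zero, map_eq_zero] at this
    · rwa [sub_zero, map_eq_zero] at this
  have hd2 : OrdGE P (e + 1 : ℕ) x := by
    have h1 := ordGE_sub_trunc ht u (e + 1)
    have h2 : PowerSeries.trunc (e + 1) (expandPS ht u) = 0 := by
      ext l
      rw [PowerSeries.coeff_trunc, Polynomial.coeff_zero]
      split_ifs with hl
      · have := hcoef l (by omega)
        rwa [hG, PowerSeries.coeff_trunc, if_pos (by omega)] at this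
      · rfl
    rw [h2, map_zero, sub_zero] at h1
    exact h1
  have hx0 : x ≠ 0 := fun h0 => by simp [h0] at hP
  have := (ordGE_iff_le hx0).1 hd2
  rw [he] at this
  push_cast at this
  omega

include hinj hσx in
/-- Enough embeddings are centred exactly `ord P x` at a time. -/
theorem card_centre_eq [Fintype ι] [DecidableEq (Place K F)] (hx : Transcendental K x)
    (hcard : Module.finrank K⟮x⟯ F ≤ Fintype.card ι) {P : Place K F} (hP : 0 < P.ord x) :
    ((Finset.univ.filter fun i => centre (σ i) (hpos i) = P).card : ℤ) = P.ord x := by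
  classical
  set Z := (finite_ord_pos (K := K) x).toFinset with hZ
  have hmem : ∀ Q, Q ∈ Z ↔ 0 < Q.ord x := fun Q => by simp [hZ]
  have hsum := sum_zeros_eq_finrank hx
  rw [← hZ, Finset.sum_congr rfl (fun Q _ => by rw [deg_eq_one, Nat.cast_one, mul_one] :
    ∀ Q ∈ Z, Q.ord x * Q.deg = Q.ord x)] at hsum
  have hle : ∀ Q ∈ Z, ((Finset.univ.filter fun i => centre (σ i) (hpos i) = Q).card : ℤ) ≤
      Q.ord x := fun Q hQ => by
    have := card_centre_le hinj hσx hpos Q
    rwa [max_eq_left ((hmem Q).1 hQ).le] at this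
  have hcount : ((Fintype.card ι : ℕ) : ℤ) =
      ∑ Q ∈ Z, ((Finset.univ.filter fun i => centre (σ i) (hpos i) = Q).card : ℤ) := by
    rw [← Finset.card_univ, Finset.card_eq_sum_card_fiberwise
      (f := fun i => centre (σ i) (hpos i)) (t := Z) fun i _ => (hmem _).2 (centre_ord_pos _ _)]
    push_cast
    rfl
  refine le_antisymm (hle P ((hmem P).2 hP)) (le_of_not_gt fun hlt => ?_)
  have := Finset.sum_lt_sum hle ⟨P, (hmem P).2 hP, hlt⟩
  have hc : ((Module.finrank K⟮x⟯ F : ℕ) : ℤ) ≤ Fintype.card ι := by exact_mod_cast hcard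
  omega

include hinj hσx hpos in
/-- Enough embeddings are exactly as many as the degree. -/
theorem finrank_eq_card [Fintype ι] (hx : Transcendental K x)
    (hcard : Module.finrank K⟮x⟯ F ≤ Fintype.card ι) :
    Module.finrank K⟮x⟯ F = Fintype.card ι := by
  classical
  rw [← Nat.cast_inj (R := ℤ), ← sum_zeros_eq_finrank hx, ← Finset.card_univ,
    Finset.card_eq_sum_card_fiberwise (f := fun i => centre (σ i) (hpos i))
      (t := (finite_ord_pos (K := K) x).toFinset) fun i _ => by simpa using centre_ord_pos _ _,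
    Nat.cast_sum]
  refine Finset.sum_congr rfl fun Q hQ => ?_
  rw [card_centre_eq hinj hσx hpos hx hcard (by simpa using hQ), deg_eq_one, Nat.cast_one, mul_one]

include hinj hσx in
/-- Enough embeddings reach every zero of `x`. -/
theorem exists_centre_eq [Fintype ι] (hx : Transcendental K x)
    (hcard : Module.finrank K⟮x⟯ F ≤ Fintype.card ι) {P : Place K F} (hP : 0 < P.ord x) :
    ∃ i, centre (σ i) (hpos i) = P := by
  classical
  by_contra hc
  push Not at hc
  have h := card_centre_eq hinj hσx hpos hx hcard hP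
  rw [Finset.card_eq_zero.2 (Finset.filter_eq_empty_iff.2 fun i _ => hc i)] at h
  omega

end Count

variable {x : F}

/-- Enough embeddings over a series of positive order. -/
structure EmbeddingFamily (x : F) (ι : Type*) [Fintype ι] (L : Type*) [Field L] [Algebra K L] where
  /-- the embeddings into Laurent series -/
  σ : ι → F →ₐ[K] LaurentSeries L
  σ_injective : Function.Injective σ
  /-- the common image of `x` -/
  h : LaurentSeries L
  σ_x : ∀ i, σ i x = h
  /-- the order of `h` -/
  m : ℕ
  m_pos : 0 < m
  order_h : h.order = m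
  card_ge : Module.finrank K⟮x⟯ F ≤ Fintype.card ι

namespace EmbeddingFamily

variable [IsAlgClosed K] {ι : Type*} [Fintype ι] (E : EmbeddingFamily (K := K) x ι L)

omit [IsAlgClosed K] [IsFF K F] in
/-- The embeddings of the family send `x` to a series of positive order. -/
theorem order_pos (i : ι) : 0 < (E.σ i x).order := by
  rw [E.σ_x, E.order_h]; exact_mod_cast E.m_pos

/-- The place of the `i`-th embedding. -/
def place (i : ι) : Place K F := centre (E.σ i) (E.order_pos i)

omit [IsAlgClosed K] in
/-- `x` vanishes at the place of each embedding. -/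
theorem ord_place_pos (i : ι) : 0 < (E.place i).ord x := centre_ord_pos _ _

include E in
omit [IsAlgClosed K] in
theorem transcendental_of_family (i : ι) : Transcendental K x :=
  transcendental_of_ord_ne_zero (v := E.place i) (E.ord_place_pos i).ne'

/-- The two consequences of counting. -/
theorem count [Nonempty ι] [DecidableEq (Place K F)] :
    Module.finrank K⟮x⟯ F = Fintype.card ι ∧
      ∀ P : Place K F, 0 < P.ord x →
        ((Finset.univ.filter fun i => E.place i = P).card : ℤ) = P.ord x := by
  have htr := E.transcendental_of_family (Classical.arbitrary ι)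
  exact ⟨finrank_eq_card E.σ_injective E.σ_x E.order_pos htr E.card_ge,
    fun P hP => card_centre_eq E.σ_injective E.σ_x E.order_pos htr E.card_ge hP⟩

/-- Every zero of `x` is the place of one of the embeddings. -/
theorem exists_place_eq [Nonempty ι] (P : Place K F) (hP : 0 < P.ord x) :
    ∃ i, E.place i = P :=
  exists_centre_eq E.σ_injective E.σ_x E.order_pos
    (E.transcendental_of_family (Classical.arbitrary ι)) E.card_ge hP

end EmbeddingFamily

end FermatAgent.Curve
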