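import Mathlib.RingTheory.Kaehler.Basic
import Mathlib.FieldTheory.Separable
import Mathlib.FieldTheory.Perfect
import Fermat.Prelude.Def_AlgebraicCurve_CanonicalDivisor
import Fermat.Agent.Curve.Expansion
import Fermat.Agent.GaloisBasic.ValuationRing

/-!
# Differentials in characteristic zero
-/

set_option autoImplicit false

noncomputable section

open AlgebraicCurve Polynomial IntermediateField KaehlerDifferential

namespace FermatAgent.Curve

variable {L : Type*} [Field L]

/-- The operator `s d/ds` on Laurent series. -/
def theta : LaurentSeries L →+ LaurentSeries L where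
  toFun f := ⟨fun j => (j : L) * f.coeff j, f.isPWO_support.mono fun j hj h => hj (by simp [h])⟩
  map_zero' := by ext j; simp
  map_add' f g := by ext j; simp [mul_add]

/-- The coefficients of `s f'`. -/
@[simp]
theorem coeff_theta (f : LaurentSeries L) (j : ℤ) : (theta f).coeff j = (j : L) * f.coeff j := rfl

/-- The operator `s d/ds` is a derivation. -/
theorem theta_mul (f g : LaurentSeries L) : theta (f * g) = f * theta g + g * theta f := by
  classical
  ext j
  rw [coeff_theta, HahnSeries.coeff_add, mul_comm g (theta f), HahnSeries.coeff_mul,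
    HahnSeries.coeff_mul_right' (s := g.support) g.isPWO_support (by
      intro k hk h; simp [HahnSeries.mem_support, h] at hk),
    HahnSeries.coeff_mul_left' (s := f.support) f.isPWO_support (by
      intro k hk h; simp [HahnSeries.mem_support, h] at hk),
    Finset.mul_sum, ← Finset.sum_add_distrib]
  refine Finset.sum_congr rfl fun p hp => ?_
  simp only [Finset.mem_antidiagonal] at hp
  rw [coeff_theta, coeff_theta, ← hp.2.2]
  push_cast
  ring

/-- The operator `s d/ds` on a monomial. -/
theorem theta_single (n : ℤ) (c : L) :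
    theta (HahnSeries.single n c) = HahnSeries.single n ((n : L) * c) := by
  ext j
  rcases eq_or_ne j n with rfl | h
  · simp
  · simp [HahnSeries.coeff_single_of_ne h]

/-- The operator `s d/ds` keeps bounds on exponents. -/
theorem sge_theta {n : ℤ} {f : LaurentSeries L} (h : SGE n f) : SGE n (theta f) :=
  fun j hj => by rw [coeff_theta, h j hj, mul_zero]

variable {K F : Type*} [Field K] [Field F] [Algebra K F]

/-- Everything is in the span of `dx` (characteristic zero). -/
theorem exists_eq_smul_D [CharZero K] [IsFF K F] {x : F} (hx : Transcendental K x) (ω : Ω[F⁄K]) :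
    ∃ c : F, c • D K F x = ω := by
  have := IsFF.finite_adjoin (F := F) hx
  have : CharZero K⟮x⟯ := charZero_of_injective_algebraMap (algebraMap K K⟮x⟯).injective
  set S := Submodule.span F {D K F x} with hS
  suffices h : ∀ f : F, D K F f ∈ S by
    have : (⊤ : Submodule F Ω[F⁄K]) ≤ S := by
      rw [← span_range_derivation, Submodule.span_le]
      rintro _ ⟨f, rfl⟩
      exact h f
    exact Submodule.mem_span_singleton.1 (this Submodule.mem_top)
  have hpoly : ∀ p : K[X], D K F (aeval x p) ∈ S := fun p => by
    rw [Derivation.map_aeval]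
    exact S.smul_mem _ (Submodule.subset_span rfl)
  have hrat : ∀ e : K⟮x⟯, D K F (e : F) ∈ S := by
    intro e
    obtain ⟨p, q, hpq⟩ := (mem_adjoin_simple_iff K _).1 e.2
    rw [hpq, div_eq_mul_inv, Derivation.leibniz, Derivation.leibniz_inv]
    exact S.add_mem (S.smul_mem _ (S.smul_mem _ (hpoly q))) (S.smul_mem _ (hpoly p))
  intro f
  have hint : IsIntegral K⟮x⟯ f := IsIntegral.of_finite _ f
  set p := minpoly K⟮x⟯ f
  have hsep : aeval f (derivative p) ≠ 0 :=
    (Algebra.IsSeparable.isSeparable K⟮x⟯ f).aeval_derivative_ne_zero (minpoly.aeval _ _)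
  have h0 : aeval f p = 0 := minpoly.aeval _ _
  rw [aeval_eq_sum_range] at h0
  have hd := congrArg (D K F) h0
  rw [map_zero, map_sum] at hd
  set q := Submodule.mkQ S
  have hq := congrArg q hd
  rw [map_zero, map_sum] at hq
  have hterm : ∀ i, q (D K F (p.coeff i • f ^ i)) =
      (((p.coeff i : F) * ((i : ℕ) : F) * f ^ (i - 1))) • q (D K F f) := by
    intro i
    rw [IntermediateField.smul_def, smul_eq_mul, Derivation.leibniz, map_add, map_smul, map_smul,
      (Submodule.Quotient.mk_eq_zero S).2 (hrat (p.coeff i)) |>.trans rfl |>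
        fun h : q (D K F (p.coeff i : F)) = 0 => h, smul_zero, add_zero, Derivation.leibniz_pow,
      map_nsmul, map_smul, ← Nat.cast_smul_eq_nsmul F, smul_smul, smul_smul]
  rw [Finset.sum_congr rfl fun i _ => hterm i, ← Finset.sum_smul] at hq
  have hderiv : aeval f (derivative p) =
      ∑ i ∈ Finset.range (p.natDegree + 1), (p.coeff i : F) * ((i : ℕ) : F) * f ^ (i - 1) := by
    conv_lhs => rw [p.as_sum_range' (p.natDegree + 1) (Nat.lt_succ_self _)]
    simp only [map_sum, derivative_monomial, aeval_monomial, map_mul, map_natCast]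
    rfl
  rw [← hderiv, smul_eq_zero, or_iff_right hsep] at hq
  exact (Submodule.Quotient.mk_eq_zero S).1 hq

variable [IsAlgClosed K] [IsFF K F] {v : Place K F} {t : F}

/-- The derivation `theta ∘ expand`. -/
theorem exists_derivation (ht : v.ord t = 1) :
    ∃ δ : Ω[F⁄K] →+ LaurentSeries K,
      (∀ (c : F) (ω : Ω[F⁄K]), δ (c • ω) = expand ht c * δ ω) ∧
      ∀ f : F, δ (D K F f) = theta (expand ht f) := by
  let : Algebra F (LaurentSeries K) := (expand ht).toRingHom.toAlgebra
  have hKsmul : ∀ (a : K) (w : LaurentSeries K), a • w = algebraMap K (LaurentSeries K) a * w := by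
    intro a w
    ext j
    rw [HahnSeries.algebraMap_apply', PowerSeries.algebraMap_apply, HahnSeries.ofPowerSeries_C,
      HahnSeries.C_mul_eq_smul]
    simp
  have : IsScalarTower K F (LaurentSeries K) := ⟨fun a f z => by
    show expand ht (a • f) * z = a • (expand ht f * z)
    rw [Algebra.smul_def, map_mul, (expand ht).commutes, hKsmul, mul_assoc]⟩
  let d : Derivation K F (LaurentSeries K) := Derivation.mk'
    { toFun := fun f => theta (expand ht f)
      map_add' := fun f g => by rw [map_add, map_add]
      map_smul' := fun a f => by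
        rw [RingHom.id_apply, Algebra.smul_def a f, map_mul, (expand ht).commutes,
          hKsmul, theta_mul]
        have : theta (algebraMap K (LaurentSeries K) a) = 0 := by
          ext j
          rcases eq_or_ne j 0 with rfl | hj
          · simp
          · rw [HahnSeries.algebraMap_apply', coeff_theta]
            simp [HahnSeries.coeff_single_of_ne hj]
        rw [this, mul_zero, add_zero] }
    (fun a b => by
      show theta (expand ht (a * b)) =
        expand ht a * theta (expand ht b) + expand ht b * theta (expand ht a)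
      rw [map_mul, theta_mul])
  refine ⟨d.liftKaehlerDifferential.toAddMonoidHom, fun c ω => ?_, fun f => ?_⟩
  · exact d.liftKaehlerDifferential.map_smul c ω
  · exact d.liftKaehlerDifferential_comp_D f

theorem D_ne_zero_of_ord_eq_one (ht : v.ord t = 1) : D K F t ≠ 0 := by
  intro h
  obtain ⟨δ, -, hD⟩ := exists_derivation ht
  have h1 := hD t
  rw [h, map_zero, expand_t, theta_single] at h1
  simpa using (HahnSeries.single_eq_zero_iff.1 h1.symm)

variable [CharZero K]

omit [IsAlgClosed K] in
theorem D_ne_zero_aux {x : F} (hx : Transcendental K x) (hne : ∃ y, D K F y ≠ 0) :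
    D K F x ≠ 0 := by
  intro h
  obtain ⟨y, hy⟩ := hne
  obtain ⟨c, hc⟩ := exists_eq_smul_D hx (D K F y)
  rw [h, smul_zero] at hc
  exact hy hc.symm

/-- The differential of a transcendental element is nonzero. -/
theorem D_ne_zero {x : F} (hx : Transcendental K x) : D K F x ≠ 0 := by
  obtain ⟨v⟩ := exists_place (K := K) (F := F)
  obtain ⟨t, -, ht⟩ := exists_ord_eq_one v
  exact D_ne_zero_aux hx ⟨t, D_ne_zero_of_ord_eq_one ht⟩

instance (priority := 100) isCurveOver : IsCurveOver K F where
  toHasPrincipalDivisors := inferInstance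
  finiteResidue := finite_residueField
  kaehler_free_rank_one := by
    obtain ⟨x, hx, -⟩ := IsFF.exists_transcendental (K := K) (F := F)
    exact ⟨inferInstance, finrank_eq_one _ (D_ne_zero hx) fun ω => exists_eq_smul_D hx ω⟩

omit [IsAlgClosed K] [IsFF K F] [CharZero K] in
theorem exists_dCoord_eq (v : Place K F) : ∃ u : F, v.ord u = 1 ∧ v.dCoord = D K F u :=
  ⟨((IsDiscreteValuationRing.exists_irreducible v.toValuationSubring).choose : F),
    v.ord_coe_irreducible
      (IsDiscreteValuationRing.exists_irreducible v.toValuationSubring).choose_spec,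
    rfl⟩

instance (priority := 100) dCoordGenerates (v : Place K F) : v.DCoordGenerates where
  span_eq_top := by
    obtain ⟨u, hu, hd⟩ := exists_dCoord_eq v
    rw [eq_top_iff]
    intro ω _
    rw [Submodule.mem_span_singleton, hd]
    exact exists_eq_smul_D (transcendental_of_ord_ne_zero (v := v) (by omega)) ω

/-- `ord (c ω) = ord c + ord ω`. -/
theorem ordDifferential_smul' (v : Place K F) {c : F} (hc : c ≠ 0) {ω : Ω[F⁄K]} (hω : ω ≠ 0) :
    v.ordDifferential (c • ω) = v.ord c + v.ordDifferential ω := by
  refine v.ordDifferential_smul hc fun h => hω ?_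
  rw [← v.differentialCoeff_smul_dCoord ω, h, zero_smul]

omit [IsAlgClosed K] [IsFF K F] in
/-- The operator `s d/ds` keeps a nonzero order. -/
theorem theta_order {f : LaurentSeries K} (hf : f.order ≠ 0) :
    (theta f).order = f.order ∧ theta f ≠ 0 := by
  have hf0 : f ≠ 0 := fun h => hf (by rw [h, HahnSeries.order_zero])
  have hc : (theta f).coeff f.order ≠ 0 := by
    rw [coeff_theta]
    exact mul_ne_zero (Int.cast_ne_zero.2 hf) (by rwa [Ne, HahnSeries.coeff_order_eq_zero])
  have hne : theta f ≠ 0 := fun h => hc (by rw [h]; rfl)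
  exact ⟨le_antisymm (HahnSeries.order_le_of_coeff_ne_zero hc)
    ((sge_theta (sge_order f)).le_order hne), hne⟩

/-- If `f - a` has order `e ≠ 0` at `v` then `df` has order `e - 1`. -/
theorem ordDifferential_D (v : Place K F) {f : F} {a : K}
    (he : v.ord (f - algebraMap K F a) ≠ 0) :
    v.ordDifferential (D K F f) = v.ord (f - algebraMap K F a) - 1 := by
  obtain ⟨u, hu, hd⟩ := exists_dCoord_eq v
  set g := v.differentialCoeff (D K F f) with hg
  have hgd : g • v.dCoord = D K F f := v.differentialCoeff_smul_dCoord _
  obtain ⟨δ, hsmul, hD⟩ := exists_derivation hu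
  have hfa : D K F f = D K F (f - algebraMap K F a) := by
    rw [map_sub, Derivation.map_algebraMap, sub_zero]
  have h1 := congrArg δ hgd
  rw [hd, hsmul, hD, expand_t, theta_single, hfa, hD] at h1
  obtain ⟨h2, h3⟩ := theta_order (f := expand hu (f - algebraMap K F a)) (by rwa [order_expand])
  have hg0 : expand hu g ≠ 0 := fun h => h3 (by rw [← h1, h, zero_mul])
  have hs : (HahnSeries.single (1 : ℤ) (((1 : ℤ) : K) * 1) : LaurentSeries K) ≠ 0 := by simp
  have h4 := congrArg HahnSeries.order h1
  rw [HahnSeries.order_mul hg0 hs, HahnSeries.order_single (by simp), h2, order_expand,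
    order_expand] at h4
  show v.ord g = _
  omega

end FermatAgent.Curve
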