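import Fermat.Agent.Curve.JFun
import Fermat.Agent.ES.Ring.Expansion

/-!
# Expansions in `q^{1/M}` as expansions in a local coordinate
-/

set_option autoImplicit false

open UpperHalfPlane hiding I
open Metric
open scoped MatrixGroups

noncomputable section

namespace FermatAgent.Curve.Red

open FermatAgent.ES

variable {M : ℕ} [NeZero M]

/-- The two notations for `e^{2πiτ/M}` agree. -/
theorem qw_natCast_eq_qm (M : ℕ) (τ : ℍ) : qw (M : ℝ) τ = qm M τ := rfl

/-- An expansion in the coordinate `q^{1/M}` is an `ES` expansion. -/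
theorem hasLExp_of_hasLoc {f : ℍ → ℂ} {P : LaurentSeries ℂ}
    (h : HasLoc (qw (M : ℝ)) f P) : HasLExp M f P := by
  obtain ⟨r, G, hG, hGf, -, rfl⟩ := h
  refine ⟨r, taylorPS G, fun τ => ?_, rfl⟩
  have hn : ‖qw (M : ℝ) τ‖ < 1 :=
    (locCoord_qw (Nat.cast_pos.mpr (Nat.pos_of_ne_zero (NeZero.ne M)))).norm_lt τ
  have := hasSum_taylorPS hG hn
  rw [hGf] at this
  simpa [qw_natCast_eq_qm] using this

/-- An `ES` expansion is an expansion in the coordinate `q^{1/M}`. -/
theorem hasLoc_of_hasLExp {f : ℍ → ℂ} {s : LaurentSeries ℂ}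
    (h : HasLExp M f s) : HasLoc (qw (M : ℝ)) f s := by
  obtain ⟨r, c, hc, rfl⟩ := h
  have hd : DifferentiableOn ℂ (HasExp.discFun c) (ball 0 1) := by
    intro q hq
    refine ((hc.hasFPowerSeriesOnBall.analyticAt_of_mem ?_).differentiableAt).differentiableWithinAt
    simpa [← ENNReal.coe_one, mem_ball_zero_iff] using hq
  refine ⟨r, HasExp.discFun c, hd, fun τ => ?_, fun τ h0 => absurd h0 (qw_ne_zero _ τ), ?_⟩
  · exact (hc.eq_discFun τ).symm
  · rw [taylorPS_eq_of_hasSum fun q hq => hc.hasSum_disc hq,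
      show PowerSeries.mk (fun e => PowerSeries.coeff e c) = c from
        PowerSeries.ext fun e => by simp]

/-- An expansion in `q` is an expansion at infinity. -/
theorem hasLoc_of_hasExp {f : ℍ → ℂ} {c : PowerSeries ℂ} (h : HasExp 1 f c) :
    HasLoc (qw 1) f (HahnSeries.ofPowerSeries ℤ ℂ c) := by
  simpa using hasLoc_of_hasLExp (HasLExp.of_exp h)

end FermatAgent.Curve.Red
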